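/-
Two-component semistable models over a base ramified at the residue characteristic, and
trivialisations of Kummer functions modulo powers of the uniformiser.
-/
import Fermat.Agent.Models.DetectDefs
import Fermat.Agent.Models.PointForm

set_option autoImplicit false

noncomputable section

namespace Fermat.Agent.Models

open IsLocalRing

variable {O F : Type} [CommRing O] [IsDomain O] [IsDiscreteValuationRing O] [Field F] [Algebra O F]

/-- A closed point of the special fibre lying on the component `i` only, with parameters `π, x`. -/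
def IsSmoothOn (B : Subalgebra O F) (π : O) (P : Bool → ValuationSubring F) (i : Bool)
    (m : Ideal B) : Prop :=
  (∀ b : B, (b : F) ∈ (P i).nonunits → b ∈ m) ∧
  (∃ b : B, (b : F) ∈ (P (!i)).nonunits ∧ b ∉ m) ∧
  ∃ x : B, x ∈ m ∧ (x : F) ∉ (P i).nonunits ∧
    ∀ z ∈ m, ∃ s ∉ m, s * z ∈ Ideal.span {algebraMap O B π, x}

/-- `x`, `y`, `u` are parameters at a crossing `x y = π ^ e u` of the two components: `x` vanishes
along `P true`, `y` along `P false`, and `x` comes from the base field `F₀`. -/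
structure IsNodeParam (B : Subalgebra O F) (π : O) (P : Bool → ValuationSubring F) (e : ℕ)
    (F₀ : Subfield F) (m : Ideal B) (x y u : B) : Prop where
  centre : ∀ i, ∀ b : B, (b : F) ∈ (P i).nonunits → b ∈ m
  fixed : (x : F) ∈ F₀
  u_notMem : u ∉ m
  mul_eq : x * y = algebraMap O B π ^ e * u
  x_mem : x ∈ m
  y_mem : y ∈ m
  x_true : (x : F) ∈ (P true).nonunits
  x_false : (x : F) ∉ (P false).nonunits
  y_false : (y : F) ∈ (P false).nonunits
  y_true : (y : F) ∉ (P true).nonunits
  gen : ∀ z ∈ m, ∃ s ∉ m, s * z ∈ Ideal.span {x, y, algebraMap O B π}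

/-- A closed point of the special fibre on both components. -/
def IsNodeOf (B : Subalgebra O F) (π : O) (P : Bool → ValuationSubring F) (e : ℕ) (F₀ : Subfield F)
    (m : Ideal B) : Prop :=
  ∃ x y u : B, IsNodeParam B π P e F₀ m x y u

/-- One chart of a two-component semistable model. -/
structure IsWildChart (B : Subalgebra O F) (w : F) (π : O) (P : Bool → ValuationSubring F) (e : ℕ)
    (F₀ : Subfield F) : Prop where
  fibre : ChartFibre B π P
  closed : ∀ x : F, IsIntegral B x → x ∈ B
  fractionRing : IsFractionRing B F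
  /-- Integral over the polynomials in the coordinate. -/
  integral : ∀ b ∈ B, IsIntegral (Algebra.adjoin O ({w} : Set F)) b
  /-- Each component is the local ring at its centre. -/
  frac : ∀ i, ∀ z ∈ P i, ∃ a b : B, (b : F) ∉ (P i).nonunits ∧ z * (b : F) = a
  points : ∀ m : Ideal B, m.IsMaximal → algebraMap O B π ∈ m →
    (∃ i, IsSmoothOn B π P i m) ∨ IsNodeOf B π P e F₀ m

/-- A two-component semistable model in residue characteristic `p`, with `p = π ^ e` up to a
unit. -/
structure IsWildModel (M : Model O F) (π : O) (P : Bool → ValuationSubring F) (e p : ℕ)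
    (F₀ : Subfield F) : Prop where
  irreducible : Irreducible π
  injective : Function.Injective (algebraMap O F)
  prime : p.Prime
  e_pos : 0 < e
  natCast_eq : ∃ u : Oˣ, (p : O) = u * π ^ e
  algClosed : IsAlgClosed (ResidueField O)
  uniformizer : ∀ i, algebraMap O F π ∈ (P i).nonunits ∧
    ∀ x ∈ (P i).nonunits, x / algebraMap O F π ∈ P i
  chart₀ : IsWildChart M.B₀ M.w π P e F₀
  chart₁ : IsWildChart M.B₁ M.w⁻¹ π P e F₀
  exists_node : ∃ m : Ideal M.B₀, m.IsMaximal ∧ IsNodeOf M.B₀ π P e F₀ m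

/-- An automorphism fixing the base field, with `τ π / π = 1 + β π ^ b` to first order and trivial
modulo `π ^ (b + 1)` on both charts. -/
structure IsWildAut (M : Model O F) (π : O) (F₀ : Subfield F) (τ : F →+* F) (b : ℕ) (β : O) :
    Prop where
  fix : ∀ x ∈ F₀, τ x = x
  fix_w : τ M.w = M.w
  unit : IsUnit β
  pos : 0 < b
  map_pi : ∃ r : O, τ (algebraMap O F π) =
    algebraMap O F (π * (1 + β * π ^ b + π ^ (b + 1) * r))
  const : ∀ a : O, ∃ a' : O, τ (algebraMap O F a) = algebraMap O F a'
  trivial₀ : TrivialMod M.B₀ (π ^ (b + 1)) τ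
  trivial₁ : TrivialMod M.B₁ (π ^ (b + 1)) τ

/-- Roots of `f` at all points of both charts. -/
def RootsEverywhere (M : Model O F) (p : ℕ) (f : F) : Prop :=
  (∀ m : Ideal M.B₀, m.IsMaximal → HasRootAt M.B₀ p f m) ∧
  ∀ m : Ideal M.B₁, m.IsMaximal → HasRootAt M.B₁ p f m

/-- A section of the roots of `f` on a chart, a generator along the special fibre. -/
def IsGenMod (B : Subalgebra O F) (π : O) (p : ℕ) (f r : F) : Prop :=
  r ^ p / f ∈ B ∧ ∃ c ∈ B, ∃ d ∈ B, r ^ p / f * c = 1 + π • d

/-- Generating sections on the two charts agreeing modulo `π ^ k` on the overlap. -/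
structure IsTriv (M : Model O F) (π : O) (p : ℕ) (f : F) (k : ℕ) (r₀ r₁ : F) : Prop where
  gen₀ : IsGenMod M.B₀ π p f r₀
  gen₁ : IsGenMod M.B₁ π p f r₁
  close : ∃ d : F, d ^ p / f ∈ M.B₀₁ ∧ r₀ - r₁ = π ^ k • d

/-- The sheaf of roots of `f` is trivial modulo `π ^ k`. -/
def Triv (M : Model O F) (π : O) (p : ℕ) (f : F) (k : ℕ) : Prop :=
  ∃ r₀ r₁ : F, IsTriv M π p f k r₀ r₁

/-- `f` has exponent `s` along every node of the chart. -/
def ExpEq (B : Subalgebra O F) (π : O) (P : Bool → ValuationSubring F) (e : ℕ) (F₀ : Subfield F)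
    (p : ℕ) (f : F) (s : ℕ) : Prop :=
  ∀ (m : Ideal B) (x y u : B), m.IsMaximal → IsNodeParam B π P e F₀ m x y u →
    ∃ (h : F) (a b : B) (i j : ℕ), a ∉ m ∧ b ∉ m ∧ i % p = s % p ∧
      algebraMap B F (b * x ^ i * algebraMap O B π ^ j) * h ^ p = algebraMap B F a * f

namespace IsWildModel

variable {M : Model O F} {π : O} {P : Bool → ValuationSubring F} {e p : ℕ} {F₀ : Subfield F}
  (h : IsWildModel M π P e p F₀)

include h

theorem pi_ne_zero : algebraMap O F π ≠ 0 := fun h0 =>
  h.irreducible.ne_zero (h.injective (h0.trans (map_zero _).symm))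

theorem mem_nonunits_iff (i : Bool) {z : F} :
    z ∈ (P i).nonunits ↔ ∃ q ∈ P i, z = π • q := by
  refine ⟨fun hz => ⟨_, (h.uniformizer i).2 z hz, ?_⟩, ?_⟩
  · rw [Algebra.smul_def, mul_div_cancel₀ _ h.pi_ne_zero]
  · rintro ⟨q, hq, rfl⟩
    rw [Algebra.smul_def, ValuationSubring.mem_nonunits_iff, map_mul]
    exact mul_lt_one_of_lt_of_le (((P i).mem_nonunits_iff).mp (h.uniformizer i).1)
      ((ValuationSubring.valuation_le_one_iff _ _).mpr hq)

theorem algebraMap_mem (i : Bool) (a : O) : algebraMap O F a ∈ P i :=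
  h.chart₀.fibre.le i _ (M.B₀.algebraMap_mem a)

theorem algebraMap_nonunit_iff (i : Bool) (a : O) :
    algebraMap O F a ∈ (P i).nonunits ↔ π ∣ a := by
  constructor
  · intro ha
    by_contra hn
    have hu : IsUnit a := notMem_maximalIdeal.mp (by
      rw [h.irreducible.maximalIdeal_eq, Ideal.mem_span_singleton]; exact hn)
    obtain ⟨u, rfl⟩ := hu
    have h1 := ((P i).mem_nonunits_iff).mp ha
    have h2 := (ValuationSubring.valuation_le_one_iff _ _).mpr
      (h.algebraMap_mem i ((u⁻¹ : Oˣ) : O))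
    have h3 : (P i).valuation (algebraMap O F (u : O)) *
        (P i).valuation (algebraMap O F ((u⁻¹ : Oˣ) : O)) = 1 := by
      rw [← map_mul, ← map_mul, Units.mul_inv, map_one, map_one]
    exact (mul_lt_one_of_lt_of_le h1 h2).ne h3
  · rintro ⟨c, rfl⟩
    refine (h.mem_nonunits_iff i).mpr ⟨_, h.algebraMap_mem i c, ?_⟩
    rw [Algebra.smul_def, map_mul]

end IsWildModel

end Fermat.Agent.Models
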