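/-
A two-component chart with smooth points and crossings `x y = π`, extended to a totally ramified
base: a chart of a wild two-component model, with crossings `x y = ϖ ^ e`.
-/
import Fermat.Agent.Models.Wild.Defs
import Fermat.Agent.Models.SemiTwo

set_option autoImplicit false
set_option linter.style.haveILetI false
set_option linter.unusedSectionVars false

noncomputable section

namespace Fermat.Agent.Models

open IsLocalRing

variable {O O' F F' : Type} [CommRing O] [IsDomain O] [IsDiscreteValuationRing O]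
  [CommRing O'] [IsDomain O'] [IsDiscreteValuationRing O']
  [Field F] [Field F'] [Algebra O F]
  [Algebra O O'] [Algebra O' F'] [Algebra F F'] [Algebra O F'] [IsScalarTower O F F']
  [IsScalarTower O O' F'] (X : TotRam O O' F F')
  {B : Subalgebra O F} {P₂ : Bool → ValuationSubring F} {P₁ : Bool → ValuationSubring F'}

/-- The chart in the extension. -/
def extIncl (B : Subalgebra O F) : B →+* X.extend B :=
  ((algebraMap F F').comp B.val.toRingHom).codRestrict (X.extend B).toSubsemiring
    fun b => X.map_mem_extend B b.2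

theorem coe_extIncl (b : B) : ((extIncl X B b : X.extend B) : F') = algebraMap F F' b := rfl

theorem extIncl_isIntegral : (extIncl X B).IsIntegral := fun z => by
  letI : Algebra B (X.extend B) := (extIncl X B).toAlgebra
  let φ : X.extend B →ₐ[B] F' := { (X.extend B).val.toRingHom with commutes' := fun _ => rfl }
  exact (isIntegral_algHom_iff φ Subtype.val_injective).mp (X.isIntegral_extend z.2)

theorem nonunits_of_comap (hP : ∀ i x, algebraMap F F' x ∈ P₁ i ↔ x ∈ P₂ i) {i : Bool} {x : F} :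
    algebraMap F F' x ∈ (P₁ i).nonunits ↔ x ∈ (P₂ i).nonunits := by
  have key : ∀ {K : Type} [Field K] (V : ValuationSubring K) (y : K),
      y ∈ V.nonunits ↔ y = 0 ∨ y⁻¹ ∉ V := fun {K} _ V y => by
    rw [ValuationSubring.mem_nonunits_iff, ← V.valuation_le_one_iff, not_le, map_inv₀]
    rcases eq_or_ne y 0 with rfl | hy
    · simp
    · rw [one_lt_inv₀ (zero_lt_iff.mpr (V.valuation.ne_zero_iff.mpr hy))]
      simp [hy]
  rw [key, key, ← hP, map_inv₀, _root_.map_eq_zero]

variable (hP : ∀ i x, algebraMap F F' x ∈ P₁ i ↔ x ∈ P₂ i)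
  (hϖ : ∀ i, X.gen ∈ (P₁ i).nonunits) (hf : ChartFibre B X.π P₂)

include hP hϖ hf

theorem extend_le (i : Bool) {z : F'} (hz : z ∈ X.extend B) : z ∈ P₁ i := by
  obtain ⟨b, hb, rfl⟩ := hz
  exact sum_mem fun j _ => (P₁ i).mul_mem _ _ ((hP i _).mpr (hf.le i _ (hb j)))
    (pow_mem ((P₁ i).nonunits_subset (hϖ i)) _)

/-- An element of the extended chart and its part in the base. -/
theorem mem_nonunits_iff_base (i : Bool) {z r : F'} {b : F} (hr : r ∈ X.extend B)
    (h : z = algebraMap F F' b + X.gen * r) : z ∈ (P₁ i).nonunits ↔ b ∈ (P₂ i).nonunits := by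
  have hgr : X.gen * r ∈ (P₁ i).nonunits := by
    rw [ValuationSubring.mem_nonunits_iff, map_mul]
    exact mul_lt_one_of_lt_of_le ((P₁ i).mem_nonunits_iff.mp (hϖ i))
      ((ValuationSubring.valuation_le_one_iff _ _).mpr (extend_le X hP hϖ hf i hr))
  rw [← nonunits_of_comap hP, h]
  simp only [ValuationSubring.mem_nonunits_iff] at hgr ⊢
  constructor
  · intro h1
    have := Valuation.map_sub (P₁ i).valuation (algebraMap F F' b + X.gen * r) (X.gen * r)
    rw [add_sub_cancel_right] at this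
    exact this.trans_lt (max_lt h1 hgr)
  · intro h1
    exact (Valuation.map_add (P₁ i).valuation _ _).trans_lt (max_lt h1 hgr)

omit hP hϖ hf in
theorem pi_eq_gen : algebraMap O' F' X.ϖ = X.gen := rfl

omit hP hϖ in
/-- The special fibre is reduced. -/
theorem extend_reduced_aux (b : F) (hb : b ∈ B) (hu : ∀ i, b ∈ (P₂ i).nonunits) :
    ∃ c ∈ X.extend B, algebraMap F F' b = X.gen * c := by
  obtain ⟨c, hc, hbc⟩ := hf.reduced b hb hu
  obtain ⟨d, hd⟩ : ∃ d, X.e = d + 1 := ⟨X.e - 1, (Nat.sub_add_cancel X.e_pos).symm⟩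
  refine ⟨X.gen ^ d * algebraMap O' F' ((X.unit⁻¹ : O'ˣ) : O') * algebraMap F F' c,
    mul_mem (mul_mem (pow_mem (X.gen_mem_extend B) _) ((X.extend B).algebraMap_mem _))
      (X.map_mem_extend B hc), ?_⟩
  rw [hbc, Algebra.smul_def, map_mul, X.gen_mul_unit_inv, hd]
  ring

variable (hclosed : ∀ x : F', IsIntegral (X.extend B) x → x ∈ X.extend B)
  (hnoeth : IsNoetherianRing (X.extend B)) (hfr : IsFractionRing (X.extend B) F')

include hnoeth in
theorem extend_chartFibre : ChartFibre (X.extend B) X.ϖ P₁ where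
  le i _ hz := extend_le X hP hϖ hf i hz
  noetherian := hnoeth
  reduced z hz hu := by
    obtain ⟨b, hb, r, hr, hbr⟩ := X.exists_sub_eq B hz
    obtain ⟨c, hc, hbc⟩ := extend_reduced_aux X hf b hb fun i =>
      (mem_nonunits_iff_base X hP hϖ hf i hr hbr).mp (hu i)
    refine ⟨c + r, add_mem hc hr, ?_⟩
    rw [Algebra.smul_def, pi_eq_gen, hbr, hbc]
    ring
  maximal_above i mm hmm hle hex := by
    haveI := hmm
    obtain ⟨z, hzm, hzu⟩ := hex
    obtain ⟨b, hb, r, hr, hbr⟩ := X.exists_sub_eq B z.2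
    have hgen : (⟨X.gen, X.gen_mem_extend B⟩ : X.extend B) ∈ mm := hle _ (hϖ i)
    have hzb : z = extIncl X B ⟨b, hb⟩ + ⟨X.gen, X.gen_mem_extend B⟩ * ⟨r, hr⟩ := Subtype.ext hbr
    have hbm : extIncl X B ⟨b, hb⟩ ∈ mm := by
      rw [hzb] at hzm
      exact (add_mem_cancel_right (mm.mul_mem_right _ hgen)).mp hzm
    haveI : (mm.comap (extIncl X B)).IsMaximal := by
      refine hf.maximal_above i _ (hmm.comap _) (fun c hc => ?_) ⟨⟨b, hb⟩, hbm, fun h => hzu ?_⟩
      · exact hle _ ((nonunits_of_comap hP).mpr hc)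
      · exact (mem_nonunits_iff_base X hP hϖ hf i hr hbr).mpr h
    letI : Algebra B (X.extend B) := (extIncl X B).toAlgebra
    haveI : Algebra.IsIntegral B (X.extend B) := ⟨extIncl_isIntegral X⟩
    exact Ideal.isMaximal_of_isIntegral_of_isMaximal_comap (R := B) mm ‹_›
  residue mm hmm hπm z := by
    haveI := hmm
    obtain ⟨b, hb, r, hr, hbr⟩ := X.exists_sub_eq B z.2
    haveI : (mm.comap (extIncl X B)).IsMaximal :=
      Ideal.isMaximal_comap_of_isIntegral_of_isMaximal' (extIncl X B) (extIncl_isIntegral X) mm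
    have hπ : algebraMap O B X.π ∈ mm.comap (extIncl X B) := by
      rw [Ideal.mem_comap]
      have : extIncl X B (algebraMap O B X.π) = algebraMap O' (X.extend B) X.ϖ ^ X.e *
          algebraMap O' (X.extend B) ((X.unit⁻¹ : O'ˣ) : O') := Subtype.ext X.gen_mul_unit_inv
      rw [this]
      exact mm.mul_mem_right _ (Ideal.pow_mem_of_mem _ hπm _ X.e_pos)
    obtain ⟨c, hc⟩ := hf.residue _ ‹_› hπ ⟨b, hb⟩
    refine ⟨algebraMap O O' c, ?_⟩
    have e : z - algebraMap O' (X.extend B) (algebraMap O O' c) =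
        extIncl X B (⟨b, hb⟩ - algebraMap O B c) + algebraMap O' (X.extend B) X.ϖ * ⟨r, hr⟩ := by
      refine Subtype.ext ?_
      show (z : F') - algebraMap O' F' (algebraMap O O' c) =
        algebraMap F F' (b - algebraMap O F c) + X.gen * r
      rw [X.base_eq, map_sub, hbr]
      ring
    rw [e]
    exact add_mem hc (mm.mul_mem_right _ hπm)

variable (hpts : SemiPoints B X.π) (hu : ∀ i, algebraMap O F X.π ∈ (P₂ i).nonunits)
  (hmax : ∀ i, ¬ (center hf i).IsMaximal)

include hpts hu hmax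

/-- A nonunit of the extended chart is divisible by the uniformiser up to a unit. -/
theorem exists_mul_eq_gen (i : Bool) {a : F'} (ha : a ∈ X.extend B) (han : a ∈ (P₁ i).nonunits) :
    ∃ t : B, t ∉ center hf i ∧ ∃ a' ∈ X.extend B, algebraMap F F' t * a = X.gen * a' := by
  obtain ⟨b, hb, r, hr, hbr⟩ := X.exists_sub_eq B ha
  have hbn := (mem_nonunits_iff_base X hP hϖ hf i hr hbr).mp han
  obtain ⟨t, ht, hts⟩ := center_gen hf hpts hu hmax (z := ⟨b, hb⟩) (mem_center.mpr hbn)
  obtain ⟨c, hc⟩ := Ideal.mem_span_singleton.mp hts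
  obtain ⟨d, hd⟩ : ∃ d, X.e = d + 1 := ⟨X.e - 1, (Nat.sub_add_cancel X.e_pos).symm⟩
  refine ⟨t, ht, X.gen ^ d * algebraMap O' F' ((X.unit⁻¹ : O'ˣ) : O') * algebraMap F F' c +
    algebraMap F F' t * r, add_mem (mul_mem (mul_mem (pow_mem (X.gen_mem_extend B) _)
      ((X.extend B).algebraMap_mem _)) (X.map_mem_extend B c.2))
      (mul_mem (X.map_mem_extend B t.2) hr), ?_⟩
  have e := congrArg (fun z : B => algebraMap F F' (z : F)) hc
  simp only [MulMemClass.coe_mul, Subalgebra.coe_algebraMap, map_mul] at e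
  rw [hbr, mul_add, e, X.gen_mul_unit_inv, hd]
  ring

/-- Each component is the local ring at its centre. -/
theorem extend_frac [IsFractionRing B F] (i : Bool) {z : F'} (hz : z ∈ P₁ i) :
    ∃ a b : X.extend B, (b : F') ∉ (P₁ i).nonunits ∧ z * (b : F') = a := by
  classical
  haveI : FiniteDimensional F F' := FiniteDimensional.of_finrank_pos (by
    rw [X.finrank_eq]; exact X.e_pos)
  have hgI : IsIntegral F X.gen :=
    (X.integral.map (IsScalarTower.toAlgHom O O' F')).tower_top
  let pb : PowerBasis F F' := PowerBasis.ofAdjoinEqTop hgI X.adjoin_eq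
  have hgen : pb.gen = X.gen := PowerBasis.ofAdjoinEqTop_gen hgI X.adjoin_eq
  choose num den hden heq using fun j : Fin pb.dim =>
    IsFractionRing.div_surjective (A := B) (K := F) (pb.basis.repr z j)
  set d : B := ∏ j, den j
  have hd : d ≠ 0 := Finset.prod_ne_zero_iff.mpr fun j _ => nonZeroDivisors.ne_zero (hden j)
  have hzd : z * algebraMap F F' d ∈ X.extend B := by
    rw [← pb.basis.sum_repr z, Finset.sum_mul]
    refine sum_mem fun j _ => ?_
    rw [Algebra.smul_def, pb.basis_eq_pow, hgen, mul_right_comm, ← map_mul]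
    refine mul_mem (X.map_mem_extend B ?_) (pow_mem (X.gen_mem_extend B) _)
    have hne : ((den j : B) : F) ≠ 0 := fun h => nonZeroDivisors.ne_zero (hden j) (Subtype.ext h)
    have e : pb.basis.repr z j * (d : F) =
        ((num j * ∏ k ∈ Finset.univ.erase j, den k : B) : F) := by
      rw [← heq j, show d = den j * ∏ k ∈ Finset.univ.erase j, den k from
        (Finset.mul_prod_erase _ _ (Finset.mem_univ j)).symm]
      show algebraMap B F (num j) / algebraMap B F (den j) * _ = _
      push_cast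
      show (num j : F) / (den j : F) * _ = _
      field_simp
    rw [e]
    exact SetLike.coe_mem _
  obtain ⟨k, d', t, hd', ht, htd⟩ := exists_pow_center hf hpts hu hmax X.π_ne i hd
  have hU : ∀ {b : B}, b ∉ center hf i → algebraMap F F' b ∉ (P₁ i).nonunits := fun hb h =>
    hb (mem_center.mpr ((nonunits_of_comap hP).mp h))
  -- lower the power of the uniformiser
  have key : ∀ n : ℕ, ∀ a ∈ X.extend B, ∀ s ∈ X.extend B, s ∉ (P₁ i).nonunits →
      z * (s * X.gen ^ n) = a → ∃ a b : X.extend B, (b : F') ∉ (P₁ i).nonunits ∧ z * (b : F') = a := by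
    intro n
    induction n with
    | zero =>
      intro a ha s hs hsn he
      exact ⟨⟨a, ha⟩, ⟨s, hs⟩, hsn, by simpa using he⟩
    | succ n ih =>
      intro a ha s hs hsn he
      have han : a ∈ (P₁ i).nonunits := by
        rw [ValuationSubring.mem_nonunits_iff, ← he, pow_succ, ← mul_assoc, ← mul_assoc, map_mul]
        exact (mul_le_of_le_one_left' ((ValuationSubring.valuation_le_one_iff _ _).mpr
          ((P₁ i).mul_mem _ _ ((P₁ i).mul_mem _ _ hz (extend_le X hP hϖ hf i hs))
            (pow_mem ((P₁ i).nonunits_subset (hϖ i)) n)))).trans_lt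
          ((P₁ i).mem_nonunits_iff.mp (hϖ i))
      obtain ⟨t, ht, a', ha', hta⟩ := exists_mul_eq_gen X hP hϖ hf hpts hu hmax i ha han
      refine ih a' ha' (algebraMap F F' t * s) (mul_mem (X.map_mem_extend B t.2) hs) (fun h => ?_) ?_
      · rw [ValuationSubring.mem_nonunits_iff, map_mul] at h
        have h1 := not_lt.mp ((ValuationSubring.mem_nonunits_iff _).not.mp (hU ht))
        have h2 := not_lt.mp ((ValuationSubring.mem_nonunits_iff _).not.mp hsn)
        exact absurd h (not_lt.mpr (one_le_mul h1 h2))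
      · refine mul_left_cancel₀ X.gen_ne ?_
        rw [← hta, ← he, pow_succ]
        ring
  refine key (X.e * k) _ (mul_mem hzd (X.map_mem_extend B t.2))
    (algebraMap F F' d' * algebraMap O' F' ((X.unit⁻¹ : O'ˣ) : O') ^ k)
    (mul_mem (X.map_mem_extend B d'.2) (pow_mem ((X.extend B).algebraMap_mem _) _)) (fun h => ?_) ?_
  · rw [ValuationSubring.mem_nonunits_iff, map_mul, map_pow] at h
    have h1 := not_lt.mp ((ValuationSubring.mem_nonunits_iff _).not.mp (hU hd'))
    have hvu : (P₁ i).valuation (algebraMap O' F' ((X.unit⁻¹ : O'ˣ) : O')) = 1 := by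
      have hmem : ∀ a : O', (P₁ i).valuation (algebraMap O' F' a) ≤ 1 := fun a =>
        (ValuationSubring.valuation_le_one_iff _ _).mpr
          (extend_le X hP hϖ hf i ((X.extend B).algebraMap_mem a))
      refine le_antisymm (hmem _) ?_
      have e : (P₁ i).valuation (algebraMap O' F' ((X.unit⁻¹ : O'ˣ) : O')) *
          (P₁ i).valuation (algebraMap O' F' (X.unit : O')) = 1 := by
        rw [← map_mul, ← map_mul, Units.inv_mul, map_one, map_one]
      calc (1 : _) = _ := e.symm
        _ ≤ _ := mul_le_of_le_one_right' (hmem _)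
    rw [hvu, one_pow, mul_one] at h
    exact absurd h (not_lt.mpr h1)
  · have e := congrArg (fun z : B => algebraMap F F' (z : F)) htd
    simp only [MulMemClass.coe_mul, SubmonoidClass.coe_pow, Subalgebra.coe_algebraMap, map_mul,
      map_pow] at e
    rw [mul_assoc z, mul_comm (algebraMap F F' (d : F)), e, X.gen_mul_unit_inv, mul_pow, ← pow_mul]
    ring

variable (hπ0 : algebraMap O F X.π ≠ 0) (hc : Function.Injective (center hf))

include hπ0 hc

/-- The points of the extended chart. -/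
theorem extend_points (mm : Ideal (X.extend B)) (hmm : mm.IsMaximal)
    (hπm : algebraMap O' (X.extend B) X.ϖ ∈ mm) :
    (∃ i, IsSmoothOn (X.extend B) X.ϖ P₁ i mm) ∨
      IsNodeOf (X.extend B) X.ϖ P₁ X.e (algebraMap F F').fieldRange mm := by
  haveI := hmm.isPrime
  haveI hm₀ : (mm.comap (extIncl X B)).IsMaximal :=
    Ideal.isMaximal_comap_of_isIntegral_of_isMaximal' (extIncl X B) (extIncl_isIntegral X) mm
  set m₀ := mm.comap (extIncl X B)
  have hπe : extIncl X B (algebraMap O B X.π) = algebraMap O' (X.extend B) X.ϖ ^ X.e *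
      algebraMap O' (X.extend B) ((X.unit⁻¹ : O'ˣ) : O') := Subtype.ext X.gen_mul_unit_inv
  have hπ₀ : algebraMap O B X.π ∈ m₀ := by
    rw [Ideal.mem_comap, hπe]
    exact mm.mul_mem_right _ (Ideal.pow_mem_of_mem _ hπm _ X.e_pos)
  have hπX : (⟨_, X.map_mem_extend B (B.algebraMap_mem X.π)⟩ : X.extend B) ∈ mm := hπ₀
  have hcen : ∀ i, center hf i ≤ m₀ → ∀ z : X.extend B, (z : F') ∈ (P₁ i).nonunits → z ∈ mm := by
    intro i hi z hz
    obtain ⟨b, hb, r, hr, hbr⟩ := X.exists_sub_eq B z.2
    have hzb : z = extIncl X B ⟨b, hb⟩ + algebraMap O' (X.extend B) X.ϖ * ⟨r, hr⟩ := Subtype.ext hbr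
    rw [hzb]
    exact add_mem (hi (mem_center.mpr ((mem_nonunits_iff_base X hP hϖ hf i hr hbr).mp hz)))
      (mm.mul_mem_right _ hπm)
  rcases semiTwo_cases hf hpts hu hmax hπ0 hc hm₀ hπ₀ with ⟨i, hi⟩ | ⟨x, y, u, hn⟩
  · left
    obtain ⟨x, hxm, hxc, hgen⟩ := hi.param
    obtain ⟨b, hbc, hbm⟩ := SetLike.not_le_iff_exists.mp hi.other
    refine ⟨i, hcen i hi.centre, ⟨extIncl X B b, (nonunits_of_comap hP).mpr (mem_center.mp hbc), hbm⟩,
      extIncl X B x, hxm, fun h => hxc (mem_center.mpr ((nonunits_of_comap hP).mp h)), fun z hz => ?_⟩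
    obtain ⟨s, hs, hsz⟩ := X.maximal_gen mm hπX x x (fun w hw => by
      obtain ⟨s, hs, hsw⟩ := hgen w hw
      refine ⟨s, hs, Ideal.span_mono ?_ hsw⟩
      rintro _ (rfl | rfl) <;> simp) z hz
    refine ⟨s, hs, Ideal.span_mono ?_ hsz⟩
    rintro _ (rfl | rfl | rfl)
    · exact Or.inr rfl
    · exact Or.inr rfl
    · exact Or.inl rfl
  · right
    refine ⟨extIncl X B x, extIncl X B y,
      algebraMap O' (X.extend B) ((X.unit⁻¹ : O'ˣ) : O') * extIncl X B u, fun i => hcen i (hn.centre i),
      ⟨(x : F), rfl⟩, fun h => ?_, ?_, hn.x_mem, hn.y_mem,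
      (nonunits_of_comap hP).mpr (mem_center.mp hn.x_true),
      fun h => hn.x_false (mem_center.mpr ((nonunits_of_comap hP).mp h)),
      (nonunits_of_comap hP).mpr (mem_center.mp hn.y_false),
      fun h => hn.y_true (mem_center.mpr ((nonunits_of_comap hP).mp h)), fun z hz => ?_⟩
    · rcases Ideal.IsPrime.mem_or_mem ‹_› h with h | h
      · exact hmm.ne_top (Ideal.eq_top_of_isUnit_mem _ h (X.unit⁻¹.isUnit.map _))
      · exact hn.u_notMem h
    · rw [← map_mul, hn.mul_eq, map_mul, hπe]
      ring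
    · exact X.maximal_gen mm hπX x y (fun w hw => by
        obtain ⟨s, hs, hsw⟩ := hn.gen w hw
        refine ⟨s, hs, Ideal.span_mono ?_ hsw⟩
        rintro _ (rfl | rfl) <;> simp) z hz

include hclosed hnoeth hfr in
/-- The chart of the wild model. -/
theorem extend_isWildChart [IsFractionRing B F] (w : F')
    (hint : ∀ b ∈ X.extend B, IsIntegral (Algebra.adjoin O' ({w} : Set F')) b) :
    IsWildChart (X.extend B) w X.ϖ P₁ X.e (algebraMap F F').fieldRange where
  fibre := extend_chartFibre X hP hϖ hf hnoeth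
  closed := hclosed
  fractionRing := hfr
  integral := hint
  frac i _ hz := extend_frac X hP hϖ hf hpts hu hmax i hz
  points := extend_points X hP hϖ hf hpts hu hmax hπ0 hc

/-- A crossing stays a crossing. -/
theorem extend_exists_node {m₀ : Ideal B} [hm₀ : m₀.IsMaximal] {x y u : B}
    (hn : IsNodeTwo hf m₀ x y u) :
    ∃ mm : Ideal (X.extend B), mm.IsMaximal ∧
      IsNodeOf (X.extend B) X.ϖ P₁ X.e (algebraMap F F').fieldRange mm := by
  letI : Algebra B (X.extend B) := (extIncl X B).toAlgebra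
  haveI : Algebra.IsIntegral B (X.extend B) := ⟨extIncl_isIntegral X⟩
  have hinj : RingHom.ker (algebraMap B (X.extend B)) ≤ m₀ := by
    rw [RingHom.injective_iff_ker_eq_bot _ |>.mp fun a b h =>
      Subtype.ext ((algebraMap F F').injective (congrArg Subtype.val h))]
    exact bot_le
  obtain ⟨mm, hmm, hcomap⟩ := Ideal.exists_ideal_over_maximal_of_isIntegral m₀ hinj
  refine ⟨mm, hmm, ?_⟩
  haveI := hmm.isPrime
  have hπm : algebraMap O' (X.extend B) X.ϖ ∈ mm := by
    refine X.gen_mem_of_pi mm ?_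
    show algebraMap O B X.π ∈ mm.comap (algebraMap B (X.extend B))
    rw [hcomap]
    have : algebraMap O B X.π * u ∈ m₀ := hn.mul_eq ▸ m₀.mul_mem_right _ hn.x_mem
    exact (hm₀.isPrime.mem_or_mem this).resolve_right hn.u_notMem
  rcases extend_points X hP hϖ hf hpts hu hmax hπ0 hc mm hmm hπm with ⟨i, hi⟩ | h
  · obtain ⟨b, hb, hbm⟩ := hi.2.1
    obtain ⟨c, hc', r, hr, hcr⟩ := X.exists_sub_eq B b.2
    refine absurd ?_ hbm
    have hcm : (⟨c, hc'⟩ : B) ∈ m₀ := hn.centre (!i)
      (mem_center.mpr ((mem_nonunits_iff_base X hP hϖ hf (!i) hr hcr).mp hb))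
    rw [← hcomap] at hcm
    rw [show b = extIncl X B ⟨c, hc'⟩ + algebraMap O' (X.extend B) X.ϖ * ⟨r, hr⟩ from Subtype.ext hcr]
    exact add_mem hcm (mm.mul_mem_right _ hπm)
  · exact h

end Fermat.Agent.Models
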