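/-
Functions regular modulo powers of the uniformiser on a component are constant modulo that power;
division by the uniformiser in the charts.
-/
import Fermat.Agent.Models.Wild.Defs
import Mathlib.RingTheory.Valuation.LocalSubring

set_option autoImplicit false
set_option linter.unusedSectionVars false

noncomputable section

namespace Fermat.Agent.Models

open IsLocalRing

/-- In a local ring with maximal ideal `(x, y, γ)`, a prime through `y`, `γ` but not `x` is
`(y, γ)`. -/
theorem prime_le_span_pair {R : Type} [CommRing R] [IsNoetherianRing R] [IsLocalRing R] {x y γ : R}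
    (hm : maximalIdeal R = Ideal.span {x, y, γ}) (Q : Ideal R) [hQ : Q.IsPrime] (hy : y ∈ Q)
    (hγ : γ ∈ Q) (hx : x ∉ Q) : Q ≤ Ideal.span {y, γ} := by
  refine Submodule.le_of_le_smul_of_le_jacobson_bot (I := maximalIdeal R)
    (IsNoetherian.noetherian Q) (IsLocalRing.jacobson_eq_maximalIdeal ⊥ bot_ne_top).ge ?_
  intro z hz
  have hzm : z ∈ Ideal.span {x, y, γ} := hm ▸ le_maximalIdeal hQ.ne_top hz
  obtain ⟨a, z₁, hz₁, rfl⟩ := Ideal.mem_span_insert.mp hzm
  obtain ⟨b, d, hbd⟩ := Ideal.mem_span_pair.mp hz₁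
  have hax : a * x ∈ Q := by
    have := sub_mem hz (add_mem (Q.mul_mem_left b hy) (Q.mul_mem_left d hγ))
    rw [← hbd] at this
    simpa using this
  have ha : a ∈ Q := (hQ.mem_or_mem hax).resolve_right hx
  refine Submodule.mem_sup.mpr ⟨z₁, hz₁, x * a,
    Submodule.smul_mem_smul (hm ▸ Ideal.subset_span (by simp)) ha, ?_⟩
  ring

variable {O F : Type} [CommRing O] [IsDomain O] [IsDiscreteValuationRing O] [Field F] [Algebra O F]

/-- `z` is divisible by `π ^ k` along the component. -/
def PDvd (π : O) (P : ValuationSubring F) (k : ℕ) (z : F) : Prop := ∃ q ∈ P, z = π ^ k • q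

namespace PDvd

variable {π : O} {P : ValuationSubring F} {k : ℕ} {z z' : F}

theorem add (h : PDvd π P k z) (h' : PDvd π P k z') : PDvd π P k (z + z') := by
  obtain ⟨q, hq, rfl⟩ := h
  obtain ⟨q', hq', rfl⟩ := h'
  exact ⟨q + q', P.add_mem _ _ hq hq', (smul_add _ _ _).symm⟩

theorem neg (h : PDvd π P k z) : PDvd π P k (-z) := by
  obtain ⟨q, hq, rfl⟩ := h
  exact ⟨-q, P.neg_mem _ hq, (smul_neg _ _).symm⟩

theorem sub (h : PDvd π P k z) (h' : PDvd π P k z') : PDvd π P k (z - z') := by
  rw [sub_eq_add_neg]; exact h.add h'.neg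

theorem mul_mem (h : PDvd π P k z) (hz' : z' ∈ P) : PDvd π P k (z * z') := by
  obtain ⟨q, hq, rfl⟩ := h
  exact ⟨q * z', P.mul_mem _ _ hq hz', by rw [smul_mul_assoc]⟩

theorem smul_pi (h : PDvd π P k z) : PDvd π P (k + 1) (π • z) := by
  obtain ⟨q, hq, rfl⟩ := h
  exact ⟨q, hq, by rw [smul_smul, ← pow_succ']⟩

theorem mul (h : PDvd π P k z) {l : ℕ} (h' : PDvd π P l z') : PDvd π P (k + l) (z * z') := by
  obtain ⟨q, hq, rfl⟩ := h
  obtain ⟨q', hq', rfl⟩ := h'
  exact ⟨q * q', P.mul_mem _ _ hq hq', by rw [smul_mul_smul_comm, ← pow_add]⟩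

end PDvd

section Constants

variable {κ : Type} [Field κ]

/-- Integral elements over a subring stay in every valuation ring containing it. -/
theorem mem_valuationSubring_of_monic {V : ValuationSubring κ} {g : Polynomial κ} (hg : g.Monic)
    (hV : ∀ n, g.coeff n ∈ V) {z : κ} (hz : g.IsRoot z) : z ∈ V := by
  obtain ⟨q, hq, hdeg, hqm⟩ := Polynomial.lifts_and_degree_eq_and_monic
    ((Polynomial.lifts_iff_coeff_lifts (f := algebraMap V κ) g).mpr fun n => ⟨⟨_, hV n⟩, rfl⟩) hg
  obtain ⟨v, hv⟩ := (IsIntegrallyClosed.isIntegral_iff (R := V) (K := κ) (x := z)).mp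
    ⟨q, hqm, by rw [← Polynomial.eval_map, hq]; exact hz⟩
  exact hv ▸ v.2

/-- An element of every valuation ring over an algebraically closed image field is a constant. -/
theorem exists_eq_of_forall_valuation {k : Type} [Field k] [IsAlgClosed k] (φ : k →+* κ) {z : κ}
    (h : ∀ V : ValuationSubring κ, (∀ c, φ c ∈ V) → z ∈ V) : ∃ c, φ c = z := by
  have hz : z ∈ (integralClosure (Subring.closure (Set.range φ)) κ).toSubring := by
    rw [← iInf_valuationSubring_superset, Subring.mem_iInf]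
    exact fun V => h V.1 fun c => V.2 ⟨c, rfl⟩
  obtain ⟨g, hg, hgz⟩ := hz
  have hr : Subring.closure (Set.range φ) = φ.range := by
    rw [← RingHom.coe_range, Subring.closure_eq]
  obtain ⟨q, hq, -, hqm⟩ := Polynomial.lifts_and_degree_eq_and_monic
    ((Polynomial.lifts_iff_coeff_lifts (f := φ) (g.map (algebraMap _ κ))).mpr fun n => by
      rw [Polynomial.coeff_map]
      exact RingHom.mem_range.mp (hr ▸ (g.coeff n).2))
    (hg.map _)
  have hsplit := IsAlgClosed.splits q
  have hroot : (q.map φ).IsRoot z := by rw [hq, Polynomial.IsRoot, Polynomial.eval_map]; exact hgz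
  have hfac : (q.map φ).eval z = ((q.roots.map fun a => z - φ a)).prod := by
    conv_lhs => rw [hsplit.eq_prod_roots_of_monic hqm]
    rw [Polynomial.map_multiset_prod, Polynomial.eval_multiset_prod, Multiset.map_map,
      Multiset.map_map]
    congr 1
    exact Multiset.map_congr rfl fun a _ => by simp
  rw [Polynomial.IsRoot, hfac, Multiset.prod_eq_zero_iff, Multiset.mem_map] at hroot
  obtain ⟨a, -, ha⟩ := hroot
  exact ⟨a, (sub_eq_zero.mp ha).symm⟩

end Constants

namespace IsWildModel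

variable {M : Model O F} {π : O} {P : Bool → ValuationSubring F} {e p : ℕ} {F₀ : Subfield F}
  (h : IsWildModel M π P e p F₀)

include h

theorem pDvd_zero_iff (i : Bool) {z : F} : PDvd π (P i) 0 z ↔ z ∈ P i :=
  ⟨fun ⟨q, hq, e⟩ => by rwa [e, pow_zero, one_smul],
    fun hz => ⟨z, hz, by rw [pow_zero, one_smul]⟩⟩

theorem pDvd_one_iff (i : Bool) {z : F} : PDvd π (P i) 1 z ↔ z ∈ (P i).nonunits := by
  rw [h.mem_nonunits_iff i, PDvd]
  simp only [pow_one]

theorem pDvd_mono (i : Bool) {z : F} {k l : ℕ} (hkl : k ≤ l) (hz : PDvd π (P i) l z) :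
    PDvd π (P i) k z := by
  obtain ⟨q, hq, rfl⟩ := hz
  obtain ⟨d, rfl⟩ := Nat.exists_eq_add_of_le hkl
  refine ⟨π ^ d • q, ?_, by rw [smul_smul, pow_add]⟩
  rw [Algebra.smul_def]
  exact (P i).mul_mem _ _ (h.algebraMap_mem i _) hq

theorem smul_right_cancel {z z' : F} {k : ℕ} (e : π ^ k • z = π ^ k • z') : z = z' := by
  rw [Algebra.smul_def, Algebra.smul_def, map_pow] at e
  exact mul_left_cancel₀ (pow_ne_zero k h.pi_ne_zero) e

theorem pDvd_of_smul (i : Bool) {z : F} {k : ℕ} (hz : PDvd π (P i) (k + 1) (π • z)) :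
    PDvd π (P i) k z := by
  obtain ⟨q, hq, e⟩ := hz
  refine ⟨q, hq, h.smul_right_cancel (k := 1) ?_⟩
  rw [pow_one, e, smul_smul, ← pow_succ']

theorem pDvd_algebraMap (i : Bool) {k : ℕ} {a : O} (ha : π ^ k ∣ a) :
    PDvd π (P i) k (algebraMap O F a) := by
  obtain ⟨c, rfl⟩ := ha
  exact ⟨_, h.algebraMap_mem i c, by rw [Algebra.smul_def, map_mul]⟩

/-- A chart element vanishing to order `k` on both components is divisible by `π ^ k`. -/
theorem exists_smul_of_pDvd {B : Subalgebra O F} (hf : ChartFibre B π P) :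
    ∀ (k : ℕ) {z : F}, z ∈ B → (∀ i, PDvd π (P i) k z) → ∃ b ∈ B, z = π ^ k • b := by
  intro k
  induction k with
  | zero => exact fun {z} hz _ => ⟨z, hz, by rw [pow_zero, one_smul]⟩
  | succ k ih =>
    intro z hz hd
    obtain ⟨b, hb, rfl⟩ := hf.reduced z hz fun i =>
      (h.pDvd_one_iff i).mp (h.pDvd_mono i (Nat.succ_le_succ k.zero_le) (hd i))
    obtain ⟨c, hc, rfl⟩ := ih hb fun i => h.pDvd_of_smul i (hd i)
    exact ⟨c, hc, by rw [smul_smul, ← pow_succ']⟩

theorem overlap_le (i : Bool) {z : F} (hz : z ∈ M.B₀₁) : z ∈ P i := by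
  obtain ⟨E, hE⟩ := M.loc₀ z hz
  have hw : M.w⁻¹ ∈ P i := h.chart₁.fibre.le i _ M.w_inv_mem
  have e : z = M.w⁻¹ ^ E * (M.w ^ E * z) := by
    rw [← mul_assoc, ← mul_pow, inv_mul_cancel₀ M.w_ne, one_pow, one_mul]
  rw [e]
  exact (P i).mul_mem _ _ (pow_mem hw E) (h.chart₀.fibre.le i _ hE)

/-- An overlap element vanishing to order `k` on both components is divisible by `π ^ k`. -/
theorem exists_smul_overlap (k : ℕ) {z : F} (hz : z ∈ M.B₀₁) (hd : ∀ i, PDvd π (P i) k z) :
    ∃ b ∈ M.B₀₁, z = π ^ k • b := by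
  obtain ⟨E, hE⟩ := M.loc₀ z hz
  obtain ⟨b, hb, hbe⟩ := h.exists_smul_of_pDvd h.chart₀.fibre k hE fun i => by
    rw [mul_comm]
    exact (hd i).mul_mem (pow_mem (h.chart₀.fibre.le i _ M.w_mem) E)
  refine ⟨M.w⁻¹ ^ E * b, mul_mem (pow_mem (M.le₁ M.w_inv_mem) E) (M.le₀ hb), ?_⟩
  rw [← mul_smul_comm, ← hbe, ← mul_assoc, ← mul_pow, inv_mul_cancel₀ M.w_ne, one_pow, one_mul]

/-- Local regularity modulo `π` on a component is regularity on the chart. -/
theorem exists_approx {B : Subalgebra O F} (hle : ∀ i, ∀ b ∈ B, b ∈ P i) (i : Bool) {z : F}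
    (hz : z ∈ P i)
    (hloc : ∀ m : Ideal B, m.IsMaximal → algebraMap O B π ∈ m →
      (∀ b : B, (b : F) ∈ (P i).nonunits → b ∈ m) →
      ∃ s : B, s ∉ m ∧ ∃ a : B, z * (s : F) - (a : F) ∈ (P i).nonunits) :
    ∃ a : B, z - (a : F) ∈ (P i).nonunits := by
  let J : Ideal B :=
    { carrier := {c | ∃ a : B, z * (c : F) - (a : F) ∈ (P i).nonunits}
      zero_mem' := ⟨0, by simpa using (P i).nonunits.zero_mem⟩
      add_mem' := by
        rintro c c' ⟨a, ha⟩ ⟨a', ha'⟩
        refine ⟨a + a', ?_⟩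
        rw [← h.pDvd_one_iff i] at ha ha' ⊢
        have := ha.add ha'
        convert this using 1
        push_cast
        ring
      smul_mem' := by
        rintro r c ⟨a, ha⟩
        refine ⟨r * a, ?_⟩
        rw [← h.pDvd_one_iff i] at ha ⊢
        have := ha.mul_mem (hle i _ r.2)
        convert this using 1
        simp only [smul_eq_mul, MulMemClass.coe_mul]
        ring }
  have hJ : ∀ b : B, (b : F) ∈ (P i).nonunits → b ∈ J := fun b hb => ⟨0, by
    rw [← h.pDvd_one_iff i] at hb ⊢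
    have := hb.mul_mem hz
    convert this using 1
    push_cast
    ring⟩
  by_cases htop : J = ⊤
  · obtain ⟨a, ha⟩ : (1 : B) ∈ J := htop ▸ Submodule.mem_top
    exact ⟨a, by simpa using ha⟩
  · obtain ⟨m, hm, hle'⟩ := Ideal.exists_le_maximal J htop
    obtain ⟨s, hs, a, ha⟩ := hloc m hm (hle' (hJ _ (h.uniformizer i).1)) fun b hb => hle' (hJ b hb)
    exact absurd (hle' ⟨a, ha⟩) hs

/-- A function regular modulo `π` on both charts along a component is a constant there. -/
theorem exists_const_mod (i : Bool) {z : F} (hz : z ∈ P i) {a₀ a₁ : F} (ha₀ : a₀ ∈ M.B₀)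
    (h₀ : z - a₀ ∈ (P i).nonunits) (ha₁ : a₁ ∈ M.B₁) (h₁ : z - a₁ ∈ (P i).nonunits) :
    ∃ c : O, z - algebraMap O F c ∈ (P i).nonunits := by
  haveI := h.algClosed
  let ι : O →+* P i := (algebraMap O F).codRestrict _ (h.algebraMap_mem i)
  have hiota : ∀ (a : P i), (a : F) ∈ (P i).nonunits ↔ residue (P i) a = 0 := fun a => by
    rw [residue_eq_zero_iff, ← ValuationSubring.coe_mem_nonunits_iff]
  let φ : ResidueField O →+* ResidueField (P i) :=
    Ideal.Quotient.lift (maximalIdeal O) ((residue (P i)).comp ι) fun a ha => by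
      rw [h.irreducible.maximalIdeal_eq, Ideal.mem_span_singleton] at ha
      exact (hiota _).mp ((h.algebraMap_nonunit_iff i a).mpr ha)
  have hw : M.w ∈ P i := h.chart₀.fibre.le i _ M.w_mem
  have hw' : M.w⁻¹ ∈ P i := h.chart₁.fibre.le i _ M.w_inv_mem
  -- residues of chart elements lie in the valuation rings containing the coordinate
  have key : ∀ (V : ValuationSubring (ResidueField (P i))), (∀ c, φ c ∈ V) →
      ∀ (v : F) (hv : v ∈ P i), residue (P i) ⟨v, hv⟩ ∈ V →
      ∀ {b : F}, IsIntegral (Algebra.adjoin O ({v} : Set F)) b → ∀ hb : b ∈ P i,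
        residue (P i) ⟨b, hb⟩ ∈ V := by
    intro V hV v hv hvV b hbi hb
    obtain ⟨g, hg, hgb⟩ := hbi
    have hA : ∀ a ∈ Algebra.adjoin O ({v} : Set F), ∃ ha : a ∈ P i, residue (P i) ⟨a, ha⟩ ∈ V := by
      intro a ha
      induction ha using Algebra.adjoin_induction with
      | mem a ha => rw [Set.mem_singleton_iff] at ha; subst ha; exact ⟨hv, hvV⟩
      | algebraMap r => exact ⟨h.algebraMap_mem i r, hV (residue O r)⟩
      | add a a' _ _ iha iha' =>
        obtain ⟨h1, h1'⟩ := iha
        obtain ⟨h2, h2'⟩ := iha'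
        exact ⟨(P i).add_mem _ _ h1 h2, by
          have := V.add_mem _ _ h1' h2'
          rwa [← map_add] at this⟩
      | mul a a' _ _ iha iha' =>
        obtain ⟨h1, h1'⟩ := iha
        obtain ⟨h2, h2'⟩ := iha'
        exact ⟨(P i).mul_mem _ _ h1 h2, by
          have := V.mul_mem _ _ h1' h2'
          rwa [← map_mul] at this⟩
    let χ : Algebra.adjoin O ({v} : Set F) →+* P i :=
      (Algebra.adjoin O ({v} : Set F)).val.toRingHom.codRestrict _ fun a => (hA _ a.2).1
    refine mem_valuationSubring_of_monic (hg.map ((residue (P i)).comp χ)) (fun n => ?_) ?_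
    · rw [Polynomial.coeff_map]
      exact (hA _ (g.coeff n).2).2
    · rw [Polynomial.IsRoot, Polynomial.eval_map]
      have hroot : g.eval₂ χ ⟨b, hb⟩ = 0 := by
        refine Subtype.ext ?_
        show ((g.eval₂ χ ⟨b, hb⟩ : P i) : F) = 0
        rw [show ((g.eval₂ χ ⟨b, hb⟩ : P i) : F) = (P i).subtype (g.eval₂ χ ⟨b, hb⟩) from rfl,
          Polynomial.hom_eval₂]
        exact hgb
      rw [← Polynomial.hom_eval₂, hroot, map_zero]
  obtain ⟨c, hc⟩ := exists_eq_of_forall_valuation φ (z := residue (P i) ⟨z, hz⟩) fun V hV => by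
    have hres : ∀ {a : F} (ha : a ∈ P i), z - a ∈ (P i).nonunits →
        residue (P i) ⟨z, hz⟩ = residue (P i) ⟨a, ha⟩ := fun {a} ha hza => by
      rw [← sub_eq_zero, ← map_sub]
      exact (hiota _).mp hza
    rcases V.mem_or_inv_mem (residue (P i) ⟨M.w, hw⟩) with hV' | hV'
    · rw [hres (h.chart₀.fibre.le i _ ha₀) h₀]
      exact key V hV M.w hw hV' (h.chart₀.integral a₀ ha₀) _
    · have e : (residue (P i) ⟨M.w, hw⟩)⁻¹ = residue (P i) ⟨M.w⁻¹, hw'⟩ := by
        refine (eq_inv_of_mul_eq_one_left ?_).symm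
        rw [← map_mul, ← map_one (residue (P i))]
        exact congrArg _ (Subtype.ext (inv_mul_cancel₀ M.w_ne))
      rw [e] at hV'
      rw [hres (h.chart₁.fibre.le i _ ha₁) h₁]
      exact key V hV M.w⁻¹ hw' hV' (h.chart₁.integral a₁ ha₁) _
  obtain ⟨a, rfl⟩ := residue_surjective c
  refine ⟨a, (hiota ⟨z - algebraMap O F a, sub_mem hz (h.algebraMap_mem i a)⟩).mpr ?_⟩
  rw [show (⟨z - algebraMap O F a, _⟩ : P i) = ⟨z, hz⟩ - ι a from rfl, map_sub, ← hc]
  exact sub_self _

theorem w_ne_node {B : Subalgebra O F} {m : Ideal B} {x y u : B}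
    (hn : IsNodeParam B π P e F₀ m x y u) (hm : m.IsMaximal) (i : Bool) :
    (u : F) ∉ (P i).nonunits :=
  fun hu => hn.u_notMem (hn.centre i u hu)

/-- The parameter vanishing along a component vanishes there to order `e`. -/
theorem pDvd_node {B : Subalgebra O F} (hc : ∀ i, ∀ b ∈ B, b ∈ P i) {m : Ideal B} {x y u : B}
    (hn : IsNodeParam B π P e F₀ m x y u) :
    PDvd π (P true) e (x : F) ∧ PDvd π (P false) e (y : F) := by
  have e1 : (x : F) * (y : F) = π ^ e • (u : F) := by
    have := congrArg Subtype.val hn.mul_eq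
    rw [MulMemClass.coe_mul, MulMemClass.coe_mul, SubmonoidClass.coe_pow] at this
    rw [this, Algebra.smul_def, map_pow]
    rfl
  have hinv : ∀ (i : Bool) {z : F}, z ∈ P i → z ∉ (P i).nonunits → z ≠ 0 ∧ z⁻¹ ∈ P i := by
    intro i z hz hzu
    have h1 : (P i).valuation z = 1 :=
      le_antisymm ((ValuationSubring.valuation_le_one_iff _ _).mpr hz) (not_lt.mp hzu)
    refine ⟨fun h0 => by simp [h0] at h1, (ValuationSubring.valuation_le_one_iff _ _).mp ?_⟩
    rw [map_inv₀, h1, inv_one]
  obtain ⟨hy0, hyi⟩ := hinv true (hc _ _ y.2) hn.y_true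
  obtain ⟨hx0, hxi⟩ := hinv false (hc _ _ x.2) hn.x_false
  refine ⟨⟨(u : F) * (y : F)⁻¹, (P true).mul_mem _ _ (hc _ _ u.2) hyi, ?_⟩,
    ⟨(u : F) * (x : F)⁻¹, (P false).mul_mem _ _ (hc _ _ u.2) hxi, ?_⟩⟩
  · rw [← smul_mul_assoc, ← e1, mul_assoc, mul_inv_cancel₀ hy0, mul_one]
  · rw [← smul_mul_assoc, ← e1, mul_comm (x : F), mul_assoc, mul_inv_cancel₀ hx0, mul_one]

/-- Local generators of a centre at a point: `π` and an element vanishing to order `≥ k`. -/
theorem exists_branch_gen {B : Subalgebra O F} {w : F} (hB : IsWildChart B w π P e F₀) (i : Bool)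
    {m : Ideal B} (hm : m.IsMaximal) (hπ : algebraMap O B π ∈ m)
    (hc : ∀ b : B, (b : F) ∈ (P i).nonunits → b ∈ m) :
    ∃ y : B, (y = algebraMap O B π ∨ PDvd π (P i) e (y : F)) ∧
      ∀ c : B, (c : F) ∈ (P i).nonunits →
        ∃ s ∉ m, s * c ∈ Ideal.span {y, algebraMap O B π} := by
  haveI := hB.fibre.noetherian
  haveI := hm.isPrime
  let Q : Ideal B :=
    { carrier := {b | (b : F) ∈ (P i).nonunits}
      zero_mem' := (P i).nonunits.zero_mem
      add_mem' := by
        intro a a' ha ha'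
        have := ((h.pDvd_one_iff i).mpr ha).add ((h.pDvd_one_iff i).mpr ha')
        exact (h.pDvd_one_iff i).mp this
      smul_mem' := by
        intro r a ha
        have := ((h.pDvd_one_iff i).mpr ha).mul_mem (hB.fibre.le i _ r.2)
        rw [mul_comm] at this
        exact (h.pDvd_one_iff i).mp this }
  haveI hQ : Q.IsPrime := ⟨fun h1 => by
      have h2 : ((1 : B) : F) ∈ (P i).nonunits := (h1 ▸ Submodule.mem_top : (1 : B) ∈ Q)
      rw [ValuationSubring.mem_nonunits_iff, OneMemClass.coe_one, map_one] at h2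
      exact lt_irrefl _ h2,
    fun {a b} hab => by
      by_contra hne
      push Not at hne
      have ha := le_antisymm ((ValuationSubring.valuation_le_one_iff _ _).mpr (hB.fibre.le i _ a.2))
        (not_lt.mp hne.1)
      have hb := le_antisymm ((ValuationSubring.valuation_le_one_iff _ _).mpr (hB.fibre.le i _ b.2))
        (not_lt.mp hne.2)
      have h3 : (P i).valuation ((a : F) * (b : F)) < 1 := hab
      rw [map_mul, ha, hb, mul_one] at h3
      exact lt_irrefl _ h3⟩
  have key : ∀ (x y : B), x ∈ m → y ∈ m → x ∉ Q → y ∈ Q →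
      (∀ z ∈ m, ∃ s ∉ m, s * z ∈ Ideal.span {x, y, algebraMap O B π}) →
      ∀ c : B, c ∈ Q → ∃ s ∉ m, s * c ∈ Ideal.span {y, algebraMap O B π} := by
    intro x y hxm hym hxQ hyQ hgen c hcQ
    let R := Localization.AtPrime m
    haveI : IsNoetherianRing R :=
      IsLocalization.isNoetherianRing m.primeCompl (Localization.AtPrime m) inferInstance
    have hmR : maximalIdeal R = Ideal.span {algebraMap B R x, algebraMap B R y,
        algebraMap B R (algebraMap O B π)} := by
      refine le_antisymm (fun z hz => ?_) (Ideal.span_le.mpr ?_)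
      · obtain ⟨a, s, rfl⟩ := IsLocalization.exists_mk'_eq m.primeCompl z
        rw [IsLocalization.AtPrime.mk'_mem_maximal_iff (Localization.AtPrime m) m] at hz
        obtain ⟨t, ht, htz⟩ := hgen a hz
        have h2 := Ideal.mem_map_of_mem (algebraMap B R) htz
        rw [Ideal.map_span, Set.image_insert_eq, Set.image_pair, map_mul, Ideal.unit_mul_mem_iff_mem _
          (IsLocalization.map_units _ (⟨t, ht⟩ : m.primeCompl))] at h2
        rwa [← IsLocalization.mk'_spec (Localization.AtPrime m) a s,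
          Ideal.mul_unit_mem_iff_mem _ (IsLocalization.map_units _ s)] at h2
      · rintro _ (rfl | rfl | rfl) <;>
          exact (IsLocalization.AtPrime.to_map_mem_maximal_iff _ m _).mpr (by assumption)
    have hd : Disjoint (m.primeCompl : Set B) (Q : Set B) :=
      Set.disjoint_left.mpr fun w hw hwQ => hw (hc w hwQ)
    haveI := IsLocalization.isPrime_of_isPrime_disjoint m.primeCompl R Q hQ hd
    have hcomap := IsLocalization.under_map_of_isPrime_disjoint m.primeCompl R hQ hd
    have hle := prime_le_span_pair hmR (Q.map (algebraMap B R)) (Ideal.mem_map_of_mem _ hyQ)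
      (Ideal.mem_map_of_mem _ (h.uniformizer i).1)
      (fun hx => hxQ (by rw [← hcomap]; exact hx))
    have h1 : algebraMap B R c ∈ (Ideal.span {y, algebraMap O B π}).map (algebraMap B R) := by
      rw [Ideal.map_span, Set.image_pair]
      exact hle (Ideal.mem_map_of_mem _ hcQ)
    rw [IsLocalization.algebraMap_mem_map_algebraMap_iff m.primeCompl R] at h1
    exact h1
  rcases hB.points m hm hπ with ⟨j, hj, ⟨b, hb, hbm⟩, x, hxm, hxj, hgen⟩ | ⟨x, y, u, hn⟩
  · obtain rfl : j = i := by
      by_contra hji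
      have : (!j) = i := by cases i <;> cases j <;> first | rfl | exact absurd rfl hji
      exact hbm (hc b (this ▸ hb))
    refine ⟨algebraMap O B π, Or.inl rfl, key x _ hxm hπ hxj (h.uniformizer j).1 fun z hz => ?_⟩
    obtain ⟨s, hs, hsz⟩ := hgen z hz
    exact ⟨s, hs, Ideal.span_mono (by rintro _ (rfl | rfl) <;> simp) hsz⟩
  · obtain ⟨hxt, hyf⟩ := h.pDvd_node hB.fibre.le hn
    cases i with
    | false => exact ⟨y, Or.inr hyf, key x y hn.x_mem hn.y_mem hn.x_false hn.y_false hn.gen⟩
    | true =>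
      refine ⟨x, Or.inr hxt, key y x hn.y_mem hn.x_mem hn.y_true hn.x_true fun z hz => ?_⟩
      obtain ⟨s, hs, hsz⟩ := hn.gen z hz
      exact ⟨s, hs, Ideal.span_mono (by rintro _ (rfl | rfl | rfl) <;> simp) hsz⟩

/-- Local regularity of `z` modulo `π ^ k` along a component. -/
def LocRegular (B : Subalgebra O F) (π : O) (P : ValuationSubring F) (k : ℕ) (z : F) : Prop :=
  ∀ m : Ideal B, m.IsMaximal → algebraMap O B π ∈ m → (∀ b : B, (b : F) ∈ P.nonunits → b ∈ m) →
    ∃ s : B, s ∉ m ∧ ∃ a : B, PDvd π P k (z * (s : F) - (a : F))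

theorem locRegular_div {B : Subalgebra O F} {w : F} (hB : IsWildChart B w π P e F₀) (i : Bool)
    {k : ℕ} (hk : k + 1 ≤ e) {z z' : F} {c : O} (hzc : z = algebraMap O F c + π • z')
    (hz' : z' ∈ P i) (hz : IsWildModel.LocRegular B π (P i) (k + 1) z) :
    IsWildModel.LocRegular B π (P i) k z' := by
  intro m hm hπ hc
  haveI := hm.isPrime
  obtain ⟨y, hy, hgen⟩ := h.exists_branch_gen hB i hm hπ hc
  obtain ⟨s, hs, a, ha⟩ := hz m hm hπ hc
  set a' : B := a - algebraMap O B c * s
  have ha'F : (a' : F) = (a : F) - algebraMap O F c * (s : F) := by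
    show ((a - algebraMap O B c * s : B) : F) = _
    push_cast
    rfl
  have h1 : PDvd π (P i) (k + 1) (π • (z' * (s : F)) - (a' : F)) := by
    convert ha using 1
    rw [ha'F, hzc, add_mul, smul_mul_assoc]
    ring
  have ha'c : (a' : F) ∈ (P i).nonunits := by
    rw [← h.pDvd_one_iff i]
    have h2 : PDvd π (P i) 1 (π • (z' * (s : F))) :=
      ⟨_, (P i).mul_mem _ _ hz' (hB.fibre.le i _ s.2), by rw [pow_one]⟩
    have := h2.sub (h.pDvd_mono i (Nat.succ_le_succ k.zero_le) h1)
    simpa using this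
  obtain ⟨s', hs', hsa⟩ := hgen a' ha'c
  obtain ⟨α, γ, hαγ⟩ := Ideal.mem_span_pair.mp hsa
  have hrel : (s' : F) * (a' : F) = (α : F) * (y : F) + algebraMap O F π * (γ : F) := by
    have := congrArg Subtype.val hαγ
    push_cast at this
    rw [← this]
    show _ = _ + algebraMap O F π * _
    rw [mul_comm (algebraMap O F π)]
  rcases hy with rfl | ⟨q, hq, hyq⟩
  · refine ⟨s * s', fun h' => (hm.isPrime.mem_or_mem h').elim hs hs', α + γ,
      h.pDvd_of_smul i ?_⟩
    have h2 := h1.mul_mem (hB.fibre.le i _ s'.2)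
    convert h2 using 1
    push_cast
    rw [sub_mul, mul_comm (a' : F), hrel]
    simp only [Algebra.smul_def]
    show _ = _ - ((α : F) * algebraMap O F π + _)
    ring
  · refine ⟨s * s', fun h' => (hm.isPrime.mem_or_mem h').elim hs hs', γ, h.pDvd_of_smul i ?_⟩
    have h2 := h1.mul_mem (hB.fibre.le i _ s'.2)
    have h3 : PDvd π (P i) (k + 1) ((α : F) * (y : F)) := by
      rw [mul_comm]
      exact (h.pDvd_mono i hk ⟨q, hq, hyq⟩).mul_mem (hB.fibre.le i _ α.2)
    have := h2.add h3
    convert this using 1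
    push_cast
    rw [sub_mul, mul_comm (a' : F), hrel]
    simp only [Algebra.smul_def]
    ring

/-- A function regular modulo `π ^ k` along a component, `k ≤ e`, is a constant there. -/
theorem exists_const_pow (i : Bool) : ∀ (k : ℕ) {z : F}, k ≤ e → z ∈ P i →
    IsWildModel.LocRegular M.B₀ π (P i) k z → IsWildModel.LocRegular M.B₁ π (P i) k z →
    ∃ c : O, PDvd π (P i) k (z - algebraMap O F c) := by
  intro k
  induction k with
  | zero =>
    exact fun {z} _ hz _ _ => ⟨0, (h.pDvd_zero_iff i).mpr (by simpa using hz)⟩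
  | succ k ih =>
    intro z hk hz h₀ h₁
    have hloc : ∀ (B : Subalgebra O F), IsWildModel.LocRegular B π (P i) (k + 1) z →
        ∀ m : Ideal B, m.IsMaximal → algebraMap O B π ∈ m →
        (∀ b : B, (b : F) ∈ (P i).nonunits → b ∈ m) →
        ∃ s : B, s ∉ m ∧ ∃ a : B, z * (s : F) - (a : F) ∈ (P i).nonunits := by
      intro B hB m hm hπ hc
      obtain ⟨s, hs, a, ha⟩ := hB m hm hπ hc
      exact ⟨s, hs, a, (h.pDvd_one_iff i).mp (h.pDvd_mono i (Nat.succ_le_succ k.zero_le) ha)⟩
    obtain ⟨a₀, ha₀⟩ := h.exists_approx h.chart₀.fibre.le i hz (hloc _ h₀)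
    obtain ⟨a₁, ha₁⟩ := h.exists_approx h.chart₁.fibre.le i hz (hloc _ h₁)
    obtain ⟨c, hc⟩ := h.exists_const_mod i hz a₀.2 ha₀ a₁.2 ha₁
    obtain ⟨z', hz', hzz'⟩ := (h.mem_nonunits_iff i).mp hc
    have hzc : z = algebraMap O F c + π • z' := by rw [← hzz', add_sub_cancel]
    obtain ⟨c', hc'⟩ := ih (Nat.le_of_succ_le hk) hz'
      (h.locRegular_div h.chart₀ i hk hzc hz' h₀) (h.locRegular_div h.chart₁ i hk hzc hz' h₁)
    refine ⟨c + π * c', ?_⟩
    have := hc'.smul_pi
    convert this using 1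
    rw [hzc, smul_sub, map_add, map_mul, Algebra.smul_def π (algebraMap O F c')]
    ring

/-- A local function congruent to constants along both components at a node: the constants
agree. -/
theorem dvd_sub_of_node_mul {B : Subalgebra O F} (hf : ChartFibre B π P) {m : Ideal B} {x y u : B}
    (hm : m.IsMaximal) (hn : IsNodeParam B π P e F₀ m x y u) {a : F} (ha : a ∈ B) {S : B}
    (hS : S ∉ m) {c c' : O} {k : ℕ}
    (hc : PDvd π (P false) k (a - algebraMap O F c * S))
    (hc' : PDvd π (P true) k (a - algebraMap O F c' * S)) : π ^ k ∣ c - c' := by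
  suffices H : ∀ j ≤ k, π ^ j ∣ c - c' from H k le_rfl
  intro j hj
  induction j with
  | zero => simp
  | succ j ih =>
    obtain ⟨d, hd⟩ := ih (Nat.le_of_succ_le hj)
    have hcc : algebraMap O F (c - c') * (S : F) = π ^ j • (algebraMap O F d * S) := by
      rw [hd, map_mul, Algebra.smul_def, mul_assoc]
    have hall : ∀ i, PDvd π (P i) j (a - algebraMap O F c' * S) := fun i => by
      cases i with
      | true => exact h.pDvd_mono _ (Nat.le_of_succ_le hj) hc'
      | false =>
        have := (h.pDvd_mono false (Nat.le_of_succ_le hj) hc).add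
          ⟨_, (P false).mul_mem _ _ (h.algebraMap_mem false d) (hf.le false _ S.2), hcc⟩
        convert this using 1
        rw [map_sub]
        ring
    obtain ⟨b, hb, hbe⟩ := h.exists_smul_of_pDvd hf j
      (sub_mem ha (mul_mem (B.algebraMap_mem c') S.2)) hall
    have hone : ∀ (i : Bool) {z : F}, PDvd π (P i) (j + 1) (π ^ j • z) → z ∈ (P i).nonunits := by
      intro i z ⟨q, hq, e⟩
      refine (h.mem_nonunits_iff i).mpr ⟨q, hq, h.smul_right_cancel (k := j) ?_⟩
      rw [e, smul_smul, ← pow_succ]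
    have h1 : (⟨b, hb⟩ : B) ∈ m := hn.centre true _ (hone true (by
      rw [← hbe]; exact h.pDvd_mono true hj hc'))
    have h2 : (⟨b, hb⟩ : B) - algebraMap O B d * S ∈ m := hn.centre false _ (hone false (by
      show PDvd π (P false) (j + 1) (π ^ j • (b - algebraMap O F d * (S : F)))
      rw [smul_sub, ← hbe, ← hcc, map_sub]
      have := h.pDvd_mono false hj hc
      convert this using 1
      ring))
    have h3 : algebraMap O B d ∈ m := by
      have := sub_mem h1 h2
      rw [sub_sub_cancel] at this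
      exact (hm.isPrime.mem_or_mem this).resolve_right hS
    obtain ⟨d', rfl⟩ : π ∣ d := by
      by_contra hd'
      have hu : IsUnit d := notMem_maximalIdeal.mp (by
        rw [h.irreducible.maximalIdeal_eq, Ideal.mem_span_singleton]; exact hd')
      exact hm.ne_top (Ideal.eq_top_of_isUnit_mem _ h3 (hu.map (algebraMap O B)))
    exact ⟨d', by rw [hd, pow_succ, mul_assoc]⟩

/-- A chart element congruent to constants along both components at a node: the constants agree. -/
theorem dvd_sub_of_node {B : Subalgebra O F} (hf : ChartFibre B π P) {m : Ideal B} {x y u : B}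
    (hm : m.IsMaximal) (hn : IsNodeParam B π P e F₀ m x y u) {a : F} (ha : a ∈ B) {c c' : O}
    {k : ℕ} (hc : PDvd π (P false) k (a - algebraMap O F c))
    (hc' : PDvd π (P true) k (a - algebraMap O F c')) : π ^ k ∣ c - c' :=
  h.dvd_sub_of_node_mul hf hm hn ha (S := 1)
    (fun h1 => hm.ne_top ((Ideal.eq_top_iff_one _).mpr h1))
    (by simpa using hc) (by simpa using hc')

end IsWildModel

end Fermat.Agent.Models
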