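/-
Sections of the roots of a Kummer function modulo powers of the uniformiser.
-/
import Fermat.Agent.Models.Wild.Regular
import Fermat.Agent.Models.CoreInvariant

set_option autoImplicit false
set_option linter.unusedSectionVars false

noncomputable section

namespace Fermat.Agent.Models

variable {O F : Type} [CommRing O] [Field F] [Algebra O F]
variable {B B' : Subalgebra O F} {p : ℕ} {hB : RootClosed B p} {hB' : RootClosed B' p} {hn : 0 < p}
  {π : O} {f g : F}

variable (hB hn) in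
/-- The roots of `f` divisible by `π ^ k`. -/
def secPow (π : O) (f : F) (k : ℕ) : Submodule O F :=
  ((rootModule hB hn f).restrictScalars O).map (π ^ k • (LinearMap.id : F →ₗ[O] F))

theorem mem_secPow {k : ℕ} {x : F} :
    x ∈ secPow hB hn π f k ↔ ∃ z ∈ rootModule hB hn f, x = π ^ k • z := by
  simp only [secPow, Submodule.mem_map, Submodule.restrictScalars_mem, LinearMap.smul_apply,
    LinearMap.id_apply]
  exact exists_congr fun z => and_congr_right fun _ => eq_comm

theorem mem_secPow_zero {x : F} (hx : x ∈ rootModule hB hn f) : x ∈ secPow hB hn π f 0 :=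
  mem_secPow.mpr ⟨x, hx, by rw [pow_zero, one_smul]⟩

theorem rootModule_of_secPow {k : ℕ} {x : F} (hx : x ∈ secPow hB hn π f k) :
    x ∈ rootModule hB hn f := by
  obtain ⟨z, hz, rfl⟩ := mem_secPow.mp hx
  exact smul_mem_rootModule _ hz

theorem secPow_mono {k l : ℕ} (hkl : k ≤ l) {x : F} (hx : x ∈ secPow hB hn π f l) :
    x ∈ secPow hB hn π f k := by
  obtain ⟨z, hz, rfl⟩ := mem_secPow.mp hx
  obtain ⟨d, rfl⟩ := Nat.exists_eq_add_of_le hkl
  exact mem_secPow.mpr ⟨π ^ d • z, smul_mem_rootModule _ hz, by rw [smul_smul, pow_add]⟩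

theorem mul_mem_secPow {k l m : ℕ} {e : F} {x y : F} (he : f * g = e) (hm : m ≤ k + l)
    (hx : x ∈ secPow hB hn π f k) (hy : y ∈ secPow hB hn π g l) :
    x * y ∈ secPow hB hn π e m := by
  obtain ⟨z, hz, rfl⟩ := mem_secPow.mp hx
  obtain ⟨z', hz', rfl⟩ := mem_secPow.mp hy
  exact secPow_mono hm (mem_secPow.mpr ⟨z * z', he ▸ mul_mem_rootModule hz hz',
    by rw [smul_mul_smul_comm, ← pow_add]⟩)

theorem const_mul_mem_secPow {j k m : ℕ} {a : O} (ha : π ^ j ∣ a) (hm : m ≤ j + k) {x : F}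
    (hx : x ∈ secPow hB hn π f k) : algebraMap O F a * x ∈ secPow hB hn π f m := by
  obtain ⟨z, hz, rfl⟩ := mem_secPow.mp hx
  obtain ⟨c, rfl⟩ := ha
  exact secPow_mono hm (mem_secPow.mpr ⟨c • z, smul_mem_rootModule _ hz, by
    rw [← Algebra.smul_def, smul_smul, smul_smul, pow_add]
    congr 1
    ring⟩)

theorem secPow_le (h : B ≤ B') {k : ℕ} {x : F} (hx : x ∈ secPow hB hn π f k) :
    x ∈ secPow hB' hn π f k := by
  obtain ⟨z, hz, rfl⟩ := mem_secPow.mp hx
  exact mem_secPow.mpr ⟨z, rootModule_mono h hz, rfl⟩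

theorem mem_secPow_one {k : ℕ} {x : F} :
    x ∈ secPow hB hn π 1 k ↔ ∃ b ∈ B, x = π ^ k • b := by
  simp only [mem_secPow, rootModule_one]

theorem of_mem_chart {x : F} (hx : x ∈ B) : x ∈ secPow hB hn π 1 0 :=
  mem_secPow_zero (rootModule_one.mpr hx)

theorem const_mem_secPow_one {k : ℕ} {a : O} (ha : π ^ k ∣ a) :
    algebraMap O F a ∈ secPow hB hn π 1 k := by
  have := const_mul_mem_secPow (m := k) ha (by simp) (of_mem_chart (hB := hB) (hn := hn) (one_mem B))
  rwa [mul_one] at this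

/-- A root of `f ^ p` is `f` times a chart element. -/
theorem div_mem_of_pow {x : F} (hx : x ∈ rootModule hB hn (f ^ p)) : x / f ∈ B :=
  hB _ (by rw [div_pow]; exact hx)

/-- The binomial expansion of the `p`-th power of `r + s D`, divided by `f`. -/
theorem exists_pow_add (hp : p.Prime) {r D : F} (hr : r ∈ rootModule hB hn f)
    (hD : D ∈ rootModule hB hn f) (s : O) :
    ∃ E ∈ B, (r + s • D) ^ p / f =
      r ^ p / f + s ^ p • (D ^ p / f) + ((p : O) * s) • (r ^ (p - 1) * D / f + s • E) := by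
  classical
  have hmon : ∀ k ≤ p, D ^ k * r ^ (p - k) / f ∈ B := fun k hk => by
    refine div_mem_of_pow (hB := hB) (hn := hn) ?_
    have := mul_mem_rootModule (pow_mem_rootModule hD k) (pow_mem_rootModule hr (p - k))
    rwa [← pow_add, Nat.add_sub_cancel' hk] at this
  let T : ℕ → F := fun k => D ^ k * r ^ (p - k) / f * ((p.choose k / p : ℕ) : F)
  refine ⟨∑ k ∈ Finset.Ioo 1 p, s ^ (k - 2) • T k, Subalgebra.sum_mem _ fun k hk =>
    B.smul_mem (mul_mem (hmon k (Finset.mem_Ioo.mp hk).2.le) (natCast_mem B _)) _, ?_⟩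
  have hins : Finset.Ioo 0 p = insert 1 (Finset.Ioo 1 p) := by
    ext k
    simp only [Finset.mem_Ioo, Finset.mem_insert]
    have := hp.two_le
    omega
  have h1 : T 1 = r ^ (p - 1) * D / f := by
    simp only [T, Nat.choose_one_right, Nat.div_self hp.pos, pow_one, Nat.cast_one, mul_one]
    ring
  have hk : ∀ k ∈ Finset.Ioo 1 p,
      (s • D) ^ k * r ^ (p - k) * ((p.choose k / p : ℕ) : F) / f = s • s • (s ^ (k - 2) • T k) := by
    intro k hk
    obtain ⟨j, rfl⟩ : ∃ j, k = j + 2 := ⟨k - 2, by have := (Finset.mem_Ioo.mp hk).1; omega⟩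
    simp only [T, add_tsub_cancel_right, Algebra.smul_def, map_pow]
    ring
  rw [add_comm r, add_pow_prime_eq' hp, hins, Finset.sum_insert (by simp), smul_pow, add_div,
    add_div, mul_div_assoc, add_div, Finset.sum_div, Finset.sum_congr rfl hk,
    ← Finset.smul_sum, ← Finset.smul_sum]
  have e1 : (s • D) ^ 1 * r ^ (p - 1) * ((p.choose 1 / p : ℕ) : F) / f = s • T 1 := by
    simp only [T, Algebra.smul_def]
    ring
  rw [e1, h1]
  simp only [Algebra.smul_def, map_mul, map_natCast]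
  ring

/-- Generators have inverse sections modulo every power of `π`. -/
theorem IsGenMod.exists_inv {r : F} (hf : f ≠ 0) (hr : IsGenMod B π p f r) (N : ℕ) :
    ∃ q ∈ rootModule hB hn f⁻¹, r * q - 1 ∈ secPow hB hn π 1 N := by
  obtain ⟨hU, c, hc, d, hd, hUc⟩ := hr
  have key : ∀ N, ∃ c ∈ B, ∃ d ∈ B, r ^ p / f * c = 1 + π ^ (N + 1) • d := by
    intro N
    induction N with
    | zero => exact ⟨c, hc, d, hd, by rw [zero_add, pow_one]; exact hUc⟩
    | succ N ih =>
      obtain ⟨c', hc', d', hd', h'⟩ := ih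
      refine ⟨c' * (1 - π ^ (N + 1) • d'), mul_mem hc' (sub_mem (one_mem _) (B.smul_mem hd' _)),
        -(π ^ N • (d' * d')), neg_mem (B.smul_mem (mul_mem hd' hd') _), ?_⟩
      rw [← mul_assoc, h']
      simp only [Algebra.smul_def, map_pow]
      ring
  obtain ⟨C, hC, D, hD, hCD⟩ := key N
  obtain ⟨k, hk⟩ : ∃ k, p = k + 1 := ⟨p - 1, (Nat.sub_add_cancel hn).symm⟩
  refine ⟨r ^ (p - 1) * C / f, ?_, secPow_mono N.le_succ (mem_secPow_one.mpr ⟨D, hD, ?_⟩)⟩
  · rw [mem_rootModule]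
    convert mul_mem (pow_mem hU (p - 1)) (pow_mem hC p) using 1
    subst hk
    rw [Nat.add_sub_cancel, div_pow, mul_pow, ← pow_mul, div_pow, ← pow_mul]
    field_simp
    ring
  · rw [show r * (r ^ (p - 1) * C / f) = r ^ p / f * C by
      subst hk; rw [Nat.add_sub_cancel, pow_succ]; ring, hCD]
    abel

theorem IsGenMod.mem {r : F} (hr : IsGenMod B π p f r) : r ∈ rootModule hB hn f := hr.1

theorem IsGenMod.add (hp : p.Prime) {r x : F} (hr : IsGenMod B π p f r)
    (hx : x ∈ secPow hB hn π f 1) : IsGenMod B π p f (r + x) := by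
  have hU := hr.1
  obtain ⟨-, c, hc, d, hd, hUc⟩ := id hr
  obtain ⟨D, hD, rfl⟩ := mem_secPow.mp hx
  obtain ⟨E, hE, he⟩ := exists_pow_add (hB := hB) (hn := hn) hp hr.mem hD (π ^ 1)
  obtain ⟨j, hj⟩ : ∃ j, p = j + 1 := ⟨p - 1, (Nat.sub_add_cancel hn).symm⟩
  have hDp : D ^ p / f ∈ B := hD
  have hmix : r ^ (p - 1) * D / f ∈ B := by
    refine div_mem_of_pow (hB := hB) (hn := hn) ?_
    have := mul_mem_rootModule (pow_mem_rootModule hr.mem (p - 1)) hD
    rwa [← pow_succ, Nat.sub_add_cancel hn] at this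
  refine ⟨(add_mem hr.mem (smul_mem_rootModule _ hD) :
    r + π ^ 1 • D ∈ rootModule hB hn f), c, hc,
    d + (π ^ j • (D ^ p / f) + (p : O) • (r ^ (p - 1) * D / f + π • E)) * c,
    add_mem hd (mul_mem (add_mem (B.smul_mem hDp _)
      (B.smul_mem (add_mem hmix (B.smul_mem hE _)) _)) hc), ?_⟩
  rw [he, pow_one, hj, add_mul, add_mul, ← hj, hUc, hj]
  simp only [Algebra.smul_def, map_mul, map_pow, map_natCast, Nat.cast_add, Nat.cast_one]
  ring

/-- The transported section of `τ f / f`. -/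
theorem IsGenMod.map (hp : p.Prime) (hf : f ≠ 0) {τ : F →+* F} {b : ℕ} (hτ : TrivialMod B (π ^ (b + 1)) τ)
    {r q : F} (hr : IsGenMod B π p f r) (hq : q ∈ rootModule hB hn f⁻¹)
    (hrq : r * q - 1 ∈ secPow hB hn π 1 1) :
    IsGenMod B π p (τ f / f) (τ r * q) := by
  have hqf : q ^ p * f ∈ B := by
    have := hq
    rwa [mem_rootModule, div_inv_eq_mul] at this
  have hU := hτ.map_mem hr.1
  obtain ⟨e, he, hee⟩ := hτ _ hr.1
  obtain ⟨d, hd, hde⟩ := mem_secPow_one.mp hrq
  have he1 : (τ r * q) ^ p / (τ f / f) = τ (r ^ p / f) * (q ^ p * f) := by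
    rw [map_div₀, map_pow, mul_pow, div_div_eq_mul_div]
    ring
  obtain ⟨E, hE, hEe⟩ := exists_pow_add (f := 1) (hB := hB) (hn := hn) hp
    (rootModule_one.mpr (one_mem B)) (rootModule_one.mpr hd) π
  obtain ⟨j, hj⟩ : ∃ j, p = j + 1 := ⟨p - 1, (Nat.sub_add_cancel hn).symm⟩
  refine ⟨he1 ▸ mul_mem hU hqf, 1, one_mem _,
    π ^ b • (e * (q ^ p * f)) + π ^ j • d ^ p + (p : O) • (d + π • E),
    add_mem (add_mem (B.smul_mem (mul_mem he hqf) _) (B.smul_mem (pow_mem hd _) _))
      (B.smul_mem (add_mem hd (B.smul_mem hE _)) _), ?_⟩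
  have h1 : r ^ p / f * (q ^ p * f) = (1 + π • d) ^ p := by
    rw [show (1 : F) + π • d = r * q by rw [← pow_one π, ← hde]; ring, mul_pow]
    field_simp
  rw [mul_one, he1, show τ (r ^ p / f) = r ^ p / f + π ^ (b + 1) • e by rw [← hee]; ring,
    add_mul, h1]
  simp only [one_pow, div_one, one_mul] at hEe
  rw [hEe, hj]
  simp only [Algebra.smul_def, map_mul, map_pow, map_natCast, Nat.cast_add, Nat.cast_one]
  ring

end Fermat.Agent.Models
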