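/-
Classes of trivialisations modulo powers of the uniformiser and their splitting.
-/
import Fermat.Agent.Models.Wild.Sections

set_option autoImplicit false
set_option linter.unusedSectionVars false

noncomputable section

namespace Fermat.Agent.Models

open IsLocalRing

section Defs

variable {O F : Type} [CommRing O] [Field F] [Algebra O F]

/-- Roots of `f` on the first chart divisible by `π ^ k`. -/
def Model.wsec₀ (M : Model O F) {p : ℕ} (hn : 0 < p) (π : O) (f : F) (k : ℕ) : Submodule O F :=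
  secPow (rootClosed_of_isIntegral hn M.closed₀) hn π f k

/-- Roots of `f` on the second chart divisible by `π ^ k`. -/
def Model.wsec₁ (M : Model O F) {p : ℕ} (hn : 0 < p) (π : O) (f : F) (k : ℕ) : Submodule O F :=
  secPow (rootClosed_of_isIntegral hn M.closed₁) hn π f k

/-- Roots of `f` on the overlap divisible by `π ^ k`. -/
def Model.wsec₀₁ (M : Model O F) {p : ℕ} (hn : 0 < p) (π : O) (f : F) (k : ℕ) : Submodule O F :=
  secPow (rootClosed_of_isIntegral hn M.closed₀₁) hn π f k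

/-- A trivialisation modulo `π ^ k` and its class on the overlap. -/
structure IsClass (M : Model O F) {p : ℕ} (hn : 0 < p) (π : O) (f : F) (k : ℕ) (δ r₀ r₁ : F) :
    Prop where
  gen₀ : IsGenMod M.B₀ π p f r₀
  gen₁ : IsGenMod M.B₁ π p f r₁
  mem : δ ∈ M.B₀₁
  diff : r₀ - r₁ - algebraMap O F (π ^ k) * (δ * r₁) ∈ M.wsec₀₁ hn π f (k + 1)

/-- The classes that are differences of chart elements modulo `π`. -/
def Model.splitSub (M : Model O F) (π : O) : Submodule O F :=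
  Subalgebra.toSubmodule M.B₀ ⊔ Subalgebra.toSubmodule M.B₁ ⊔
    (Subalgebra.toSubmodule M.B₀₁).map (π • (LinearMap.id : F →ₗ[O] F))

theorem Model.mem_splitSub {M : Model O F} {π : O} {x : F} :
    x ∈ M.splitSub π ↔ ∃ A₀ ∈ M.B₀, ∃ A₁ ∈ M.B₁, ∃ z ∈ M.B₀₁, x = A₀ + A₁ + π • z := by
  simp only [Model.splitSub, Submodule.mem_sup, Submodule.mem_map, Subalgebra.mem_toSubmodule,
    LinearMap.smul_apply, LinearMap.id_apply]
  constructor
  · rintro ⟨_, ⟨A₀, h₀, A₁, h₁, rfl⟩, _, ⟨z, hz, rfl⟩, rfl⟩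
    exact ⟨A₀, h₀, A₁, h₁, z, hz, rfl⟩
  · rintro ⟨A₀, h₀, A₁, h₁, z, hz, rfl⟩
    exact ⟨_, ⟨A₀, h₀, A₁, h₁, rfl⟩, _, ⟨z, hz, rfl⟩, rfl⟩

end Defs

variable {O F : Type} [CommRing O] [IsDomain O] [IsDiscreteValuationRing O] [Field F] [Algebra O F]
variable {M : Model O F} {π : O} {p : ℕ} {hn : 0 < p} {f : F} {k : ℕ} {δ r₀ r₁ : F}

theorem IsClass.diff_mem (hc : IsClass M hn π f k δ r₀ r₁) :
    r₀ - r₁ ∈ M.wsec₀₁ hn π f k := by
  have h1 : algebraMap O F (π ^ k) * (δ * r₁) ∈ M.wsec₀₁ hn π f k :=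
    const_mul_mem_secPow (j := k) (k := 0) dvd_rfl le_rfl
      (mul_mem_secPow (k := 0) (l := 0) (one_mul f) le_rfl (of_mem_chart hc.mem)
        (secPow_le M.le₁ (mem_secPow_zero (hB := rootClosed_of_isIntegral hn M.closed₁) hc.gen₁.mem)))
  have := add_mem (secPow_mono k.le_succ hc.diff) h1
  rwa [sub_add_cancel] at this

theorem IsClass.triv (hc : IsClass M hn π f k δ r₀ r₁) : Triv M π p f k := by
  obtain ⟨d, hd, hde⟩ := mem_secPow.mp hc.diff_mem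
  exact ⟨r₀, r₁, hc.gen₀, hc.gen₁, d, hd, hde⟩

theorem IsTriv.exists_class (hf : f ≠ 0) (hn : 0 < p) (ht : IsTriv M π p f k r₀ r₁) :
    ∃ δ, IsClass M hn π f k δ r₀ r₁ := by
  obtain ⟨d, hd, hde⟩ := ht.close
  obtain ⟨q, hq, hrq⟩ :=
    ht.gen₁.exists_inv (hB := rootClosed_of_isIntegral hn M.closed₁) (hn := hn) hf 1
  have hd' : d ∈ rootModule (rootClosed_of_isIntegral hn M.closed₀₁) hn f := hd
  refine ⟨d * q, ht.gen₀, ht.gen₁, mul_mem_of_inv hf hd' (rootModule_mono M.le₁ hq), ?_⟩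
  have h1 : d * (r₁ * q - 1) ∈ M.wsec₀₁ hn π f 1 :=
    mul_mem_secPow (k := 0) (mul_one f) le_rfl (mem_secPow_zero hd') (secPow_le M.le₁ hrq)
  have h2 : algebraMap O F (π ^ k) * (d * (r₁ * q - 1)) ∈ M.wsec₀₁ hn π f (k + 1) :=
    const_mul_mem_secPow dvd_rfl le_rfl h1
  convert neg_mem h2 using 1
  rw [hde, Algebra.smul_def]
  ring

namespace IsWildModel

variable {P : Bool → ValuationSubring F} {e : ℕ} {F₀ : Subfield F}
  (h : IsWildModel M π P e p F₀)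

include h

theorem map_pi_pow {τ : F →+* F} {b : ℕ} {β : O} (ha : IsWildAut M π F₀ τ b β) (k : ℕ) :
    ∃ r : O, τ (algebraMap O F (π ^ k)) =
      algebraMap O F (π ^ k * (1 + (k : O) * β * π ^ b + π ^ (b + 1) * r)) := by
  obtain ⟨r, hr⟩ := ha.map_pi
  obtain ⟨c, hc⟩ : ∃ c, b = c + 1 := ⟨b - 1, (Nat.sub_add_cancel ha.pos).symm⟩
  have key : ∀ k : ℕ, ∃ s : O, (1 + β * π ^ b + π ^ (b + 1) * r) ^ k =
      1 + (k : O) * β * π ^ b + π ^ (b + 1) * s := by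
    intro k
    induction k with
    | zero => exact ⟨0, by simp⟩
    | succ k ih =>
      obtain ⟨s, hs⟩ := ih
      refine ⟨(k : O) * β * β * π ^ c + (k : O) * β * r * π ^ b + s * (1 + β * π ^ b +
        π ^ (b + 1) * r) + r, ?_⟩
      rw [pow_succ, hs, hc]
      push_cast
      ring
  obtain ⟨s, hs⟩ := key k
  exact ⟨s, by rw [map_pow, map_pow, hr, ← map_pow, mul_pow, hs]⟩

theorem trivial_overlap {τ : F →+* F} {b : ℕ} {β : O} (ha : IsWildAut M π F₀ τ b β) :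
    TrivialMod M.B₀₁ (π ^ (b + 1)) τ :=
  (M.toCharts h.prime.pos).trivialMod_overlap _ τ ha.fix_w ha.trivial₀

theorem tau_mem {τ : F →+* F} {b : ℕ} {β : O} (ha : IsWildAut M π F₀ τ b β) {g x : F} {k : ℕ}
    (hx : x ∈ M.wsec₀₁ hn π g k) : τ x ∈ M.wsec₀₁ hn π (τ g) k := by
  obtain ⟨z, hz, rfl⟩ := mem_secPow.mp hx
  obtain ⟨r, hr⟩ := h.map_pi_pow ha k
  rw [Algebra.smul_def, map_mul, hr]
  exact const_mul_mem_secPow (dvd_mul_right _ _) (le_refl k)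
    (mem_secPow_zero (map_mem_rootModule (h.trivial_overlap ha) hz))

/-- The first order action of the automorphism on an overlap function divisible by `π ^ k`. -/
theorem tau_sub_main {τ : F →+* F} {b : ℕ} {β : O} (ha : IsWildAut M π F₀ τ b β) {z : F} {k : ℕ}
    (hz : z ∈ M.B₀₁) :
    τ (algebraMap O F (π ^ k) * z) - algebraMap O F (π ^ k) * z -
      algebraMap O F ((k : O) * β * π ^ (k + b)) * z ∈ M.wsec₀₁ hn π 1 (k + b + 1) := by
  obtain ⟨r, hr⟩ := h.map_pi_pow ha k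
  obtain ⟨e', he, hee⟩ := h.trivial_overlap ha z hz
  have h1 : algebraMap O F (π ^ k * (1 + (k : O) * β * π ^ b + π ^ (b + 1) * r) * π ^ (b + 1)) * e'
      ∈ M.wsec₀₁ hn π 1 (k + b + 1) :=
    const_mul_mem_secPow (j := k + b + 1)
      ⟨1 + (k : O) * β * π ^ b + π ^ (b + 1) * r, by rw [add_assoc k, pow_add]; ring⟩
      (Nat.le_add_right _ _) (of_mem_chart he)
  have h2 : algebraMap O F (π ^ k * π ^ (b + 1) * r) * z ∈ M.wsec₀₁ hn π 1 (k + b + 1) :=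
    const_mul_mem_secPow (j := k + b + 1) ⟨r, by rw [add_assoc k, pow_add π k]⟩
      (Nat.le_add_right _ _) (of_mem_chart hz)
  convert add_mem h1 h2 using 1
  rw [map_mul τ, hr, show τ z = z + π ^ (b + 1) • e' by rw [← hee]; ring, Algebra.smul_def]
  simp only [map_mul, map_add, map_one, map_pow, map_natCast]
  ring

theorem tau_sub {τ : F →+* F} {b : ℕ} {β : O} (ha : IsWildAut M π F₀ τ b β) {x : F} {k : ℕ}
    (hx : x ∈ M.wsec₀₁ hn π 1 k) : τ x - x ∈ M.wsec₀₁ hn π 1 (k + b) := by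
  obtain ⟨z, hz, rfl⟩ := mem_secPow_one.mp hx
  have h2 : algebraMap O F ((k : O) * β * π ^ (k + b)) * z ∈ M.wsec₀₁ hn π 1 (k + b) :=
    const_mul_mem_secPow (dvd_mul_left _ _) (Nat.le_add_right _ _) (of_mem_chart hz)
  rw [Algebra.smul_def]
  have := add_mem (secPow_mono (k + b).le_succ (h.tau_sub_main ha hz)) h2
  rwa [sub_add_cancel] at this

/-- The class of `τ f / f` is `k β δ`, in degree `k + b`. -/
theorem isClass_tau {τ : F →+* F} {b : ℕ} {β : O} (ha : IsWildAut M π F₀ τ b β) (hf : f ≠ 0)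
    (hk : 0 < k) (hc : IsClass M hn π f k δ r₀ r₁) :
    ∃ r₀' r₁', IsClass M hn π (τ f / f) (k + b) (algebraMap O F ((k : O) * β) * δ) r₀' r₁' := by
  set hB₀₁ := rootClosed_of_isIntegral hn M.closed₀₁
  obtain ⟨q₀, hq₀, hrq₀⟩ :=
    hc.gen₀.exists_inv (hB := rootClosed_of_isIntegral hn M.closed₀) (hn := hn) hf (k + b + 1)
  obtain ⟨q₁, hq₁, hrq₁⟩ :=
    hc.gen₁.exists_inv (hB := rootClosed_of_isIntegral hn M.closed₁) (hn := hn) hf (k + b + 1)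
  refine ⟨τ r₀ * q₀, τ r₁ * q₁,
    hc.gen₀.map h.prime hf ha.trivial₀ hq₀ (secPow_mono (Nat.le_add_left 1 _) hrq₀),
    hc.gen₁.map h.prime hf ha.trivial₁ hq₁ (secPow_mono (Nat.le_add_left 1 _) hrq₁),
    mul_mem (M.B₀₁.algebraMap_mem _) hc.mem, ?_⟩
  set ε₀ := r₀ * q₀ - 1 with hε₀
  set ε₁ := r₁ * q₁ - 1 with hε₁
  set Pk := algebraMap O F (π ^ k) with hPk
  obtain ⟨Z, hZdef⟩ : ∃ Z, Z = r₀ - r₁ - Pk * (δ * r₁) := ⟨_, rfl⟩
  have e0 : ε₀ ∈ M.wsec₀₁ hn π 1 (k + b + 1) := secPow_le M.le₀ hrq₀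
  have e1 : ε₁ ∈ M.wsec₀₁ hn π 1 (k + b + 1) := secPow_le M.le₁ hrq₁
  have Hq₀ : q₀ ∈ M.wsec₀₁ hn π f⁻¹ 0 := secPow_le M.le₀ (mem_secPow_zero hq₀)
  have Hq₁ : q₁ ∈ M.wsec₀₁ hn π f⁻¹ 0 := secPow_le M.le₁ (mem_secPow_zero hq₁)
  have Hr₁ : r₁ ∈ M.wsec₀₁ hn π f 0 :=
    secPow_le M.le₁ (mem_secPow_zero (hB := rootClosed_of_isIntegral hn M.closed₁) hc.gen₁.mem)
  have Hδ : δ ∈ M.wsec₀₁ hn π 1 0 := of_mem_chart hc.mem
  have HZ : Z ∈ M.wsec₀₁ hn π f (k + 1) := hZdef ▸ hc.diff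
  have hτf : τ f / f = τ f * f⁻¹ := div_eq_mul_inv _ _
  -- the four groups of error terms
  have hqZ : q₁ * Z ∈ M.wsec₀₁ hn π 1 (k + 1) :=
    mul_mem_secPow (inv_mul_cancel₀ hf) (by omega) Hq₁ HZ
  have hW : τ Z - τ r₁ * (q₁ * Z) ∈ M.wsec₀₁ hn π (τ f) (k + b + 1) := by
    have t1 : (τ (q₁ * Z) - q₁ * Z) * τ r₁ ∈ M.wsec₀₁ hn π (τ f) (k + b + 1) :=
      mul_mem_secPow (l := 0) (one_mul _) (by omega) (h.tau_sub ha hqZ) (h.tau_mem ha Hr₁)
    have t2 : τ (ε₁ * Z) ∈ M.wsec₀₁ hn π (τ f) (k + b + 1) :=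
      h.tau_mem ha (mul_mem_secPow (one_mul f) (by omega) e1 HZ)
    convert sub_mem t1 t2 using 1
    rw [hε₁, map_mul τ (r₁ * q₁ - 1), map_sub, map_one, map_mul, map_mul]
    ring
  have T1 : q₀ * (τ Z - τ r₁ * (q₁ * Z)) ∈ M.wsec₀₁ hn π (τ f / f) (k + b + 1) :=
    mul_mem_secPow (by rw [hτf, mul_comm]) (by omega) Hq₀ hW
  have hτr : τ r₁ * q₀ ∈ M.wsec₀₁ hn π (τ f / f) 0 :=
    mul_mem_secPow hτf.symm le_rfl (h.tau_mem ha Hr₁) Hq₀
  have T2 : τ r₁ * q₀ * (τ (Pk * δ) - Pk * δ - algebraMap O F ((k : O) * β * π ^ (k + b)) * δ)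
      ∈ M.wsec₀₁ hn π (τ f / f) (k + b + 1) :=
    mul_mem_secPow (mul_one _) (by omega) hτr (h.tau_sub_main ha hc.mem)
  have T3 : τ r₁ * (q₁ * ε₀ - q₀ * ε₁ - Pk * (δ * (q₀ * ε₁))) ∈
      M.wsec₀₁ hn π (τ f / f) (k + b + 1) := by
    refine mul_mem_secPow (g := f⁻¹) (l := k + b + 1) hτf.symm (by omega) (h.tau_mem ha Hr₁)
      (sub_mem (sub_mem (mul_mem_secPow (m := k + b + 1) (mul_one _) (by omega) Hq₁ e0)
        (mul_mem_secPow (m := k + b + 1) (mul_one _) (by omega) Hq₀ e1)) ?_)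
    exact const_mul_mem_secPow (j := 0) (k := k + b + 1) (by simp) (by omega)
      (mul_mem_secPow (one_mul _) (by omega) Hδ (mul_mem_secPow (mul_one _) le_rfl Hq₀ e1))
  have hQ : q₀ - q₁ ∈ M.wsec₀₁ hn π f⁻¹ k := by
    have t1 : q₁ * ε₀ - q₀ * ε₁ ∈ M.wsec₀₁ hn π f⁻¹ k :=
      sub_mem (mul_mem_secPow (m := k) (mul_one _) (by omega) Hq₁ e0)
        (mul_mem_secPow (m := k) (mul_one _) (by omega) Hq₀ e1)
    have t2 : q₀ * (q₁ * (r₀ - r₁)) ∈ M.wsec₀₁ hn π f⁻¹ k :=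
      mul_mem_secPow (mul_one _) (by omega) Hq₀
        (mul_mem_secPow (l := k) (m := k) (inv_mul_cancel₀ hf) (by omega) Hq₁ hc.diff_mem)
    convert sub_mem t1 t2 using 1
    rw [hε₀, hε₁]
    ring
  have T4 : algebraMap O F ((k : O) * β * π ^ (k + b)) * (δ * (τ r₁ * (q₀ - q₁))) ∈
      M.wsec₀₁ hn π (τ f / f) (k + b + 1) :=
    const_mul_mem_secPow (j := k + b) (k := k) (dvd_mul_left _ _) (by omega)
      (mul_mem_secPow (one_mul _) (by omega) Hδ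
        (mul_mem_secPow (m := k) hτf.symm (by omega) (h.tau_mem ha Hr₁) hQ))
  convert add_mem (add_mem (add_mem T1 T2) T3) T4 using 1
  have hτ₀ : τ r₀ = τ r₁ + τ (Pk * δ) * τ r₁ + τ Z := by
    rw [← map_mul, ← map_add, ← map_add, hZdef]
    congr 1
    ring
  rw [hτ₀, hε₀, hε₁]
  have hr0 : r₀ = r₁ + Pk * (δ * r₁) + Z := by rw [hZdef]; ring
  rw [hr0]
  simp only [hPk, map_mul, map_pow, map_natCast, pow_add]
  ring

theorem mem_of_sub_mem {z₀ z₁ : F} (hz₀ : z₀ ∈ M.B₀) (hz₁ : z₁ ∈ M.B₁) :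
    ∀ k, z₀ - z₁ ∈ M.wsec₀₁ hn π 1 k →
      ∃ c : O, ∃ A₀ ∈ M.B₀, ∃ A₁ ∈ M.B₁,
        z₀ = algebraMap O F c + π ^ k • A₀ ∧ z₁ = algebraMap O F c + π ^ k • A₁ := by
  intro k
  induction k generalizing z₀ z₁ with
  | zero =>
    exact fun _ => ⟨0, z₀, hz₀, z₁, hz₁, by simp, by simp⟩
  | succ k ih =>
    intro hd
    obtain ⟨b, hb, hbe⟩ := mem_secPow_one.mp hd
    have h1 : ∀ i, z₀ - z₁ ∈ (P i).nonunits := fun i => by
      rw [hbe, ← h.pDvd_one_iff i]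
      exact h.pDvd_mono i (Nat.succ_le_succ k.zero_le) ⟨b, h.overlap_le i hb, rfl⟩
    have hci : ∀ i, ∃ c : O, z₀ - algebraMap O F c ∈ (P i).nonunits := fun i => by
      refine h.exists_const_mod i (h.chart₀.fibre.le i _ hz₀) hz₀ ?_ hz₁ (h1 i)
      rw [sub_self]
      exact (P i).nonunits.zero_mem
    obtain ⟨c, hc⟩ := hci true
    obtain ⟨c', hc'⟩ := hci false
    obtain ⟨m, hm, x, y, u, hnode⟩ := h.exists_node
    obtain ⟨d, hd'⟩ := h.dvd_sub_of_node h.chart₀.fibre hm hnode hz₀ (k := 1)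
      ((h.pDvd_one_iff false).mpr hc') ((h.pDvd_one_iff true).mpr hc)
    have hall : ∀ i, PDvd π (P i) 1 (z₀ - algebraMap O F c) := fun i => by
      cases i with
      | true => exact (h.pDvd_one_iff true).mpr hc
      | false =>
        have := ((h.pDvd_one_iff false).mpr hc').add
          (h.pDvd_algebraMap false (a := c' - c) ⟨d, hd'⟩)
        convert this using 1
        rw [map_sub]
        ring
    obtain ⟨A₀, hA₀, e₀⟩ := h.exists_smul_of_pDvd h.chart₀.fibre 1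
      (sub_mem hz₀ (M.B₀.algebraMap_mem c)) hall
    obtain ⟨A₁, hA₁, e₁⟩ := h.exists_smul_of_pDvd h.chart₁.fibre 1
      (sub_mem hz₁ (M.B₁.algebraMap_mem c)) fun i => by
        have := (hall i).sub ((h.pDvd_one_iff i).mpr (h1 i))
        convert this using 1
        ring
    have hA : A₀ - A₁ = π ^ k • b := by
      refine h.smul_right_cancel (k := 1) ?_
      rw [smul_sub, ← e₀, ← e₁, smul_smul, ← pow_add, add_comm, ← hbe]
      ring
    obtain ⟨c₂, B₀', hB₀, B₁', hB₁, f₀, f₁⟩ := ih hA₀ hA₁ (mem_secPow_one.mpr ⟨b, hb, hA⟩)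
    refine ⟨c + π * c₂, B₀', hB₀, B₁', hB₁, ?_, ?_⟩
    · rw [← sub_add_cancel z₀ (algebraMap O F c), e₀, f₀]
      simp only [Algebra.smul_def, map_add, map_mul, map_pow]
      ring
    · rw [← sub_add_cancel z₁ (algebraMap O F c), e₁, f₁]
      simp only [Algebra.smul_def, map_add, map_mul, map_pow]
      ring

theorem splitSub_mem {x : F} (hx : x ∈ M.splitSub π) : x ∈ M.B₀₁ := by
  obtain ⟨A₀, h₀, A₁, h₁, z, hz, rfl⟩ := Model.mem_splitSub.mp hx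
  exact add_mem (add_mem (M.le₀ h₀) (M.le₁ h₁)) (M.B₀₁.smul_mem hz _)

/-- A split class lifts the trivialisation by one step. -/
theorem triv_succ (hk : 0 < k) (hc : IsClass M hn π f k δ r₀ r₁) (hs : δ ∈ M.splitSub π) :
    Triv M π p f (k + 1) := by
  obtain ⟨A₀, h₀, A₁, h₁, z, hz, rfl⟩ := Model.mem_splitSub.mp hs
  set Pk := algebraMap O F (π ^ k)
  have Hr₀ : r₀ ∈ M.wsec₀ hn π f 0 := mem_secPow_zero hc.gen₀.mem
  have Hr₁ : r₁ ∈ M.wsec₁ hn π f 0 := mem_secPow_zero hc.gen₁.mem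
  have x₀ : -(Pk * (A₀ * r₀)) ∈ M.wsec₀ hn π f k :=
    neg_mem (const_mul_mem_secPow dvd_rfl le_rfl
      (mul_mem_secPow (one_mul f) le_rfl (of_mem_chart h₀) Hr₀))
  have x₁ : Pk * (A₁ * r₁) ∈ M.wsec₁ hn π f k :=
    const_mul_mem_secPow dvd_rfl le_rfl
      (mul_mem_secPow (one_mul f) le_rfl (of_mem_chart h₁) Hr₁)
  have t1 : Pk * (π • z * r₁) ∈ M.wsec₀₁ hn π f (k + 1) :=
    const_mul_mem_secPow (k := 1) dvd_rfl le_rfl
      (mul_mem_secPow (l := 0) (one_mul f) le_rfl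
        (mem_secPow_one.mpr ⟨z, hz, by rw [pow_one]⟩) (secPow_le M.le₁ Hr₁))
  have t2 : Pk * (A₀ * (r₀ - r₁)) ∈ M.wsec₀₁ hn π f (k + 1) :=
    const_mul_mem_secPow (j := k) (k := k) dvd_rfl (by omega)
      (mul_mem_secPow (k := 0) (m := k) (one_mul f) (by omega) (of_mem_chart (M.le₀ h₀)) hc.diff_mem)
  obtain ⟨d, hd, hde⟩ := mem_secPow.mp (add_mem hc.diff (sub_mem t1 t2))
  refine ⟨r₀ + -(Pk * (A₀ * r₀)), r₁ + Pk * (A₁ * r₁),
    hc.gen₀.add h.prime (secPow_mono hk x₀), hc.gen₁.add h.prime (secPow_mono hk x₁), d, hd, ?_⟩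
  rw [← hde]
  simp only [Pk, Algebra.smul_def, map_pow]
  ring

/-- A generator is a unit along both components. -/
theorem notMem_nonunits_of_gen {B : Subalgebra O F} (hle : ∀ i, ∀ b ∈ B, b ∈ P i) {g r : F}
    (hr : IsGenMod B π p g r) (i : Bool) : r ^ p / g ∉ (P i).nonunits := fun hU => by
  obtain ⟨-, c, hc, d, hd, he⟩ := id hr
  have h1 := ((h.pDvd_one_iff i).mpr hU).mul_mem (hle i c hc)
  rw [he] at h1
  have h2 := h1.sub (show PDvd π (P i) 1 (π • d) from ⟨d, hle i d hd, by rw [pow_one]⟩)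
  rw [add_sub_cancel_right, h.pDvd_one_iff, ValuationSubring.mem_nonunits_iff, map_one] at h2
  exact lt_irrefl _ h2

/-- Two close chart functions: the class of their relative difference splits. -/
theorem split_of_sub {m : ℕ} (hm : 0 < m) {a₀ a₁ : F} (h₀ : a₀ ∈ M.B₀) (h₁ : a₁ ∈ M.B₁)
    (hu : a₁ ∉ (P true).nonunits) {Φ : F} (hΦ : Φ ∈ M.B₀₁)
    (hrel : a₀ - a₁ - algebraMap O F (π ^ m) * (Φ * a₁) ∈ M.wsec₀₁ hn π 1 (m + 1)) :
    Φ ∈ M.splitSub π := by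
  have h0 : algebraMap O F (π ^ m) * (Φ * a₁) ∈ M.wsec₀₁ hn π 1 m :=
    const_mul_mem_secPow (k := 0) dvd_rfl le_rfl
      (mul_mem_secPow (one_mul 1) le_rfl (of_mem_chart hΦ) (of_mem_chart (M.le₁ h₁)))
  have hd := add_mem (secPow_mono m.le_succ hrel) h0
  rw [sub_add_cancel] at hd
  obtain ⟨c, A₀, hA₀, A₁, hA₁, e₀, e₁⟩ := h.mem_of_sub_mem h₀ h₁ m hd
  have hcu : IsUnit c := notMem_maximalIdeal.mp (by
    rw [h.irreducible.maximalIdeal_eq, Ideal.mem_span_singleton]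
    intro hπc
    refine hu ((h.pDvd_one_iff true).mp ?_)
    rw [e₁]
    exact (h.pDvd_algebraMap true ((pow_one π).symm ▸ hπc)).add
      (h.pDvd_mono true hm ⟨A₁, h.chart₁.fibre.le true _ hA₁, rfl⟩))
  obtain ⟨v, rfl⟩ := hcu
  obtain ⟨z, hz, hze⟩ := mem_secPow_one.mp hrel
  obtain ⟨m', rfl⟩ : ∃ m', m = m' + 1 := ⟨m - 1, (Nat.sub_add_cancel hm).symm⟩
  have key : A₀ - A₁ = algebraMap O F (v : O) * Φ +
      π • (π ^ m' • (Φ * A₁) + z) := by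
    refine h.smul_right_cancel (k := m' + 1) ?_
    have e2 : π ^ (m' + 1) • (A₀ - A₁) = a₀ - a₁ := by rw [smul_sub, e₀, e₁]; abel
    rw [e2, ← sub_add_cancel (a₀ - a₁) (algebraMap O F (π ^ (m' + 1)) * (Φ * a₁)), hze, e₁]
    simp only [Algebra.smul_def, map_mul, map_pow, pow_succ]
    ring
  refine Model.mem_splitSub.mpr ⟨((v⁻¹ : Oˣ) : O) • A₀, M.B₀.smul_mem hA₀ _,
    -(((v⁻¹ : Oˣ) : O) • A₁), neg_mem (M.B₁.smul_mem hA₁ _),
    -(((v⁻¹ : Oˣ) : O) • (π ^ m' • (Φ * A₁) + z)),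
    neg_mem (M.B₀₁.smul_mem (add_mem (M.B₀₁.smul_mem (mul_mem hΦ (M.le₁ hA₁)) _) hz) _), ?_⟩
  have hv : algebraMap O F ((v⁻¹ : Oˣ) : O) * algebraMap O F (v : O) = 1 := by
    rw [← map_mul, Units.inv_mul, map_one]
  rw [← sub_eq_add_neg, ← smul_sub, key]
  simp only [Algebra.smul_def]
  linear_combination -Φ * hv

/-- The obstruction to deforming the constants. -/
theorem split_of_relation {m : ℕ} (hm : 0 < m) (hc : IsClass M hn π f k δ r₀ r₁) {Φ : F}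
    (hΦ : Φ ∈ M.B₀₁)
    (hrel : r₀ ^ p / f - r₁ ^ p / f - algebraMap O F (π ^ m) * (Φ * (r₁ ^ p / f)) ∈
      M.wsec₀₁ hn π 1 (m + 1)) : Φ ∈ M.splitSub π :=
  h.split_of_sub hm hc.gen₀.1 hc.gen₁.1
    (h.notMem_nonunits_of_gen h.chart₁.fibre.le hc.gen₁ true) hΦ hrel

/-- The `p`-th powers of two close sections. -/
theorem sub_pow_class (hc : IsClass M hn π f k δ r₀ r₁) {ν : O} (hν : (p : O) = ν * π ^ e)
    (hk : 0 < k) {m : ℕ} (h1 : m ≤ p * k + 1) (h2 : m ≤ e + k + 1) :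
    r₀ ^ p / f - r₁ ^ p / f - (algebraMap O F (π ^ (p * k)) * (δ ^ p * (r₁ ^ p / f)) +
      algebraMap O F (ν * π ^ (e + k)) * (δ * (r₁ ^ p / f))) ∈ M.wsec₀₁ hn π 1 m := by
  set hB₀₁ := rootClosed_of_isIntegral hn M.closed₀₁
  have hr₁ : r₁ ∈ rootModule hB₀₁ hn f :=
    rootModule_mono (hB := rootClosed_of_isIntegral hn M.closed₁) M.le₁ hc.gen₁.mem
  obtain ⟨z, hz, hze⟩ := mem_secPow.mp hc.diff
  have hδr : δ * r₁ ∈ rootModule hB₀₁ hn f := mul_left_mem hc.mem hr₁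
  set D := δ * r₁ + π • z with hDdef
  have hD : D ∈ rootModule hB₀₁ hn f := add_mem hδr (smul_mem_rootModule _ hz)
  obtain ⟨E, hE, hEe⟩ := exists_pow_add h.prime hr₁ hD (π ^ k)
  obtain ⟨E', hE', hEe'⟩ := exists_pow_add h.prime hδr hz π
  have hmix : ∀ {u v : F}, u ∈ rootModule hB₀₁ hn f → v ∈ rootModule hB₀₁ hn f →
      u ^ (p - 1) * v / f ∈ M.B₀₁ := fun {u v} hu hv => by
    refine div_mem_of_pow (hB := hB₀₁) (hn := hn) ?_
    have := mul_mem_rootModule (pow_mem_rootModule hu (p - 1)) hv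
    rwa [← pow_succ, Nat.sub_add_cancel hn] at this
  have hS : (r₁ ^ (p - 1) * z / f) ∈ M.B₀₁ := hmix hr₁ hz
  obtain ⟨j, hj⟩ : ∃ j, p = j + 1 := ⟨p - 1, (Nat.sub_add_cancel hn).symm⟩
  have t1 : algebraMap O F (π ^ (p * k) * π) *
      (π ^ j • (z ^ p / f) + (p : O) • ((δ * r₁) ^ (p - 1) * z / f + π • E')) ∈
        M.wsec₀₁ hn π 1 m :=
    const_mul_mem_secPow (j := p * k + 1) (by rw [pow_succ]) (by omega)
      (of_mem_chart (add_mem (M.B₀₁.smul_mem hz _)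
        (M.B₀₁.smul_mem (add_mem (hmix hδr hz) (M.B₀₁.smul_mem hE' _)) _)))
  have t2 : algebraMap O F (ν * π ^ (e + k) * π) *
      (r₁ ^ (p - 1) * z / f + π ^ (k - 1) • E) ∈ M.wsec₀₁ hn π 1 m :=
    const_mul_mem_secPow (j := e + k + 1) ⟨ν, by rw [pow_succ]; ring⟩ (by omega)
      (of_mem_chart (add_mem hS (M.B₀₁.smul_mem hE _)))
  convert add_mem t1 t2 using 1
  have e0 : r₀ = r₁ + π ^ k • D := by
    rw [hDdef, smul_add, smul_smul, ← pow_succ, ← hze, Algebra.smul_def]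
    ring
  rw [e0, hEe, hDdef, hEe', hν]
  obtain ⟨k', rfl⟩ : ∃ k', k = k' + 1 := ⟨k - 1, (Nat.sub_add_cancel hk).symm⟩
  rw [hj]
  simp only [Algebra.smul_def, map_mul, map_pow, Nat.add_sub_cancel, add_mul, pow_add, pow_one,
    mul_add, one_mul, mul_one, pow_mul]
  ring

end IsWildModel

end Fermat.Agent.Models
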