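/-
The classes killed by the `p`-th power relation, by constants, and the detection of roots.
-/
import Fermat.Agent.Models.Wild.Trivial
import Fermat.Agent.Models.CoreExtend

set_option autoImplicit false
set_option linter.unusedSectionVars false

noncomputable section

namespace Fermat.Agent.Models

open IsLocalRing

namespace IsWildModel

variable {O F : Type} [CommRing O] [IsDomain O] [IsDiscreteValuationRing O] [Field F] [Algebra O F]
variable {M : Model O F} {π : O} {p : ℕ} {hn : 0 < p} {f g : F} {k : ℕ} {δ r₀ r₁ : F}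
variable {P : Bool → ValuationSubring F} {e : ℕ} {F₀ : Subfield F}
  (h : IsWildModel M π P e p F₀)

include h

theorem splitSub_of_unit {a : O} (ha : IsUnit a) {x : F}
    (hx : algebraMap O F a * x ∈ M.splitSub π) : x ∈ M.splitSub π := by
  obtain ⟨v, rfl⟩ := ha
  have := (M.splitSub π).smul_mem ((v⁻¹ : Oˣ) : O) hx
  rwa [Algebra.smul_def, ← mul_assoc, ← map_mul, Units.inv_mul, map_one, one_mul] at this

/-- Below the critical level the `p`-th power of the class splits. -/
theorem split_pow (hk : 0 < k) (hke : p * k < e + k) (hc : IsClass M hn π f k δ r₀ r₁) :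
    δ ^ p ∈ M.splitSub π := by
  obtain ⟨u, hu⟩ := h.natCast_eq
  refine h.split_of_relation (m := p * k) (Nat.mul_pos h.prime.pos hk) hc (pow_mem hc.mem p) ?_
  have t : algebraMap O F ((u : O) * π ^ (e + k)) * (δ * (r₁ ^ p / f)) ∈
      M.wsec₀₁ hn π 1 (p * k + 1) :=
    const_mul_mem_secPow (j := e + k) (k := 0) (dvd_mul_left _ _) (by omega)
      (of_mem_chart (mul_mem hc.mem (M.le₁ hc.gen₁.1)))
  convert add_mem (h.sub_pow_class hc hu hk le_rfl (by omega)) t using 1
  ring

/-- At the critical level the class satisfies an Artin--Schreier equation. -/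
theorem split_crit (hk : 0 < k) (hke : p * k = e + k) (hc : IsClass M hn π f k δ r₀ r₁) :
    ∃ ν : O, IsUnit ν ∧ δ ^ p + algebraMap O F ν * δ ∈ M.splitSub π := by
  obtain ⟨u, hu⟩ := h.natCast_eq
  refine ⟨u, u.isUnit, h.split_of_relation (m := p * k) (Nat.mul_pos h.prime.pos hk) hc
    (add_mem (pow_mem hc.mem p) (mul_mem (M.B₀₁.algebraMap_mem _) hc.mem)) ?_⟩
  convert h.sub_pow_class hc hu hk le_rfl (by omega) using 1
  rw [← hke]
  simp only [map_mul]
  ring

/-- Beyond the critical level the class splits. -/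
theorem split_linear (hk : 0 < k) (hke : e + k < p * k) (hc : IsClass M hn π f k δ r₀ r₁) :
    δ ∈ M.splitSub π := by
  obtain ⟨u, hu⟩ := h.natCast_eq
  refine h.splitSub_of_unit u.isUnit (h.split_of_relation (m := e + k) (by omega) hc
    (mul_mem (M.B₀₁.algebraMap_mem _) hc.mem) ?_)
  have t : algebraMap O F (π ^ (p * k)) * (δ ^ p * (r₁ ^ p / f)) ∈
      M.wsec₀₁ hn π 1 (e + k + 1) :=
    const_mul_mem_secPow (j := p * k) (k := 0) dvd_rfl (by omega)
      (of_mem_chart (mul_mem (pow_mem hc.mem p) (M.le₁ hc.gen₁.1)))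
  convert add_mem (h.sub_pow_class hc hu hk (by omega) le_rfl) t using 1
  simp only [map_mul]
  ring

theorem exists_unit_const {B : Subalgebra O F} (hf' : ChartFibre B π P)
    (hcl : ∀ x : F, IsIntegral B x → x ∈ B) (hg : g ≠ 0) {r : F} (hr : IsGenMod B π p g r) :
    ∀ (n : ℕ) (a : Oˣ) (H : F), g = algebraMap O F ((a : O) * π ^ n) * H ^ p →
      ∃ (a' : Oˣ) (H' : F), g = algebraMap O F (a' : O) * H' ^ p := by
  intro n
  induction n using Nat.strong_induction_on with
  | _ n ih =>
    intro a H hgH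
    rcases Nat.eq_zero_or_pos n with rfl | hn0
    · exact ⟨a, H, by simpa using hgH⟩
    have hH : H ≠ 0 := by
      rintro rfl
      exact hg (by rw [hgH, zero_pow h.prime.pos.ne', mul_zero])
    set z := r / H
    have hzp : z ^ p = algebraMap O F ((a : O) * π ^ n) * (r ^ p / g) := by
      have := pow_ne_zero p hH
      rw [div_pow, eq_comm, hgH]
      have hne : algebraMap O F ((a : O) * π ^ n) ≠ 0 := fun h0 => hg (by rw [hgH, h0, zero_mul])
      field_simp
    have hzB : z ∈ B := rootClosed_of_isIntegral h.prime.pos hcl z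
      (hzp ▸ mul_mem (B.algebraMap_mem _) hr.1)
    have hznu : ∀ i, z ∈ (P i).nonunits := fun i => by
      by_contra hu
      have h1 : (P i).valuation z = 1 :=
        le_antisymm ((ValuationSubring.valuation_le_one_iff _ _).mpr (hf'.le i _ hzB))
          (not_lt.mp hu)
      have h2 : z ^ p ∈ (P i).nonunits := by
        rw [hzp, ← h.pDvd_one_iff i]
        exact (h.pDvd_algebraMap i (Dvd.dvd.mul_left (pow_dvd_pow π hn0) _)).mul_mem
          (hf'.le i _ hr.1)
      rw [ValuationSubring.mem_nonunits_iff, map_pow, h1, one_pow] at h2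
      exact lt_irrefl _ h2
    obtain ⟨z', hz', hzz'⟩ := hf'.reduced z hzB hznu
    rcases Nat.lt_or_ge n p with hlt | hge
    · exfalso
      refine h.notMem_nonunits_of_gen hf'.le hr true ?_
      rw [← h.pDvd_one_iff true]
      have key : r ^ p / g =
          algebraMap O F (((a⁻¹ : Oˣ) : O) * π ^ (p - n)) * z' ^ p := by
        refine h.smul_right_cancel (k := n) ?_
        rw [Algebra.smul_def, Algebra.smul_def]
        have e1 : algebraMap O F (((a⁻¹ : Oˣ) : O) * ((a : O) * π ^ n)) * (r ^ p / g) =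
            algebraMap O F ((a⁻¹ : Oˣ) : O) * z ^ p := by rw [hzp, map_mul]; ring
        rw [← mul_assoc, Units.inv_mul, one_mul] at e1
        rw [e1, hzz', Algebra.smul_def, mul_pow, ← map_pow, ← mul_assoc, ← mul_assoc, ← map_mul,
          ← map_mul]
        congr 2
        rw [mul_comm (π ^ n), mul_assoc, ← pow_add, Nat.sub_add_cancel hlt.le]
      rw [key]
      exact (h.pDvd_algebraMap true (Dvd.dvd.mul_left (pow_dvd_pow π (by omega)) _)).mul_mem
        (hf'.le true _ (pow_mem hz' p))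
    · refine ih (n - p) (by have := h.prime.pos; omega) a (algebraMap O F π * H) ?_
      rw [hgH, mul_pow, ← map_pow, ← mul_assoc, ← map_mul]
      congr 2
      rw [mul_assoc, ← pow_add, Nat.sub_add_cancel hge]

/-- The classes of a constant times a `p`-th power split. -/
theorem split_of_eq_const_mul_pow {j : ℕ} (hj : 0 < j) (hg : g ≠ 0) {c : O} {H : F}
    (hgH : g = algebraMap O F c * H ^ p) (hc : IsClass M hn π g j δ r₀ r₁) :
    δ ∈ M.splitSub π := by
  have hc0 : c ≠ 0 := fun h0 => hg (by rw [hgH, h0, map_zero, zero_mul])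
  obtain ⟨n, a, rfl⟩ := IsDiscreteValuationRing.eq_unit_mul_pow_irreducible hc0 h.irreducible
  obtain ⟨a, H, hgH⟩ := h.exists_unit_const h.chart₀.fibre M.closed₀ hg hc.gen₀ n a H hgH
  have hH : H ≠ 0 := by
    rintro rfl
    exact hg (by rw [hgH, zero_pow h.prime.pos.ne', mul_zero])
  have ha0 : algebraMap O F (a : O) ≠ 0 := fun h0 => hg (by rw [hgH, h0, zero_mul])
  have hzp : ∀ x : F, (x / H) ^ p = algebraMap O F (a : O) * (x ^ p / g) := fun x => by
    have := pow_ne_zero p hH
    rw [hgH, div_pow]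
    field_simp
  have hu : r₁ / H ∉ (P true).nonunits := fun hz => by
    refine h.notMem_nonunits_of_gen h.chart₁.fibre.le hc.gen₁ true ?_
    have hzB : r₁ / H ∈ P true := (P true).nonunits_subset hz
    rw [← h.pDvd_one_iff true] at hz ⊢
    obtain ⟨p', hp'⟩ : ∃ p', p = p' + 1 := ⟨p - 1, (Nat.sub_add_cancel h.prime.pos).symm⟩
    have h2 := hz.mul_mem (pow_mem hzB p')
    rw [← pow_succ', ← hp', hzp] at h2
    have h3 := h2.mul_mem (h.algebraMap_mem true ((a⁻¹ : Oˣ) : O))
    rwa [mul_comm, ← mul_assoc, ← map_mul, Units.inv_mul, map_one, one_mul] at h3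
  refine h.split_of_sub (hn := hn) hj
    (rootClosed_of_isIntegral hn M.closed₀ _ (hzp r₀ ▸ mul_mem (M.B₀.algebraMap_mem _) hc.gen₀.1))
    (rootClosed_of_isIntegral hn M.closed₁ _ (hzp r₁ ▸ mul_mem (M.B₁.algebraMap_mem _) hc.gen₁.1))
    hu hc.mem ?_
  obtain ⟨z, hz, hze⟩ := mem_secPow.mp hc.diff
  refine mem_secPow_one.mpr ⟨z / H, rootClosed_of_isIntegral hn M.closed₀₁ _
    (hzp z ▸ mul_mem (M.B₀₁.algebraMap_mem _) hz), ?_⟩
  simp only [Algebra.smul_def] at hze ⊢
  linear_combination hze / H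

theorem triv_add (hf : f ≠ 0) (hk : 0 < k) (hke : e + k < p * k) (ht : Triv M π p f k) :
    ∀ d, Triv M π p f (k + d) := by
  intro d
  induction d with
  | zero => exact ht
  | succ d ih =>
    obtain ⟨r₀, r₁, hr⟩ := ih
    obtain ⟨δ, hc⟩ := hr.exists_class hf h.prime.pos
    refine h.triv_succ (k := k + d) (Nat.add_pos_left hk d) hc
      (h.split_linear (Nat.add_pos_left hk d) ?_ hc)
    rw [mul_add]
    have : d ≤ p * d := Nat.le_mul_of_pos_left d h.prime.pos
    omega

/-- Trivial beyond the critical level: a constant times a power. -/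
theorem exists_root_of_triv (hf : f ≠ 0)
    (hroots : ∀ m : Ideal M.B₀, m.IsMaximal → HasRootAt M.B₀ p f m) (hk : 0 < k)
    (hke : e + k < p * k) (ht : Triv M π p f k) :
    ∃ (c : O) (H : F), c ≠ 0 ∧ H ≠ 0 ∧ H ^ p = algebraMap O F c * f := by
  have hn : 0 < p := h.prime.pos
  let C := M.toCharts hn
  obtain ⟨c, hc⟩ := C.exists_cech_bound hn hf (isExtendable_of_forall hf hroots) π
  obtain ⟨r₀, r₁, hr⟩ := h.triv_add hf hk hke ht (c + 1)
  obtain ⟨d, hd, hde⟩ := hr.close
  have h0 : r₀ ∈ C.sec₀ hn f := hr.gen₀.1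
  have h1 : r₁ ∈ C.sec₁ hn f := hr.gen₁.1
  obtain ⟨b₀, hb₀, b₁, hb₁, hb⟩ := Submodule.mem_sup.mp (hc (k + (c + 1)) d hd (by
    rw [← hde]
    exact sub_mem (Submodule.mem_sup_left h0) (Submodule.mem_sup_right h1)))
  set r' := r₀ + -(π ^ (k + 1) • b₀)
  have hb₀' : b₀ ∈ rootModule (rootClosed_of_isIntegral hn M.closed₀) hn f := hb₀
  have hgen : IsGenMod M.B₀ π p f r' := hr.gen₀.add h.prime
    (hB := rootClosed_of_isIntegral hn M.closed₀) (hn := hn)
    (neg_mem (secPow_mono (Nat.le_add_left 1 k) (mem_secPow.mpr ⟨b₀, hb₀', rfl⟩)))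
  have hr' : r' ≠ 0 := fun h0 => h.notMem_nonunits_of_gen h.chart₀.fibre.le hgen true (by
    rw [h0, zero_pow hn.ne', zero_div]
    exact (P true).nonunits.zero_mem)
  set H := π ^ c • r'
  have hH : H = π ^ c • r₁ + π ^ (k + (c + 1)) • b₁ := by
    have key : π ^ c • (r₀ - r₁) = π ^ (k + (c + 1)) • (b₀ + b₁) := by
      rw [hb, hde, smul_comm]
    simp only [H, r', Algebra.smul_def, map_mul, map_pow, pow_add, pow_one] at key ⊢
    linear_combination key
  have hH0 : H ≠ 0 := by
    simp only [H, Algebra.smul_def]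
    exact mul_ne_zero ((map_pow (algebraMap O F) π c).symm ▸ pow_ne_zero _ h.pi_ne_zero) hr'
  have m0 : H ∈ rootModule (rootClosed_of_isIntegral hn M.closed₀) hn f :=
    smul_mem_rootModule _ hgen.mem
  have m1 : H ∈ rootModule (rootClosed_of_isIntegral hn M.closed₁) hn f :=
    hH ▸ add_mem (smul_mem_rootModule _ h1) (smul_mem_rootModule _ hb₁)
  obtain ⟨a, ha⟩ := M.constants _ m0 m1
  refine ⟨a, H, ?_, hH0, by rw [ha, div_mul_cancel₀ _ hf]⟩
  rintro rfl
  rw [map_zero, eq_comm, div_eq_zero_iff] at ha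
  exact ha.elim (pow_ne_zero _ hH0) hf

end IsWildModel

end Fermat.Agent.Models
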