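/-
Products, conjugates and norms of trivialisation classes.
-/
import Fermat.Agent.Models.Wild.Split

set_option autoImplicit false
set_option linter.unusedSectionVars false

noncomputable section

namespace Fermat.Agent.Models

open IsLocalRing

section Gen

variable {O F : Type} [CommRing O] [Field F] [Algebra O F] {B : Subalgebra O F} {π : O} {p : ℕ}

theorem IsGenMod.mul {f g r s : F} (hr : IsGenMod B π p f r) (hs : IsGenMod B π p g s) :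
    IsGenMod B π p (f * g) (r * s) := by
  obtain ⟨hU, c, hc, d, hd, hUc⟩ := hr
  obtain ⟨hU', c', hc', d', hd', hUc'⟩ := hs
  have e : (r * s) ^ p / (f * g) = (r ^ p / f) * (s ^ p / g) := by rw [mul_pow, div_mul_div_comm]
  refine ⟨e ▸ mul_mem hU hU', c * c', mul_mem hc hc', d + d' + π • (d * d'),
    add_mem (add_mem hd hd') (B.smul_mem (mul_mem hd hd') _), ?_⟩
  rw [e, mul_mul_mul_comm, hUc, hUc']
  simp only [Algebra.smul_def]
  ring

theorem IsGenMod.mul_pow_self {f r H : F} (hr : IsGenMod B π p f r) (hH : H ≠ 0) :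
    IsGenMod B π p (f * H ^ p) (r * H) := by
  have e : (r * H) ^ p / (f * H ^ p) = r ^ p / f := by
    rw [mul_pow, mul_div_mul_right _ _ (pow_ne_zero p hH)]
  rw [IsGenMod, e]
  exact hr

theorem IsGenMod.map_of {f r : F} {σ : F →+* F} (hr : IsGenMod B π p f r)
    (hσ : ∀ b ∈ B, σ b ∈ B) {u : O} (hu : σ (algebraMap O F π) = algebraMap O F (π * u)) :
    IsGenMod B π p (σ f) (σ r) := by
  obtain ⟨hU, c, hc, d, hd, hUc⟩ := hr
  have e : σ r ^ p / σ f = σ (r ^ p / f) := by rw [map_div₀, map_pow]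
  refine ⟨e ▸ hσ _ hU, σ c, hσ _ hc, u • σ d, B.smul_mem (hσ _ hd) _, ?_⟩
  rw [e, ← map_mul, hUc]
  simp only [Algebra.smul_def, map_add, map_one, map_mul, hu]
  ring

end Gen

/-- A norm on the function field, with its additive first-order term. -/
structure IsNormOp {O F : Type} [CommRing O] [Field F] [Algebra O F] (M : Model O F) (π : O)
    (p : ℕ) (N : F →*₀ F) (Tr : F →+ F) : Prop where
  mem₀ : ∀ b ∈ M.B₀, N b ∈ M.B₀
  mem₁ : ∀ b ∈ M.B₁, N b ∈ M.B₁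
  mem₀₁ : ∀ b ∈ M.B₀₁, N b ∈ M.B₀₁
  trace₀ : ∀ b ∈ M.B₀, Tr b ∈ M.B₀
  trace₁ : ∀ b ∈ M.B₁, Tr b ∈ M.B₁
  trace₀₁ : ∀ b ∈ M.B₀₁, Tr b ∈ M.B₀₁
  trace_smul : ∀ (a : O) (z : F), Tr (a • z) = a • Tr z
  pert₀ : ∀ (f x y : F) (l : ℕ), x ^ p / f ∈ M.B₀ → y ^ p / f ∈ M.B₀ →
    ∃ z, z ^ p / N f ∈ M.B₀ ∧ N (x + π ^ l • y) = N x + π ^ l • z
  pert₁ : ∀ (f x y : F) (l : ℕ), x ^ p / f ∈ M.B₁ → y ^ p / f ∈ M.B₁ →
    ∃ z, z ^ p / N f ∈ M.B₁ ∧ N (x + π ^ l • y) = N x + π ^ l • z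
  pert₀₁ : ∀ (f x y : F) (l : ℕ), x ^ p / f ∈ M.B₀₁ → y ^ p / f ∈ M.B₀₁ →
    ∃ z, z ^ p / N f ∈ M.B₀₁ ∧ N (x + π ^ l • y) = N x + π ^ l • z
  main : ∀ (k : ℕ) (z : F), 0 < k → z ∈ M.B₀₁ →
    ∃ w ∈ M.B₀₁, N (1 + π ^ k • z) = 1 + π ^ k • Tr z + π ^ (k + 1) • w

variable {O F : Type} [CommRing O] [IsDomain O] [IsDiscreteValuationRing O] [Field F] [Algebra O F]
variable {M : Model O F} {π : O} {p : ℕ} {hn : 0 < p} {f g : F} {k : ℕ} {δ δ' r₀ r₁ s₀ s₁ : F}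

theorem IsClass.root₁ (hc : IsClass M hn π f k δ r₀ r₁) : r₁ ∈ M.wsec₀₁ hn π f 0 :=
  secPow_le M.le₁ (mem_secPow_zero (hB := rootClosed_of_isIntegral hn M.closed₁) hc.gen₁.mem)

theorem IsClass.mul (hk : 0 < k) (hc : IsClass M hn π f k δ r₀ r₁)
    (hd : IsClass M hn π g k δ' s₀ s₁) :
    IsClass M hn π (f * g) k (δ + δ') (r₀ * s₀) (r₁ * s₁) := by
  refine ⟨hc.gen₀.mul hd.gen₀, hc.gen₁.mul hd.gen₁, add_mem hc.mem hd.mem, ?_⟩
  have hs₀ : s₀ ∈ M.wsec₀₁ hn π g 0 :=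
    secPow_le M.le₀ (mem_secPow_zero (hB := rootClosed_of_isIntegral hn M.closed₀) hd.gen₀.mem)
  have t1 : (r₀ - r₁ - algebraMap O F (π ^ k) * (δ * r₁)) * s₀ ∈
      M.wsec₀₁ hn π (f * g) (k + 1) :=
    mul_mem_secPow (k := k + 1) (l := 0) rfl le_rfl hc.diff hs₀
  have t2 : r₁ * (s₀ - s₁ - algebraMap O F (π ^ k) * (δ' * s₁)) ∈
      M.wsec₀₁ hn π (f * g) (k + 1) :=
    mul_mem_secPow (k := 0) (l := k + 1) rfl (by omega) hc.root₁ hd.diff
  have t3 : algebraMap O F (π ^ k) * (δ * (r₁ * (s₀ - s₁))) ∈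
      M.wsec₀₁ hn π (f * g) (k + 1) :=
    const_mul_mem_secPow (j := k) (k := k) dvd_rfl (by omega)
      (mul_mem_secPow (k := 0) (m := k) (one_mul _) (by omega) (of_mem_chart hc.mem)
        (mul_mem_secPow (k := 0) (l := k) (m := k) rfl (by omega) hc.root₁ hd.diff_mem))
  convert add_mem (add_mem t1 t2) t3 using 1
  ring

theorem IsClass.mul_pow_self (hc : IsClass M hn π f k δ r₀ r₁) {H : F} (hH : H ≠ 0) :
    IsClass M hn π (f * H ^ p) k δ (r₀ * H) (r₁ * H) := by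
  refine ⟨hc.gen₀.mul_pow_self hH, hc.gen₁.mul_pow_self hH, hc.mem, ?_⟩
  have hH' : H ∈ M.wsec₀₁ hn π (H ^ p) 0 := mem_secPow_zero (by
    rw [mem_rootModule, div_self (pow_ne_zero p hH)]; exact one_mem _)
  have h2 : (r₀ - r₁ - algebraMap O F (π ^ k) * (δ * r₁)) * H ∈
      M.wsec₀₁ hn π (f * H ^ p) (k + 1) :=
    mul_mem_secPow (k := k + 1) (l := 0) rfl le_rfl hc.diff hH'
  convert h2 using 1
  ring

theorem IsClass.npow (hk : 0 < k) (hc : IsClass M hn π f k δ r₀ r₁) :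
    ∀ j : ℕ, IsClass M hn π (f ^ (j + 1)) k ((j + 1) • δ) (r₀ ^ (j + 1)) (r₁ ^ (j + 1))
  | 0 => by simpa using hc
  | j + 1 => by
    rw [pow_succ f (j + 1), succ_nsmul, pow_succ r₀ (j + 1), pow_succ r₁ (j + 1)]
    exact (hc.npow hk j).mul hk hc

theorem IsClass.map_of {σ : F →+* F} (h₀ : ∀ b ∈ M.B₀, σ b ∈ M.B₀) (h₁ : ∀ b ∈ M.B₁, σ b ∈ M.B₁)
    (h₀₁ : ∀ b ∈ M.B₀₁, σ b ∈ M.B₀₁) {u : O}
    (hu : σ (algebraMap O F π) = algebraMap O F (π * u)) (hc : IsClass M hn π f k δ r₀ r₁) :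
    IsClass M hn π (σ f) k (algebraMap O F (u ^ k) * σ δ) (σ r₀) (σ r₁) := by
  refine ⟨hc.gen₀.map_of h₀ hu, hc.gen₁.map_of h₁ hu,
    mul_mem (M.B₀₁.algebraMap_mem _) (h₀₁ _ hc.mem), ?_⟩
  obtain ⟨z, hz, hze⟩ := mem_secPow.mp hc.diff
  have hσz : σ z ∈ rootModule (rootClosed_of_isIntegral hn M.closed₀₁) hn (σ f) := by
    rw [mem_rootModule] at hz ⊢
    rw [← map_pow, ← map_div₀]
    exact h₀₁ _ hz
  have hp : ∀ j : ℕ, σ (algebraMap O F (π ^ j)) = algebraMap O F (π ^ j * u ^ j) := fun j => by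
    rw [map_pow, map_pow, hu, ← map_pow, mul_pow]
  have h2 : algebraMap O F (π ^ (k + 1) * u ^ (k + 1)) * σ z ∈ M.wsec₀₁ hn π (σ f) (k + 1) :=
    const_mul_mem_secPow (j := k + 1) (dvd_mul_right _ _) le_rfl (mem_secPow_zero hσz)
  convert h2 using 1
  have := congrArg σ hze
  simp only [map_sub, map_mul, hp, Algebra.smul_def] at this ⊢
  linear_combination this

theorem IsNormOp.gen {N : F →*₀ F} {B : Subalgebra O F}
    (hmem : ∀ b ∈ B, N b ∈ B)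
    (hpert : ∀ (f x y : F) (l : ℕ), x ^ p / f ∈ B → y ^ p / f ∈ B →
      ∃ z, z ^ p / N f ∈ B ∧ N (x + π ^ l • y) = N x + π ^ l • z)
    (hcl : RootClosed B p) {f r : F} (hr : IsGenMod B π p f r) :
    IsGenMod B π p (N f) (N r) := by
  obtain ⟨hU, c, hc, d, hd, hUc⟩ := hr
  obtain ⟨z, hz, hze⟩ := hpert 1 1 d 1 (by rw [one_pow, div_one]; exact one_mem B)
    (by rw [div_one]; exact pow_mem hd p)
  rw [map_one, div_one] at hz
  rw [map_one, pow_one] at hze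
  have e : N r ^ p / N f = N (r ^ p / f) := by rw [map_div₀, map_pow]
  exact ⟨e ▸ hmem _ hU, N c, hmem _ hc, z, hcl z hz, by rw [e, ← map_mul, hUc, hze]⟩

theorem IsClass.norm {N : F →*₀ F} {Tr : F →+ F} (hN : IsNormOp M π p N Tr) (hk : 0 < k)
    (hc : IsClass M hn π f k δ r₀ r₁) : IsClass M hn π (N f) k (Tr δ) (N r₀) (N r₁) := by
  refine ⟨IsNormOp.gen hN.mem₀ hN.pert₀ (rootClosed_of_isIntegral hn M.closed₀) hc.gen₀,
    IsNormOp.gen hN.mem₁ hN.pert₁ (rootClosed_of_isIntegral hn M.closed₁) hc.gen₁,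
    hN.trace₀₁ _ hc.mem, ?_⟩
  obtain ⟨z, hz, hze⟩ := mem_secPow.mp hc.diff
  obtain ⟨w, hw, hwe⟩ := hN.main k δ hk hc.mem
  set x := (1 + π ^ k • δ) * r₁
  have hx : x ^ p / f ∈ M.B₀₁ := by
    rw [mul_pow, mul_div_assoc]
    exact mul_mem (pow_mem (add_mem (one_mem _) (M.B₀₁.smul_mem hc.mem _)) p) (M.le₁ hc.gen₁.1)
  obtain ⟨z', hz', hze'⟩ := hN.pert₀₁ f x z (k + 1) hx hz
  have e0 : r₀ = x + π ^ (k + 1) • z := by
    rw [← hze]
    simp only [x, Algebra.smul_def]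
    ring
  have hNr : N r₁ ∈ rootModule (rootClosed_of_isIntegral hn M.closed₀₁) hn (N f) := by
    rw [mem_rootModule, ← map_pow, ← map_div₀]
    exact hN.mem₀₁ _ (M.le₁ hc.gen₁.1)
  refine mem_secPow.mpr ⟨z' + w * N r₁, add_mem hz' (mul_left_mem hw hNr), ?_⟩
  rw [e0, hze', show N x = N (1 + π ^ k • δ) * N r₁ from map_mul N _ _, hwe]
  simp only [Algebra.smul_def]
  ring

namespace IsWildModel

variable {P : Bool → ValuationSubring F} {e : ℕ} {F₀ : Subfield F}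
  (h : IsWildModel M π P e p F₀)

include h

theorem smul_mem_splitSub {z : F} (hz : z ∈ M.B₀₁) : π • z ∈ M.splitSub π :=
  Model.mem_splitSub.mpr ⟨0, zero_mem _, 0, zero_mem _, z, hz, by simp⟩

theorem natCast_mul_mem_splitSub {z : F} (hz : z ∈ M.B₀₁) : (p : F) * z ∈ M.splitSub π := by
  obtain ⟨u, hu⟩ := h.natCast_eq
  obtain ⟨e', he⟩ : ∃ e', e = e' + 1 := ⟨e - 1, (Nat.sub_add_cancel h.e_pos).symm⟩
  have := h.smul_mem_splitSub (M.B₀₁.smul_mem hz ((u : O) * π ^ e'))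
  convert this using 1
  rw [← map_natCast (algebraMap O F), hu, he, smul_smul, Algebra.smul_def]
  congr 2
  ring

/-- Classes of two functions with constant times `p`-th power quotient agree modulo split ones. -/
theorem split_sub_of_eq (hk : 0 < k) (hf : f ≠ 0) (hc : IsClass M hn π f k δ r₀ r₁)
    (hd : IsClass M hn π g k δ' s₀ s₁) {c : O} {H : F} (hc0 : c ≠ 0) (hH : H ≠ 0)
    (hgH : g = algebraMap O F c * f * H ^ p) : δ' - δ ∈ M.splitSub π := by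
  obtain ⟨j, hj⟩ : ∃ j, p = j + 1 + 1 :=
    ⟨p - 2, by have := h.prime.two_le; omega⟩
  have h1 := (hd.mul hk (hc.npow hk j)).mul_pow_self (inv_ne_zero hf)
  have hne : algebraMap O F c ≠ 0 := fun h0 =>
    hc0 (h.injective (h0.trans (map_zero _).symm))
  have e : g * f ^ (j + 1) * f⁻¹ ^ p = algebraMap O F c * H ^ p := by
    rw [hgH, hj, inv_pow, pow_succ f (j + 1)]
    field_simp
  rw [e] at h1
  have h2 := h.split_of_eq_const_mul_pow hk (mul_ne_zero hne (pow_ne_zero p hH)) rfl h1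
  have h3 := sub_mem h2 (h.natCast_mul_mem_splitSub hc.mem)
  convert h3 using 1
  rw [nsmul_eq_mul, hj]
  push_cast
  ring

end IsWildModel

end Fermat.Agent.Models
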