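/-
Roots along the branches at a point and the first trivialisation.
-/
import Fermat.Agent.Models.Wild.Trivial
import Fermat.Agent.Models.DetectGlue

set_option autoImplicit false
set_option linter.unusedSectionVars false

noncomputable section

namespace Fermat.Agent.Models

open IsLocalRing

/-- Along a branch with one parameter every element is a power of it, up to local units. -/
theorem exists_monomial_branch {R : Type} [CommRing R] [IsNoetherianRing R] {m Q : Ideal R}
    [hm : m.IsPrime] [hQ : Q.IsPrime] (hQm : Q ≤ m) {x : R} (hx : x ∈ m)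
    (hgen : ∀ z ∈ m, ∃ s ∉ m, s * z ∈ Ideal.span {x} ⊔ Q) :
    ∀ b : R, b ∉ Q → ∃ n : ℕ, ∃ s ∉ m, ∃ a ∉ m, s * b - a * x ^ n ∈ Q := by
  let J : R → Ideal R := fun b =>
    { carrier := {c | ∃ s ∉ m, s * c ∈ Ideal.span {b} ⊔ Q}
      zero_mem' := ⟨1, fun h => hm.ne_top ((Ideal.eq_top_iff_one _).mpr h), by simp⟩
      add_mem' := by
        rintro c c' ⟨s, hs, hsc⟩ ⟨t, ht, htc⟩
        refine ⟨s * t, hm.mul_notMem hs ht, ?_⟩
        rw [mul_add]
        refine add_mem ?_ ?_
        · rw [show s * t * c = t * (s * c) by ring]; exact Ideal.mul_mem_left _ _ hsc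
        · rw [mul_assoc]; exact Ideal.mul_mem_left _ _ htc
      smul_mem' := by
        rintro r c ⟨s, hs, hsc⟩
        refine ⟨s, hs, ?_⟩
        rw [smul_eq_mul, mul_left_comm]
        exact Ideal.mul_mem_left _ _ hsc }
  suffices H : ∀ (I : Ideal R) (b : R), J b = I → b ∉ Q →
      ∃ n : ℕ, ∃ s ∉ m, ∃ a ∉ m, s * b - a * x ^ n ∈ Q from fun b => H _ b rfl
  intro I
  induction I using WellFoundedGT.induction with
  | ind I ih =>
    rintro b rfl hb
    by_cases hbm : b ∈ m
    swap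
    · exact ⟨0, 1, fun h => hm.ne_top ((Ideal.eq_top_iff_one _).mpr h), b, hbm, by simp⟩
    obtain ⟨s, hs, hsb⟩ := hgen b hbm
    obtain ⟨u, hu, q, hq, hsum⟩ := Submodule.mem_sup.mp hsb
    obtain ⟨α, rfl⟩ := Ideal.mem_span_singleton'.mp hu
    have hsq : s * b - α * x ∈ Q := by rw [← hsum, add_sub_cancel_left]; exact hq
    have hα : α ∉ Q := fun h => by
      have := add_mem hsq (Q.mul_mem_right x h)
      rw [sub_add_cancel] at this
      exact (hQ.mem_or_mem this).elim (fun h => hs (hQm h)) hb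
    have hle : J b ≤ J α := by
      rintro c ⟨t, ht, htc⟩
      obtain ⟨u, hu, q', hq', hsum'⟩ := Submodule.mem_sup.mp htc
      obtain ⟨r, rfl⟩ := Ideal.mem_span_singleton'.mp hu
      refine ⟨s * t, hm.mul_notMem hs ht, Submodule.mem_sup.mpr
        ⟨(r * x) * α, Ideal.mem_span_singleton'.mpr ⟨_, rfl⟩, r * (s * b - α * x) + s * q',
          add_mem (Q.mul_mem_left r hsq) (Q.mul_mem_left s hq'), ?_⟩⟩
      rw [mul_assoc s t c, ← hsum']
      ring
    have hne : J b ≠ J α := fun he => by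
      have h1 : α ∈ J b := he ▸ ⟨1, fun h => hm.ne_top ((Ideal.eq_top_iff_one _).mpr h),
        Submodule.mem_sup_left (by rw [one_mul]; exact Ideal.mem_span_singleton_self α)⟩
      obtain ⟨t, ht, htc⟩ := h1
      obtain ⟨u, hu, q', hq', hsum'⟩ := Submodule.mem_sup.mp htc
      obtain ⟨r, rfl⟩ := Ideal.mem_span_singleton'.mp hu
      have h2 : (s * t - r * x) * α ∈ Q := by
        have := add_mem (Q.mul_mem_left r hsq) (Q.mul_mem_left s hq')
        convert this using 1
        linear_combination -s * hsum'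
      have h3 := hQm ((hQ.mem_or_mem h2).resolve_right hα)
      have h4 := add_mem h3 (m.mul_mem_left r hx)
      rw [sub_add_cancel] at h4
      exact hm.mul_notMem hs ht h4
    obtain ⟨n, s', hs', a, ha, hsa⟩ := ih _ (lt_of_le_of_ne hle hne) α rfl hα
    refine ⟨n + 1, s' * s, hm.mul_notMem hs' hs, a, ha, ?_⟩
    have := add_mem (Q.mul_mem_left s' hsq) (Q.mul_mem_right x hsa)
    convert this using 1
    ring

/-- A fraction whose power is regular on the branch is regular. -/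
theorem exists_root_branch {R : Type} [CommRing R] [IsNoetherianRing R] {m Q : Ideal R}
    [hm : m.IsPrime] [hQ : Q.IsPrime] (hQm : Q ≤ m) {x : R} (hx : x ∈ m) (hxQ : x ∉ Q)
    (hgen : ∀ z ∈ m, ∃ s ∉ m, s * z ∈ Ideal.span {x} ⊔ Q) {p : ℕ} (hp : 0 < p) {a b U : R}
    (hb : b ∉ Q) (h : a ^ p - U * b ^ p ∈ Q) : ∃ s ∉ m, ∃ c : R, s * a - c * b ∈ Q := by
  by_cases ha : a ∈ Q
  · exact ⟨1, fun h => hm.ne_top ((Ideal.eq_top_iff_one _).mpr h), 0, by simpa using ha⟩
  obtain ⟨j, sa, hsa, a', ha', hja⟩ := exists_monomial_branch hQm hx hgen a ha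
  obtain ⟨i, sb, hsb, b', hb', hib⟩ := exists_monomial_branch hQm hx hgen b hb
  set φ := Ideal.Quotient.mk Q with hφ
  have e0 : φ a ^ p = φ U * φ b ^ p := by
    rw [← map_pow, ← map_pow, ← map_mul]; exact Ideal.Quotient.eq.mpr h
  have ea : φ sa * φ a = φ a' * φ x ^ j := by
    rw [← map_mul, ← map_pow, ← map_mul]; exact Ideal.Quotient.eq.mpr hja
  have eb : φ sb * φ b = φ b' * φ x ^ i := by
    rw [← map_mul, ← map_pow, ← map_mul]; exact Ideal.Quotient.eq.mpr hib
  have hx0 : φ x ≠ 0 := fun h0 => hxQ (Ideal.Quotient.eq_zero_iff_mem.mp h0)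
  rcases Nat.lt_or_ge j i with hlt | hge
  · exfalso
    obtain ⟨d, rfl⟩ := Nat.exists_eq_add_of_lt hlt
    have e1 : φ ((a' * sb) ^ p) * φ x ^ (j * p) =
        φ ((sa * b') ^ p * U * x ^ ((d + 1) * p)) * φ x ^ (j * p) := by
      simp only [map_mul, map_pow]
      rw [pow_mul (φ x) j, ← mul_pow, show φ a' * φ sb * φ x ^ j = φ sa * φ a * φ sb by
        rw [ea]; ring, mul_pow, mul_pow, e0]
      calc φ sa ^ p * (φ U * φ b ^ p) * φ sb ^ p = φ sa ^ p * φ U * (φ sb * φ b) ^ p := by ring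
        _ = _ := by rw [eb, add_assoc j d, pow_add, pow_mul (φ x) (d + 1)]; ring
    have h2 := Ideal.Quotient.eq.mp (mul_right_cancel₀ (pow_ne_zero _ hx0) e1)
    have h3 := add_mem (hQm h2) (m.mul_mem_left ((sa * b') ^ p * U)
      (Ideal.pow_mem_of_mem m hx ((d + 1) * p) (Nat.mul_pos d.succ_pos hp)))
    rw [sub_add_cancel] at h3
    exact hm.mul_notMem ha' hsb (hm.mem_of_pow_mem p h3)
  · obtain ⟨d, rfl⟩ := Nat.exists_eq_add_of_le hge
    refine ⟨sa * b', hm.mul_notMem hsa hb', a' * x ^ d * sb, Ideal.Quotient.eq.mp ?_⟩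
    rw [← hφ]
    simp only [map_mul, map_pow]
    calc φ sa * φ b' * φ a = φ b' * (φ sa * φ a) := by ring
      _ = φ a' * φ x ^ d * (φ b' * φ x ^ i) := by rw [ea, pow_add]; ring
      _ = _ := by rw [← eb]; ring

namespace IsWildModel

variable {O F : Type} [CommRing O] [IsDomain O] [IsDiscreteValuationRing O] [Field F] [Algebra O F]
variable {M : Model O F} {π : O} {P : Bool → ValuationSubring F} {e p : ℕ} {F₀ : Subfield F}
  (h : IsWildModel M π P e p F₀)

include h

theorem natCast_mem {B : Subalgebra O F} {m : Ideal B} (hπ : algebraMap O B π ∈ m) :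
    (p : B) ∈ m := by
  obtain ⟨u, hu⟩ := h.natCast_eq
  rw [← map_natCast (algebraMap O B), hu, map_mul, map_pow]
  exact m.mul_mem_left _ (Ideal.pow_mem_of_mem m hπ e h.e_pos)

/-- The parameter of a branch at a point. -/
theorem exists_branch_param {B : Subalgebra O F} {w : F} (hB : IsWildChart B w π P e F₀) (i : Bool)
    {m : Ideal B} (hm : m.IsMaximal) (hπ : algebraMap O B π ∈ m) (hc : center hB.fibre i ≤ m) :
    ∃ x ∈ m, x ∉ center hB.fibre i ∧ ∀ z ∈ m, ∃ s ∉ m, s * z ∈ Ideal.span {x} ⊔ center hB.fibre i := by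
  have hπc : algebraMap O B π ∈ center hB.fibre i := mem_center.mpr (h.uniformizer i).1
  rcases hB.points m hm hπ with ⟨j, hj, ⟨b, hb, hbm⟩, x, hxm, hxj, hgen⟩ | ⟨x, y, u, hn⟩
  · obtain rfl : j = i := by
      by_contra hji
      have : (!j) = i := by cases i <;> cases j <;> first | rfl | exact absurd rfl hji
      exact hbm (hc (mem_center.mpr (this ▸ hb)))
    refine ⟨x, hxm, fun h' => hxj (mem_center.mp h'), fun z hz => ?_⟩
    obtain ⟨s, hs, hsz⟩ := hgen z hz
    refine ⟨s, hs, (Ideal.span_le.mpr ?_) hsz⟩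
    rintro _ (rfl | rfl)
    · exact Submodule.mem_sup_right hπc
    · exact Submodule.mem_sup_left (Ideal.mem_span_singleton_self _)
  · cases i with
    | false =>
      refine ⟨x, hn.x_mem, fun h' => hn.x_false (mem_center.mp h'), fun z hz => ?_⟩
      obtain ⟨s, hs, hsz⟩ := hn.gen z hz
      refine ⟨s, hs, (Ideal.span_le.mpr ?_) hsz⟩
      rintro _ (rfl | rfl | rfl)
      · exact Submodule.mem_sup_left (Ideal.mem_span_singleton_self _)
      · exact Submodule.mem_sup_right (mem_center.mpr hn.y_false)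
      · exact Submodule.mem_sup_right hπc
    | true =>
      refine ⟨y, hn.y_mem, fun h' => hn.y_true (mem_center.mp h'), fun z hz => ?_⟩
      obtain ⟨s, hs, hsz⟩ := hn.gen z hz
      refine ⟨s, hs, (Ideal.span_le.mpr ?_) hsz⟩
      rintro _ (rfl | rfl | rfl)
      · exact Submodule.mem_sup_right (mem_center.mpr hn.x_true)
      · exact Submodule.mem_sup_left (Ideal.mem_span_singleton_self _)
      · exact Submodule.mem_sup_right hπc

/-- A function on a component with regular `p`-th power is regular near the point. -/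
theorem exists_regular_root {B : Subalgebra O F} {w : F} (hB : IsWildChart B w π P e F₀) (i : Bool)
    {m : Ideal B} (hm : m.IsMaximal) (hπ : algebraMap O B π ∈ m) (hc : center hB.fibre i ≤ m)
    {z : F} (hz : z ∈ P i) {U : B} (hU : z ^ p - (U : F) ∈ (P i).nonunits) :
    ∃ s : B, s ∉ m ∧ ∃ a : B, rs (P i) (z * (s : F)) = rs (P i) (a : F) := by
  haveI := hB.fibre.noetherian
  haveI := hm.isPrime
  obtain ⟨x, hxm, hxQ, hgen⟩ := h.exists_branch_param hB i hm hπ hc
  obtain ⟨a, b, hb, hab⟩ := hB.frac i z hz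
  have h1 : a ^ p - U * b ^ p ∈ center hB.fibre i := mem_center.mpr (by
    rw [← h.pDvd_one_iff i] at hU ⊢
    have := hU.mul_mem (pow_mem (hB.fibre.le i _ b.2) p)
    convert this using 1
    push_cast
    rw [← hab]
    ring)
  obtain ⟨s, hs, c, hsc⟩ := exists_root_branch (Q := center hB.fibre i) hc hxm hxQ hgen
    h.prime.pos (fun h' => hb (mem_center.mp h')) h1
  refine ⟨s, hs, c, ?_⟩
  have hbU := isU_of_notMem_center (hf := hB.fibre) (i := i) (b := b)
    fun h' => hb (mem_center.mp h')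
  have h2 : ((s : F) * z - (c : F)) * (b : F) ∈ (P i).nonunits := by
    have := mem_center.mp hsc
    convert this using 1
    push_cast
    rw [← hab]
    ring
  rw [mul_comm, rs_eq_iff ((P i).mul_mem _ _ (hB.fibre.le i _ s.2) hz) (hB.fibre.le i _ c.2),
    ← h.pDvd_one_iff i]
  have h3 := ((h.pDvd_one_iff i).mpr h2).mul_mem hbU.inv.1
  rwa [mul_inv_cancel_right₀ hbU.ne_zero] at h3

/-- Roots at a point with prescribed residues along the components through it. -/
theorem exists_local_root {B : Subalgebra O F} {w : F} (hB : IsWildChart B w π P e F₀)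
    (hcl : RootClosed B p) {f : F} {T : Bool → F}
    (hT : ∀ i, IsU (P i) (T i ^ p / f) ∧ rs (P i) (T i ^ p / f) = 1) {x : Ideal B}
    (hx : IsPoint π x) (hroot : HasRootAt B p f x) :
    ∃ r ∈ rootModule hcl h.prime.pos f, ∃ b : B, b ∉ x ∧
      ∀ i, center hB.fibre i ≤ x → rs (P i) (r / T i) = rs (P i) (b : F) := by
  haveI := hx.1.isPrime
  have hf : f ≠ 0 := fun h0 => (hT true).1.ne_zero (by rw [h0, div_zero])
  obtain ⟨z, a, b, ha, hb, he⟩ := hroot
  change (b : F) * z ^ p = (a : F) * f at he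
  set U : B := b ^ (p - 1) * a
  have hUx : U ∉ x := hx.1.isPrime.mul_notMem (fun h' => hb (hx.1.isPrime.mem_of_pow_mem _ h')) ha
  have hrU : ((b : F) * z) ^ p / f = (U : F) := by
    simp only [U]
    push_cast
    rw [mul_pow, div_eq_iff hf, mul_assoc, ← he]
    conv_lhs => rw [← Nat.sub_add_cancel (h.prime.pos : 1 ≤ p), pow_succ]
    rw [Nat.sub_add_cancel (h.prime.pos : 1 ≤ p)]
    ring
  have hrm : (b : F) * z ∈ rootModule hcl h.prime.pos f := by
    rw [mem_rootModule, hrU]; exact U.2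
  set ρ : Bool → F := fun i => (b : F) * z / T i with hρdef
  have hρp : ∀ i, ρ i ^ p = (U : F) * (T i ^ p / f)⁻¹ := fun i => by
    simp only [hρdef]
    rw [← hrU, div_pow, inv_div, div_mul_div_comm, mul_comm f, mul_div_mul_right _ _ hf]
  have hρ : ∀ i, ρ i ∈ P i := fun i => mem_of_pow_mem h.prime.pos (by
    rw [hρp]; exact (P i).mul_mem _ _ (hB.fibre.le i _ U.2) (hT i).1.inv.1)
  have hρU : ∀ i, rs (P i) (ρ i) ^ p = rs (P i) (U : F) := fun i => by
    rw [← rs_pow (hρ i), hρp, rs_mul (hB.fibre.le i _ U.2) (hT i).1.inv.1, (hT i).1.rs_inv,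
      (hT i).2, inv_one, mul_one]
  have hreg : ∀ i, center hB.fibre i ≤ x →
      ∃ s : B, s ∉ x ∧ ∃ c : B, rs (P i) (ρ i * (s : F)) = rs (P i) (c : F) := fun i hi =>
    h.exists_regular_root hB i hx.1 hx.2 hi (hρ i) (U := U) (by
      rw [← rs_eq_iff (pow_mem (hρ i) p) (hB.fibre.le i _ U.2), rs_pow (hρ i), hρU])
  have hval : ∀ (i : Bool), center hB.fibre i ≤ x → ∀ (s c : B),
      rs (P i) (ρ i * (s : F)) = rs (P i) (c : F) → c ^ p - s ^ p * U ∈ x := fun i hi s c hsc => by
    refine hi (mem_center.mpr ?_)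
    push_cast
    rw [← rs_eq_iff (pow_mem (hB.fibre.le i _ c.2) _)
      ((P i).mul_mem _ _ (pow_mem (hB.fibre.le i _ s.2) _) (hB.fibre.le i _ U.2)),
      rs_pow (hB.fibre.le i _ c.2), ← hsc, rs_mul (hρ i) (hB.fibre.le i _ s.2), mul_pow, hρU,
      rs_mul (pow_mem (hB.fibre.le i _ s.2) _) (hB.fibre.le i _ U.2),
      rs_pow (hB.fibre.le i _ s.2), mul_comm]
  have hnot : ∀ (i : Bool), center hB.fibre i ≤ x → ∀ (s c : B), s ∉ x →
      rs (P i) (ρ i * (s : F)) = rs (P i) (c : F) → c ∉ x := fun i hi s c hs hsc hcx => by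
    have h1 := sub_mem (Ideal.pow_mem_of_mem x hcx p h.prime.pos) (hval i hi s c hsc)
    rw [sub_sub_cancel] at h1
    exact hx.1.isPrime.mul_notMem (fun h' => hs (hx.1.isPrime.mem_of_pow_mem _ h')) hUx h1
  rcases hB.points x hx.1 hx.2 with ⟨j, hj, ⟨v, hv, hvx⟩, -⟩ | ⟨X, Y, u, hn⟩
  · have hcj : center hB.fibre j ≤ x := fun y hy => hj y (mem_center.mp hy)
    obtain ⟨s, hs, c, hsc⟩ := hreg j hcj
    refine ⟨(s : F) * ((b : F) * z), mul_left_mem s.2 hrm, c, hnot j hcj s c hs hsc, fun i hi => ?_⟩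
    obtain rfl : i = j := by
      by_contra hij
      have : (!j) = i := by cases i <;> cases j <;> first | rfl | exact absurd rfl hij
      exact hvx (hi (mem_center.mpr (this ▸ hv)))
    rw [← hsc, mul_div_assoc, mul_comm]
  · have hct : ∀ i, center hB.fibre i ≤ x := fun i y hy => hn.centre i y (mem_center.mp hy)
    obtain ⟨s₀, hs₀, c₀, hsc₀⟩ := hreg false (hct false)
    obtain ⟨s₁, hs₁, c₁, hsc₁⟩ := hreg true (hct true)
    set S := s₀ * s₁
    set A₀ := c₀ * s₁
    set A₁ := c₁ * s₀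
    have hS : S ∉ x := hx.1.isPrime.mul_notMem hs₀ hs₁
    have hA₀ : rs (P false) (ρ false * (S : F)) = rs (P false) (A₀ : F) := by
      simp only [S, A₀, MulMemClass.coe_mul]
      rw [← mul_assoc, rs_mul ((P false).mul_mem _ _ (hρ false) (hB.fibre.le _ _ s₀.2))
        (hB.fibre.le _ _ s₁.2), hsc₀, ← rs_mul (hB.fibre.le _ _ c₀.2) (hB.fibre.le _ _ s₁.2)]
    have hA₁ : rs (P true) (ρ true * (S : F)) = rs (P true) (A₁ : F) := by
      simp only [S, A₁, MulMemClass.coe_mul]
      rw [mul_comm (s₀ : F), ← mul_assoc, rs_mul ((P true).mul_mem _ _ (hρ true)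
        (hB.fibre.le _ _ s₁.2)) (hB.fibre.le _ _ s₀.2), hsc₁,
        ← rs_mul (hB.fibre.le _ _ c₁.2) (hB.fibre.le _ _ s₀.2)]
    have hAx : A₀ - A₁ ∈ x := by
      refine hx.1.isPrime.mem_of_pow_mem p ?_
      obtain ⟨q, hq⟩ := exists_add_pow_prime_eq h.prime (A₀ - A₁) A₁
      rw [sub_add_cancel] at hq
      have h1 := sub_mem (sub_mem (hval false (hct false) S A₀ hA₀) (hval true (hct true) S A₁ hA₁))
        (x.mul_mem_right q (x.mul_mem_right A₁ (x.mul_mem_right (A₀ - A₁) (h.natCast_mem hx.2))))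
      convert h1 using 1
      linear_combination -hq
    obtain ⟨t, ht, hspan⟩ := hn.gen _ hAx
    obtain ⟨α, z₁, hz₁, hz₁e⟩ := Ideal.mem_span_insert.mp hspan
    obtain ⟨β, γ, hz₂⟩ := Ideal.mem_span_pair.mp hz₁
    refine ⟨((t * S : B) : F) * ((b : F) * z), mul_left_mem (t * S).2 hrm, t * A₀ - β * Y, ?_, ?_⟩
    · intro h'
      have := add_mem h' (x.mul_mem_left β hn.y_mem)
      rw [sub_add_cancel] at this
      exact hx.1.isPrime.mul_notMem ht (hnot false (hct false) S A₀ hS hA₀) this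
    · intro i _
      have hrs : ∀ (A D : B), rs (P i) (ρ i * (S : F)) = rs (P i) (A : F) →
          t * A₀ - β * Y - t * A = D → D ∈ center hB.fibre i →
          rs (P i) (((t * S : B) : F) * ((b : F) * z) / T i) =
            rs (P i) ((t * A₀ - β * Y : B) : F) := by
        intro A D hA hD hDc
        rw [show ((t * S : B) : F) * ((b : F) * z) / T i = (t : F) * (ρ i * (S : F)) by
          simp only [hρdef]; push_cast; ring,
          rs_mul (hB.fibre.le i _ t.2) ((P i).mul_mem _ _ (hρ i) (hB.fibre.le i _ S.2)), hA,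
          ← rs_mul (hB.fibre.le i _ t.2) (hB.fibre.le i _ A.2), ← MulMemClass.coe_mul,
          rs_eq_iff (hB.fibre.le i _ (t * A).2) (hB.fibre.le i _ (t * A₀ - β * Y).2)]
        have := mem_center.mp (neg_mem hDc)
        rw [← hD] at this
        simpa using this
      cases i with
      | false =>
        exact hrs A₀ (-β * Y) hA₀ (by ring)
          (Ideal.mul_mem_left _ _ (mem_center.mpr hn.y_false))
      | true =>
        exact hrs A₁ (α * X + γ * algebraMap O B π) hA₁
          (by rw [← hz₂] at hz₁e; linear_combination hz₁e)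
          (add_mem (Ideal.mul_mem_left _ _ (mem_center.mpr hn.x_true))
            (Ideal.mul_mem_left _ _ (mem_center.mpr (h.uniformizer true).1)))

/-- Roots everywhere with `p`-th power reductions on both components give a trivialisation
modulo `π`. -/
theorem triv_one {f : F} (hroots : RootsEverywhere M p f) {T : Bool → F}
    (hT : ∀ i, T i ^ p / f - 1 ∈ (P i).nonunits) : Triv M π p f 1 := by
  have hn : 0 < p := h.prime.pos
  have hTU : ∀ i, IsU (P i) (T i ^ p / f) ∧ rs (P i) (T i ^ p / f) = 1 := fun i => by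
    have hmem : T i ^ p / f ∈ P i := by
      have := (P i).add_mem _ _ ((P i).nonunits_subset (hT i)) (P i).one_mem
      rwa [sub_add_cancel] at this
    have h1 : rs (P i) (T i ^ p / f) = 1 := by
      rw [← rs_one (A := P i), rs_eq_iff hmem (P i).one_mem]; exact hT i
    exact ⟨⟨hmem, by rw [h1]; exact one_ne_zero⟩, h1⟩
  have hf : f ≠ 0 := fun h0 => (hTU true).1.ne_zero (by rw [h0, div_zero])
  have hu : ∀ i, algebraMap O F π ∈ (P i).nonunits := fun i => (h.uniformizer i).1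
  obtain ⟨s₀, hs₀, hsT₀, a₀, ha₀, he₀⟩ := exists_glued_root
    (rootClosed_of_isIntegral hn M.closed₀) hn h.chart₀.fibre hu hTU fun x hx =>
      h.exists_local_root h.chart₀ _ hTU hx (hroots.1 x hx.1)
  obtain ⟨s₁, hs₁, hsT₁, a₁, ha₁, he₁⟩ := exists_glued_root
    (rootClosed_of_isIntegral hn M.closed₁) hn h.chart₁.fibre hu hTU fun x hx =>
      h.exists_local_root h.chart₁ _ hTU hx (hroots.2 x hx.1)
  have g₀ : IsGenMod M.B₀ π p f s₀ := ⟨hs₀, 1, one_mem _, a₀, ha₀, by rw [mul_one]; exact he₀⟩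
  have g₁ : IsGenMod M.B₁ π p f s₁ := ⟨hs₁, 1, one_mem _, a₁, ha₁, by rw [mul_one]; exact he₁⟩
  obtain ⟨q, hq, hsq⟩ :=
    g₁.exists_inv (hB := rootClosed_of_isIntegral hn M.closed₁) (hn := hn) hf 1
  obtain ⟨ε, hε, hεe⟩ := mem_secPow_one.mp hsq
  set hB₀₁ := rootClosed_of_isIntegral hn M.closed₀₁
  have hd : s₀ - s₁ ∈ rootModule hB₀₁ hn f :=
    sub_mem (rootModule_mono M.le₀ hs₀) (rootModule_mono M.le₁ hs₁)
  have hqf : q ^ p * f ∈ M.B₁ := by
    have := hq
    rwa [mem_rootModule, div_inv_eq_mul] at this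
  have hy : ∀ i, PDvd π (P i) 1 ((s₀ - s₁) * q) := fun i => by
    have hT0 : T i ≠ 0 := fun h0 => (hTU i).1.ne_zero (by rw [h0, zero_pow hn.ne', zero_div])
    have hTq : T i * q ∈ P i := mem_of_pow_mem hn (by
      rw [show (T i * q) ^ p = T i ^ p / f * (q ^ p * f) by rw [mul_pow]; field_simp]
      exact (P i).mul_mem _ _ (hTU i).1.1 (h.chart₁.fibre.le i _ hqf))
    have h1 : s₀ / T i - s₁ / T i ∈ (P i).nonunits := by
      rw [← rs_eq_iff (hsT₀ i).1 (hsT₁ i).1, (hsT₀ i).2, (hsT₁ i).2]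
    have := ((h.pDvd_one_iff i).mpr h1).mul_mem hTq
    convert this using 1
    field_simp
  obtain ⟨y, hy', hye⟩ := h.exists_smul_overlap 1
    (mul_mem_of_inv hf hd (rootModule_mono (hB' := hB₀₁) M.le₁ hq)) hy
  refine ⟨s₀, s₁, g₀, g₁, y * s₁ - ε * (s₀ - s₁),
    (sub_mem (mul_left_mem hy' (rootModule_mono M.le₁ hs₁)) (mul_left_mem (M.le₁ hε) hd) :
      y * s₁ - ε * (s₀ - s₁) ∈ rootModule hB₀₁ hn f), ?_⟩
  simp only [Algebra.smul_def, map_pow, pow_one] at hye hεe ⊢
  linear_combination s₁ * hye - (s₀ - s₁) * hεe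

end IsWildModel

end Fermat.Agent.Models
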