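/-
Functions regular near the zeros of the inverse coordinate, and the transport of trivialisations by
an automorphism which only preserves the first chart and this neighbourhood.
-/
import Fermat.Agent.Models.Wild.ClassOps

set_option autoImplicit false
set_option linter.unusedSectionVars false

noncomputable section

namespace Fermat.Agent.Models

variable {O F : Type} [CommRing O] [Field F] [Algebra O F]

/-- The elements `1 + w⁻¹ r` of the second chart. -/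
def Model.nearOne (M : Model O F) : Submonoid F where
  carrier := {s | ∃ r ∈ M.B₁, s = 1 + M.w⁻¹ * r}
  one_mem' := ⟨0, zero_mem _, by ring⟩
  mul_mem' := by
    rintro _ _ ⟨r, hr, rfl⟩ ⟨r', hr', rfl⟩
    exact ⟨r + r' + M.w⁻¹ * (r * r'),
      add_mem (add_mem hr hr') (mul_mem M.w_inv_mem (mul_mem hr hr')), by ring⟩

theorem Model.mem_chart_of_nearOne {M : Model O F} {s : F} (hs : s ∈ M.nearOne) : s ∈ M.B₁ := by
  obtain ⟨r, hr, rfl⟩ := hs
  exact add_mem (one_mem _) (mul_mem M.w_inv_mem hr)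

/-- Functions regular near the zeros of `w⁻¹` on the second chart. -/
def Model.nearSub (M : Model O F) : Subalgebra O F where
  carrier := {z | ∃ s ∈ M.nearOne, s * z ∈ M.B₁}
  mul_mem' := by
    rintro x y ⟨s, hs, hx⟩ ⟨t, ht, hy⟩
    refine ⟨s * t, mul_mem hs ht, ?_⟩
    rw [mul_mul_mul_comm]
    exact mul_mem hx hy
  add_mem' := by
    rintro x y ⟨s, hs, hx⟩ ⟨t, ht, hy⟩
    refine ⟨s * t, mul_mem hs ht, ?_⟩
    rw [mul_add, show s * t * x = t * (s * x) by ring, mul_assoc]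
    exact add_mem (mul_mem (Model.mem_chart_of_nearOne ht) hx)
      (mul_mem (Model.mem_chart_of_nearOne hs) hy)
  algebraMap_mem' a := ⟨1, one_mem _, by rw [one_mul]; exact M.B₁.algebraMap_mem a⟩

theorem Model.mem_nearSub {M : Model O F} {z : F} :
    z ∈ M.nearSub ↔ ∃ s ∈ M.nearOne, s * z ∈ M.B₁ := Iff.rfl

theorem Model.le_nearSub (M : Model O F) : M.B₁ ≤ M.nearSub :=
  fun z hz => ⟨1, one_mem _, by rwa [one_mul]⟩

theorem Model.rootClosed_nearSub (M : Model O F) {p : ℕ} (hp : 0 < p) : RootClosed M.nearSub p := by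
  rintro x ⟨s, hs, hx⟩
  refine ⟨s, hs, rootClosed_of_isIntegral hp M.closed₁ _ ?_⟩
  obtain ⟨j, rfl⟩ : ∃ j, p = j + 1 := ⟨p - 1, (Nat.sub_add_cancel hp).symm⟩
  rw [show (s * x) ^ (j + 1) = s ^ j * (s * x ^ (j + 1)) by ring]
  exact mul_mem (pow_mem (Model.mem_chart_of_nearOne hs) j) hx

theorem Model.exists_bezout {M : Model O F} (n : ℕ) {s : F} (hs : s ∈ M.nearOne) :
    ∃ a ∈ M.B₁, ∃ b ∈ M.B₁, a * M.w⁻¹ ^ n + b * s = 1 := by
  obtain ⟨r, hr, rfl⟩ := hs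
  induction n with
  | zero => exact ⟨1, one_mem _, 0, zero_mem _, by ring⟩
  | succ n ih =>
    obtain ⟨a, ha, b, hb, h⟩ := ih
    exact ⟨-(a * r), neg_mem (mul_mem ha hr), b + a * M.w⁻¹ ^ n,
      add_mem hb (mul_mem ha (pow_mem M.w_inv_mem n)), by linear_combination h⟩

theorem Model.loc_pow_mem {M : Model O F} {z : F} {E E' : ℕ} (h : E ≤ E')
    (hz : M.w⁻¹ ^ E * z ∈ M.B₁) : M.w⁻¹ ^ E' * z ∈ M.B₁ := by
  obtain ⟨d, rfl⟩ := Nat.exists_eq_add_of_le h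
  rw [pow_add, mul_right_comm]
  exact mul_mem hz (pow_mem M.w_inv_mem d)

/-- An element of the overlap close to a near element is close to one of the second chart. -/
theorem Model.exists_descend {M : Model O F} {x y : F} (hx : x ∈ M.B₀₁) (hy : y ∈ M.nearSub) :
    ∃ y' ∈ M.B₁, ∃ c ∈ M.B₁, x - y' = c * (x - y) := by
  obtain ⟨n, hn⟩ := M.loc₁ x hx
  obtain ⟨s, hs, hsy⟩ := hy
  obtain ⟨a, ha, b, hb, hab⟩ := M.exists_bezout n hs
  exact ⟨a * (M.w⁻¹ ^ n * x) + b * (s * y), add_mem (mul_mem ha hn) (mul_mem hb hsy), b * s,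
    mul_mem hb (Model.mem_chart_of_nearOne hs), by linear_combination -x * hab⟩

/-- An automorphism moving the second chart into the neighbourhood, and the inverse coordinate to
a topologically nilpotent element of it, preserves the neighbourhood. -/
theorem Model.nearSub_map {M : Model O F} {σ : F →+* F} (h₁ : ∀ b ∈ M.B₁, σ b ∈ M.nearSub)
    (hv : ∃ N : ℕ, ∃ c ∈ M.nearSub, σ M.w⁻¹ ^ N = M.w⁻¹ * c) :
    ∀ z ∈ M.nearSub, σ z ∈ M.nearSub := by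
  rintro z ⟨s, ⟨r, hr, rfl⟩, hz⟩
  obtain ⟨N, c, hc, hN⟩ := hv
  set x := σ M.w⁻¹ * σ r with hx
  have hσr := h₁ r hr
  have hxmem : x ∈ M.nearSub := mul_mem (h₁ _ M.w_inv_mem) hσr
  have hg : (∑ i ∈ Finset.range N, (-x) ^ i) ∈ M.nearSub :=
    Subalgebra.sum_mem _ fun i _ => pow_mem (neg_mem hxmem) i
  obtain ⟨t, ⟨r', hr', rfl⟩, ht⟩ := neg_mem (mul_mem hc (pow_mem (neg_mem hσr) N))
  set g := ∑ i ∈ Finset.range N, (-x) ^ i with hg'
  have key : (1 + x) * g = 1 + M.w⁻¹ * -(c * (-σ r) ^ N) := by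
    have := mul_neg_geom_sum (-x) N
    rw [sub_neg_eq_add] at this
    rw [this, hx, show -(σ M.w⁻¹ * σ r) = σ M.w⁻¹ * -σ r by ring, mul_pow, hN]
    ring
  have hS : (1 + x) * g * (1 + M.w⁻¹ * r') ∈ M.nearOne :=
    ⟨r' + (1 + M.w⁻¹ * r') * -(c * (-σ r) ^ N), add_mem hr' ht, by rw [key]; ring⟩
  obtain ⟨u, hu, hu'⟩ := mul_mem (mul_mem (h₁ _ hz) hg)
    (M.le_nearSub (Model.mem_chart_of_nearOne (M := M) ⟨r', hr', rfl⟩))
  refine ⟨u * ((1 + x) * g * (1 + M.w⁻¹ * r')), mul_mem hu hS, ?_⟩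
  convert hu' using 1
  rw [map_mul σ, map_add, map_one, map_mul, ← hx]
  ring

theorem IsGenMod.mono {B B' : Subalgebra O F} (hle : B ≤ B') {π : O} {p : ℕ} {f r : F}
    (hr : IsGenMod B π p f r) : IsGenMod B' π p f r := by
  obtain ⟨hU, c, hc, d, hd, h⟩ := hr
  exact ⟨hle hU, c, hle hc, d, hle hd, h⟩

variable [IsDomain O] [IsDiscreteValuationRing O]
variable {M : Model O F} {π : O} {p : ℕ} {hn : 0 < p} {f : F} {k : ℕ} {δ r₀ r₁ : F}

/-- Near any automorphism preserving the first chart and the neighbourhood, elements of the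
overlap become elements of the overlap. -/
theorem Model.exists_mul_mem_overlap {σ : F →+* F} (h₀ : ∀ b ∈ M.B₀, σ b ∈ M.B₀)
    (hnear : ∀ z ∈ M.nearSub, σ z ∈ M.nearSub) {z : F} (hz : z ∈ M.B₀₁) :
    ∃ t ∈ M.nearOne, t * σ z ∈ M.B₀₁ := by
  obtain ⟨n, hzn⟩ := M.loc₁ z hz
  obtain ⟨t, ht, htz⟩ := hnear _ (M.le_nearSub hzn)
  refine ⟨t, ht, ?_⟩
  have hw : σ M.w ∈ M.B₀₁ := M.le₀ (h₀ _ M.w_mem)
  convert mul_mem (M.le₁ htz) (pow_mem hw n) using 1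
  rw [mul_assoc t, ← map_pow, ← map_mul, mul_right_comm, ← mul_pow,
    inv_mul_cancel₀ M.w_ne, one_pow, one_mul]

/-- Transport of a trivialisation and of its class. -/
theorem IsClass.exists_map (hp : p.Prime) (hk : 0 < k) {σ : F →+* F}
    (h₀ : ∀ b ∈ M.B₀, σ b ∈ M.B₀) (hnear : ∀ z ∈ M.nearSub, σ z ∈ M.nearSub)
    (hπ : σ (algebraMap O F π) = algebraMap O F π) (hc : IsClass M hn π f k δ r₀ r₁) :
    ∃ δ' s₀ s₁, IsClass M hn π (σ f) k δ' s₀ s₁ ∧ σ δ - δ' ∈ M.nearSub := by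
  obtain ⟨D, hD, hDe⟩ := mem_secPow.mp hc.diff_mem
  obtain ⟨Z, hZ, hZe⟩ := mem_secPow.mp hc.diff
  rw [mem_rootModule] at hD hZ
  set hB₁ := rootClosed_of_isIntegral hn M.closed₁
  set hB₀₁ := rootClosed_of_isIntegral hn M.closed₀₁
  have hdiv : ∀ z a : F, (a * σ z) ^ p / σ f = a ^ p * σ (z ^ p / f) := fun z a => by
    rw [map_div₀, map_pow]; ring
  have hpow : ∀ (a z : F), a ^ p * z = a ^ (p - 1) * (a * z) := fun a z => by
    rw [← mul_assoc, ← pow_succ, Nat.sub_add_cancel hn]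
  -- common denominator near the zeros of the inverse coordinate
  obtain ⟨tδ, htδ, hδt⟩ := M.exists_mul_mem_overlap h₀ hnear hc.mem
  obtain ⟨tD, htD, hDt⟩ := M.exists_mul_mem_overlap h₀ hnear hD
  obtain ⟨tZ, htZ, hZt⟩ := M.exists_mul_mem_overlap h₀ hnear hZ
  obtain ⟨tU, htU, hUt⟩ := hnear _ (M.le_nearSub hc.gen₁.1)
  set t := tδ * tD * tZ * tU
  have ht : t ∈ M.nearOne := mul_mem (mul_mem (mul_mem htδ htD) htZ) htU
  have ht₁ := Model.mem_chart_of_nearOne ht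
  have m₁ := fun {s : F} (hs : s ∈ M.nearOne) => Model.mem_chart_of_nearOne hs
  have hδ' : t * σ δ ∈ M.B₀₁ := by
    rw [show t * σ δ = tD * tZ * tU * (tδ * σ δ) by simp only [t]; ring]
    exact mul_mem (M.le₁ (mul_mem (mul_mem (m₁ htD) (m₁ htZ)) (m₁ htU))) hδt
  have hD' : t * σ (D ^ p / f) ∈ M.B₀₁ := by
    rw [show t * σ (D ^ p / f) = tδ * tZ * tU * (tD * σ (D ^ p / f)) by simp only [t]; ring]
    exact mul_mem (M.le₁ (mul_mem (mul_mem (m₁ htδ) (m₁ htZ)) (m₁ htU))) hDt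
  have hZ' : t * σ (Z ^ p / f) ∈ M.B₀₁ := by
    rw [show t * σ (Z ^ p / f) = tδ * tD * tU * (tZ * σ (Z ^ p / f)) by simp only [t]; ring]
    exact mul_mem (M.le₁ (mul_mem (mul_mem (m₁ htδ) (m₁ htD)) (m₁ htU))) hZt
  have hU' : t * σ (r₁ ^ p / f) ∈ M.B₁ := by
    rw [show t * σ (r₁ ^ p / f) = tδ * tD * tZ * (tU * σ (r₁ ^ p / f)) by simp only [t]; ring]
    exact mul_mem (mul_mem (mul_mem (m₁ htδ) (m₁ htD)) (m₁ htZ)) hUt
  obtain ⟨n₀, hn₀⟩ := M.loc₁ _ (M.le₀ (h₀ _ hc.gen₀.1))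
  obtain ⟨n₁, hn₁⟩ := M.loc₁ _ hδ'
  obtain ⟨n₂, hn₂⟩ := M.loc₁ _ hD'
  set n := n₀ + n₁ + n₂
  replace hn₀ := Model.loc_pow_mem (E' := n) (by omega) hn₀
  replace hn₁ := Model.loc_pow_mem (E' := n) (by omega) hn₁
  replace hn₂ := Model.loc_pow_mem (E' := n) (by omega) hn₂
  obtain ⟨a, ha, b, hb, hab⟩ := M.exists_bezout n (pow_mem ht 2)
  set v := M.w⁻¹ ^ n
  have hv : v ∈ M.B₁ := pow_mem M.w_inv_mem n
  -- the roots
  have hx : IsGenMod M.B₀ π p (σ f) (σ r₀) := hc.gen₀.map_of h₀ (u := 1) (by rw [mul_one, hπ])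
  have hy : IsGenMod M.nearSub π p (σ f) (σ r₁) :=
    (hc.gen₁.mono M.le_nearSub).map_of hnear (u := 1) (by rw [mul_one, hπ])
  have hvx : v * σ r₀ ∈ rootModule hB₁ hn (σ f) := by
    rw [mem_rootModule, hdiv, hpow]
    exact mul_mem (pow_mem hv _) hn₀
  have hty : t * σ r₁ ∈ rootModule hB₁ hn (σ f) := by
    rw [mem_rootModule, hdiv, hpow]
    exact mul_mem (pow_mem ht₁ _) hU'
  have htD₀₁ : t * σ D ∈ rootModule hB₀₁ hn (σ f) := by
    rw [mem_rootModule, hdiv, hpow]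
    exact mul_mem (pow_mem (M.le₁ ht₁) _) hD'
  have htZ₀₁ : t * σ Z ∈ rootModule hB₀₁ hn (σ f) := by
    rw [mem_rootModule, hdiv, hpow]
    exact mul_mem (pow_mem (M.le₁ ht₁) _) hZ'
  have hvD : v * σ D ∈ rootModule (M.rootClosed_nearSub hn) hn (σ f) := by
    rw [mem_rootModule, hdiv, hpow]
    refine mul_mem (pow_mem (M.le_nearSub hv) _) ⟨t, ht, ?_⟩
    rw [mul_left_comm]
    exact hn₂
  set s₁ := a * (v * σ r₀) + b * t * (t * σ r₁) with hs₁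
  have hs₁mem : s₁ ∈ rootModule hB₁ hn (σ f) :=
    add_mem (mul_left_mem ha hvx) (mul_left_mem (mul_mem hb ht₁) hty)
  have hxy : σ r₀ - σ r₁ = algebraMap O F π ^ k * σ D := by
    rw [← map_sub, hDe, Algebra.smul_def, map_mul, map_pow, map_pow, hπ]
  obtain ⟨j, hj⟩ : ∃ j, k = j + 1 := ⟨k - 1, (Nat.sub_add_cancel hk).symm⟩
  -- generators on the two parts
  have hg₀₁ : IsGenMod M.B₀₁ π p (σ f) s₁ := by
    have hD₂ : π ^ 1 • (π ^ j • (-(b * t) * (t * σ D))) ∈ secPow hB₀₁ hn π (σ f) 1 :=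
      mem_secPow.mpr ⟨_, smul_mem_rootModule _
        (mul_left_mem (neg_mem (M.le₁ (mul_mem hb ht₁))) htD₀₁), rfl⟩
    convert (hx.mono M.le₀).add hp hD₂ using 1
    simp only [hs₁, Algebra.smul_def, map_pow, hj] at hxy ⊢
    linear_combination (b * t ^ 2) * (-hxy) + σ r₀ * hab
  have hgnear : IsGenMod M.nearSub π p (σ f) s₁ := by
    have hD₂ : π ^ 1 • (π ^ j • (a * (v * σ D))) ∈
        secPow (M.rootClosed_nearSub hn) hn π (σ f) 1 :=
      mem_secPow.mpr ⟨_, smul_mem_rootModule _ (mul_left_mem (M.le_nearSub ha) hvD), rfl⟩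
    convert hy.add hp hD₂ using 1
    simp only [hs₁, Algebra.smul_def, map_pow, hj] at hxy ⊢
    linear_combination (a * v) * hxy + σ r₁ * hab
  have hg₁ : IsGenMod M.B₁ π p (σ f) s₁ := by
    obtain ⟨-, c₀, hc₀, d₀, hd₀, he₀⟩ := hg₀₁
    obtain ⟨-, c₁, hc₁, d₁, hd₁, he₁⟩ := hgnear
    obtain ⟨E₀, hE₀⟩ := M.loc₁ _ hc₀
    obtain ⟨E₁, hE₁⟩ := M.loc₁ _ hd₀
    obtain ⟨u₀, hu₀, hcu⟩ := hc₁
    obtain ⟨u₁, hu₁, hdu⟩ := hd₁
    obtain ⟨a', ha', b', hb', hab'⟩ := M.exists_bezout (E₀ + E₁) (mul_mem hu₀ hu₁)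
    refine ⟨hs₁mem, a' * (M.w⁻¹ ^ (E₀ + E₁) * c₀) + b' * u₁ * (u₀ * c₁),
      add_mem (mul_mem ha' (Model.loc_pow_mem (by omega) hE₀))
        (mul_mem (mul_mem hb' (m₁ hu₁)) hcu),
      a' * (M.w⁻¹ ^ (E₀ + E₁) * d₀) + b' * u₀ * (u₁ * d₁),
      add_mem (mul_mem ha' (Model.loc_pow_mem (by omega) hE₁))
        (mul_mem (mul_mem hb' (m₁ hu₀)) hdu), ?_⟩
    simp only [Algebra.smul_def] at he₀ he₁ ⊢
    linear_combination (a' * M.w⁻¹ ^ (E₀ + E₁)) * he₀ + (b' * u₁ * u₀) * he₁ + hab'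
  refine ⟨b * t * (t * σ δ), σ r₀, s₁,
    ⟨hx, hg₁, mul_mem (M.le₁ (mul_mem hb ht₁)) hδ', ?_⟩, ?_⟩
  · refine mem_secPow.mpr ⟨b * t * (t * σ Z) - π ^ j • (b * (a * (v * (t * σ δ))) * (t * σ D)),
      sub_mem (mul_left_mem (M.le₁ (mul_mem hb ht₁)) htZ₀₁)
        (smul_mem_rootModule _ (mul_left_mem
          (mul_mem (M.le₁ hb) (mul_mem (M.le₁ ha) (M.le₁ hn₁))) htD₀₁)), ?_⟩
    have e := congrArg σ hZe
    simp only [map_sub, map_mul, map_pow, hπ, Algebra.smul_def] at e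
    simp only [hs₁, Algebra.smul_def, map_pow, map_mul, hj, pow_succ] at hxy e ⊢
    linear_combination (b * t ^ 2) * e -
      (algebraMap O F π ^ j * algebraMap O F π * (b * t ^ 2 * σ δ) * (a * v)) * hxy -
      (σ r₀ + algebraMap O F π ^ j * algebraMap O F π * (b * t ^ 2 * σ δ) * σ r₁) * hab
  · rw [show σ δ - b * t * (t * σ δ) = a * v * σ δ by linear_combination -σ δ * hab]
    refine ⟨t, ht, ?_⟩
    rw [show t * (a * v * σ δ) = a * (v * (t * σ δ)) by ring]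
    exact mul_mem ha hn₁

end Fermat.Agent.Models
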