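/-
Trivialisations of Kummer functions congruent to powers on both components, in the presence of the
norm to the level prime to the residue characteristic, the involution exchanging the components and
a tame automorphism: they become trivial beyond the critical level.
-/
import Fermat.Agent.Models.Wild.Near
import Fermat.Agent.Models.Wild.Branch

set_option autoImplicit false
set_option linter.unusedSectionVars false

noncomputable section

namespace Fermat.Agent.Models

open IsLocalRing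

section Defs

variable {O F : Type} [CommRing O] [Field F] [Algebra O F]

/-- An automorphism of the first chart and of the neighbourhood of the zeros of the inverse
coordinate exchanging the two components. -/
structure IsSwapAut (M : Model O F) (P : Bool → ValuationSubring F) (σ : F ≃+* F) : Prop where
  chart₀ : ∀ z, σ z ∈ M.B₀ ↔ z ∈ M.B₀
  near : ∀ z, σ z ∈ M.nearSub ↔ z ∈ M.nearSub
  swap : ∀ i z, σ z ∈ (P i).nonunits ↔ z ∈ (P (!i)).nonunits

theorem IsSwapAut.symm {M : Model O F} {P : Bool → ValuationSubring F} {σ : F ≃+* F}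
    (hσ : IsSwapAut M P σ) : IsSwapAut M P σ.symm where
  chart₀ z := by conv_rhs => rw [← σ.apply_symm_apply z, hσ.chart₀]
  near z := by conv_rhs => rw [← σ.apply_symm_apply z, hσ.near]
  swap i z := by
    have h2 := hσ.swap (!i) (σ.symm z)
    rw [σ.apply_symm_apply, Bool.not_not] at h2
    exact h2.symm

/-- The norm to the level prime to `p`, the involution, and Frobenius conjugated by it. -/
structure IsOrdOps (M : Model O F) (π : O) (p : ℕ) (P : Bool → ValuationSubring F) (N : F →*₀ F)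
    (Tr : F →+ F) (W φ : F ≃+* F) : Prop where
  norm : IsNormOp M π p N Tr
  inf : ∀ z ∈ M.B₀₁, Tr z - z ∈ (P false).nonunits
  zero : ∀ z ∈ M.B₀₁, Tr z - φ z ^ p ∈ (P true).nonunits
  swap_W : IsSwapAut M P W
  W_const : ∀ a : O, W (algebraMap O F a) = algebraMap O F a
  swap_φ : IsSwapAut M P φ
  φ_const : ∀ a : O, ∃ a' : O, φ (algebraMap O F a) = algebraMap O F a'
  φ_symm_const : ∀ a : O, ∃ a' : O, φ.symm (algebraMap O F a) = algebraMap O F a'

/-- Split modulo `π` along one component. -/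
def SplitOn (M : Model O F) (P : Bool → ValuationSubring F) (i : Bool) (z : F) : Prop :=
  ∃ A₀ ∈ M.B₀, ∃ A₁ ∈ M.nearSub, z - A₀ - A₁ ∈ (P i).nonunits

end Defs

variable {O F : Type} [CommRing O] [IsDomain O] [IsDiscreteValuationRing O] [Field F] [Algebra O F]
variable {M : Model O F} {π : O} {p : ℕ} {hn : 0 < p} {f g : F} {k : ℕ} {δ δ' r₀ r₁ s₀ s₁ : F}
variable {P : Bool → ValuationSubring F} {e : ℕ} {F₀ : Subfield F}

namespace IsWildModel

variable (h : IsWildModel M π P e p F₀)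

include h

theorem add_mem_nonunits (i : Bool) {a b : F} (ha : a ∈ (P i).nonunits) (hb : b ∈ (P i).nonunits) :
    a + b ∈ (P i).nonunits := by
  rw [← h.pDvd_one_iff i] at ha hb ⊢
  exact ha.add hb

theorem sub_mem_nonunits (i : Bool) {a b : F} (ha : a ∈ (P i).nonunits) (hb : b ∈ (P i).nonunits) :
    a - b ∈ (P i).nonunits := by
  rw [← h.pDvd_one_iff i] at ha hb ⊢
  exact ha.sub hb

theorem mul_mem_nonunits (i : Bool) {a b : F} (ha : a ∈ (P i).nonunits) (hb : b ∈ P i) :
    a * b ∈ (P i).nonunits := by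
  rw [← h.pDvd_one_iff i] at ha ⊢
  exact ha.mul_mem hb

theorem smul_pi_mem_nonunits (i : Bool) {b : F} (hb : b ∈ P i) : π • b ∈ (P i).nonunits :=
  (h.mem_nonunits_iff i).mpr ⟨b, hb, rfl⟩

theorem natCast_mul_mem_nonunits (i : Bool) {b : F} (hb : b ∈ P i) :
    (p : F) * b ∈ (P i).nonunits := by
  refine h.mul_mem_nonunits i ?_ hb
  rw [← map_natCast (algebraMap O F), h.algebraMap_nonunit_iff]
  obtain ⟨u, hu⟩ := h.natCast_eq
  rw [hu]
  exact Dvd.dvd.mul_left (dvd_pow_self π h.e_pos.ne') _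

theorem add_pow_sub_mem_nonunits (i : Bool) {a b : F} (ha : a ∈ P i) (hb : b ∈ P i) :
    (a + b) ^ p - a ^ p - b ^ p ∈ (P i).nonunits := by
  obtain ⟨r, hr⟩ := exists_add_pow_prime_eq h.prime (⟨a, ha⟩ : P i) ⟨b, hb⟩
  have := congrArg Subtype.val hr
  push_cast at this
  rw [this, show a ^ p + b ^ p + (p : F) * a * b * (r : F) - a ^ p - b ^ p =
    (p : F) * (a * b * (r : F)) by ring]
  exact h.natCast_mul_mem_nonunits i ((P i).mul_mem _ _ ((P i).mul_mem _ _ ha hb) r.2)

theorem pow_sub_pow_mem_nonunits (i : Bool) {a b : F} (ha : a ∈ P i) (hb : b ∈ P i)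
    (hab : a - b ∈ (P i).nonunits) (n : ℕ) : a ^ n - b ^ n ∈ (P i).nonunits := by
  obtain ⟨r, hr⟩ := sub_dvd_pow_sub_pow (⟨a, ha⟩ : P i) ⟨b, hb⟩ n
  have := congrArg Subtype.val hr
  push_cast at this
  rw [this]
  exact h.mul_mem_nonunits i hab r.2

theorem splitOn_of_split {z : F} (hz : z ∈ M.splitSub π) (i : Bool) : SplitOn M P i z := by
  obtain ⟨A₀, h₀, A₁, h₁, w, hw, rfl⟩ := Model.mem_splitSub.mp hz
  refine ⟨A₀, h₀, A₁, M.le_nearSub h₁, ?_⟩
  rw [show A₀ + A₁ + π • w - A₀ - A₁ = π • w by ring]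
  exact h.smul_pi_mem_nonunits i (h.overlap_le i hw)

theorem splitOn_congr (i : Bool) {z z' : F} (hz : SplitOn M P i z)
    (hzz : z' - z ∈ (P i).nonunits) : SplitOn M P i z' := by
  obtain ⟨A₀, h₀, A₁, h₁, hA⟩ := hz
  refine ⟨A₀, h₀, A₁, h₁, ?_⟩
  have := h.add_mem_nonunits i hzz hA
  convert this using 1
  ring

theorem splitOn_sub (i : Bool) {z z' : F} (hz : SplitOn M P i z) (hz' : SplitOn M P i z') :
    SplitOn M P i (z - z') := by
  obtain ⟨A₀, h₀, A₁, h₁, hA⟩ := hz
  obtain ⟨A₀', h₀', A₁', h₁', hA'⟩ := hz'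
  refine ⟨A₀ - A₀', sub_mem h₀ h₀', A₁ - A₁', sub_mem h₁ h₁', ?_⟩
  convert h.sub_mem_nonunits i hA hA' using 1
  ring

theorem splitOn_const_mul (i : Bool) (a : O) {z : F} (hz : SplitOn M P i z) :
    SplitOn M P i (algebraMap O F a * z) := by
  obtain ⟨A₀, h₀, A₁, h₁, hA⟩ := hz
  refine ⟨algebraMap O F a * A₀, mul_mem (M.B₀.algebraMap_mem a) h₀, algebraMap O F a * A₁,
    mul_mem (M.nearSub.algebraMap_mem a) h₁, ?_⟩
  rw [← mul_sub, ← mul_sub, mul_comm]
  exact h.mul_mem_nonunits i hA (h.algebraMap_mem i a)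

theorem splitOn_map {σ : F ≃+* F} (hσ : IsSwapAut M P σ) {i : Bool} {z : F}
    (hz : SplitOn M P i z) : SplitOn M P (!i) (σ z) := by
  obtain ⟨A₀, h₀, A₁, h₁, hA⟩ := hz
  refine ⟨σ A₀, (hσ.chart₀ _).mpr h₀, σ A₁, (hσ.near _).mpr h₁, ?_⟩
  rw [← map_sub, ← map_sub, hσ.swap, Bool.not_not]
  exact hA

theorem splitOn_add_near (i : Bool) {z a : F} (hz : SplitOn M P i z) (ha : a ∈ M.nearSub) :
    SplitOn M P i (z + a) := by
  obtain ⟨A₀, h₀, A₁, h₁, hA⟩ := hz
  exact ⟨A₀, h₀, A₁ + a, add_mem h₁ ha, by convert hA using 1; ring⟩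

/-- On the overlap the neighbourhood can be replaced by the second chart. -/
theorem splitOn_descend (i : Bool) {z : F} (hzB : z ∈ M.B₀₁) (hz : SplitOn M P i z) :
    ∃ A₀ ∈ M.B₀, ∃ A₁ ∈ M.B₁, z - A₀ - A₁ ∈ (P i).nonunits := by
  obtain ⟨A₀, h₀, A₁, h₁, hA⟩ := hz
  obtain ⟨y, hy, c, hc, he⟩ := M.exists_descend (sub_mem hzB (M.le₀ h₀)) h₁
  refine ⟨A₀, h₀, y, hy, ?_⟩
  rw [he, mul_comm]
  exact h.mul_mem_nonunits i hA (h.chart₁.fibre.le i _ hc)

theorem splitOn_of_unit (i : Bool) {a : O} (ha : IsUnit a) {z : F}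
    (hz : SplitOn M P i (algebraMap O F a * z)) : SplitOn M P i z := by
  obtain ⟨v, rfl⟩ := ha
  have := h.splitOn_const_mul i ((v⁻¹ : Oˣ) : O) hz
  rwa [← mul_assoc, ← map_mul, Units.inv_mul, map_one, one_mul] at this

/-! ## Gluing along the components -/

/-- Chart elements on the two components agreeing at the crossings come from one chart element. -/
theorem exists_glue {B : Subalgebra O F} {w : F} (hB : IsWildChart B w π P e F₀) (a : Bool → B)
    (hagree : ∀ m : Ideal B, m.IsMaximal → (∀ i, ∀ b : B, (b : F) ∈ (P i).nonunits → b ∈ m) →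
      a true - a false ∈ m) :
    ∃ b : B, ∀ i, (a i : F) - (b : F) ∈ (P i).nonunits := by
  have hle := hB.fibre.le
  let J : Ideal B :=
    { carrier := {c | ∃ b : B, ∀ i, (c : F) * (a i : F) - (b : F) ∈ (P i).nonunits}
      zero_mem' := ⟨0, fun i => by simp⟩
      add_mem' := by
        rintro c c' ⟨b, hb⟩ ⟨b', hb'⟩
        refine ⟨b + b', fun i => ?_⟩
        convert h.add_mem_nonunits i (hb i) (hb' i) using 1
        push_cast
        ring
      smul_mem' := by
        rintro r c ⟨b, hb⟩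
        refine ⟨r * b, fun i => ?_⟩
        convert h.mul_mem_nonunits i (hb i) (hle i _ r.2) using 1
        simp only [smul_eq_mul, MulMemClass.coe_mul]
        ring }
  by_cases htop : J = ⊤
  · obtain ⟨b, hb⟩ : (1 : B) ∈ J := htop ▸ Submodule.mem_top
    exact ⟨b, fun i => by simpa using hb i⟩
  · exfalso
    obtain ⟨m, hm, hJm⟩ := Ideal.exists_le_maximal J htop
    by_cases hπ : algebraMap O B π ∈ m
    · rcases hB.points m hm hπ with ⟨i, -, ⟨s, hs, hsm⟩, -⟩ | ⟨x, y, u, hx⟩
      · refine hsm (hJm ⟨s * a i, fun j => ?_⟩)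
        rcases Bool.eq_or_eq_not j i with rfl | rfl
        · simp
        · rw [MulMemClass.coe_mul, ← mul_sub]
          exact h.mul_mem_nonunits _ hs (sub_mem (hle _ _ (a _).2) (hle _ _ (a _).2))
      · obtain ⟨s, hsm, hspan⟩ := hx.gen _ (hagree m hm hx.centre)
        obtain ⟨α, z₁, hz₁, e₁⟩ := Ideal.mem_span_insert.mp hspan
        obtain ⟨β, γ, e₂⟩ := Ideal.mem_span_pair.mp hz₁
        refine hsm (hJm ⟨s * a true - (α * x + γ * algebraMap O B π), fun j => ?_⟩)
        have hπj : algebraMap O F π ∈ (P j).nonunits := (h.uniformizer j).1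
        have hγ : (γ : F) * algebraMap O F π ∈ (P j).nonunits := by
          rw [mul_comm]
          exact h.mul_mem_nonunits j hπj (hle j _ γ.2)
        have e3 := congrArg Subtype.val e₁
        have e4 := congrArg Subtype.val e₂
        push_cast at e3 e4 ⊢
        cases j with
        | true =>
          rw [show (s : F) * a true - ((s : F) * a true - ((α : F) * x + (γ : F) * algebraMap O F π)) =
            (α : F) * x + (γ : F) * algebraMap O F π by ring]
          refine h.add_mem_nonunits _ ?_ hγ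
          rw [mul_comm]
          exact h.mul_mem_nonunits _ hx.x_true (hle _ _ α.2)
        | false =>
          rw [show (s : F) * a false - ((s : F) * a true - ((α : F) * x + (γ : F) * algebraMap O F π)) =
            -((β : F) * y) by linear_combination -e3 + e4]
          rw [← h.pDvd_one_iff, mul_comm]
          exact ((h.pDvd_one_iff false).mpr (h.mul_mem_nonunits _ hx.y_false (hle _ _ β.2))).neg
    · exact hπ (hJm ⟨0, fun i => by
        simpa using h.mul_mem_nonunits i (h.uniformizer i).1 (hle i _ (a i).2)⟩)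

/-- A class with split `p`-th power which splits along both components splits. -/
theorem split_of_pow (hδ : δ ∈ M.B₀₁) (hp : δ ^ p ∈ M.splitSub π)
    (hs : ∀ i, SplitOn M P i δ) : δ ∈ M.splitSub π := by
  have := h.algClosed
  obtain ⟨A₀, hA₀, A₁, hA₁, z, hz, he⟩ := Model.mem_splitSub.mp hp
  choose a₀ ha₀ a₁ ha₁ hd using fun i => h.splitOn_descend i hδ (hs i)
  have key : ∀ i, ∀ x ∈ M.B₀, ∀ y ∈ M.B₁, δ - x - y ∈ (P i).nonunits →
      (A₀ - x ^ p) + (A₁ - y ^ p) ∈ (P i).nonunits := by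
    intro i x hx y hy hxy
    have hxP := h.chart₀.fibre.le i x hx
    have hyP := h.chart₁.fibre.le i y hy
    have h1 := h.pow_sub_pow_mem_nonunits i (h.overlap_le i hδ) ((P i).add_mem _ _ hxP hyP)
      (by convert hxy using 1; ring) p
    have h2 := h.add_pow_sub_mem_nonunits i hxP hyP
    have h3 := h.smul_pi_mem_nonunits i (h.overlap_le i hz)
    rw [he] at h1
    convert h.sub_mem_nonunits i (h.add_mem_nonunits i h1 h2) h3 using 1
    ring
  -- normalise the constants
  have hnorm : ∀ i, ∃ x : F, ∃ y : F, x ∈ M.B₀ ∧ y ∈ M.B₁ ∧ δ - x - y ∈ (P i).nonunits ∧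
      A₀ - x ^ p ∈ (P i).nonunits ∧ A₁ - y ^ p ∈ (P i).nonunits := by
    intro i
    have hu₀ : A₀ - a₀ i ^ p ∈ M.B₀ := sub_mem hA₀ (pow_mem (ha₀ i) p)
    obtain ⟨c, hc⟩ := h.exists_const_mod i (h.chart₀.fibre.le i _ hu₀) hu₀
      (by rw [sub_self]; exact (P i).nonunits.zero_mem)
      (a₁ := -(A₁ - a₁ i ^ p)) (neg_mem (sub_mem hA₁ (pow_mem (ha₁ i) p)))
      (by rw [sub_neg_eq_add]; exact key i _ (ha₀ i) _ (ha₁ i) (hd i))
    obtain ⟨r, hr⟩ := IsAlgClosed.exists_pow_nat_eq (residue O c) h.prime.pos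
    obtain ⟨d, rfl⟩ := residue_surjective r
    have hcd : algebraMap O F c - algebraMap O F d ^ p ∈ (P i).nonunits := by
      rw [← map_pow, ← map_sub, h.algebraMap_nonunit_iff, ← Ideal.mem_span_singleton,
        ← h.irreducible.maximalIdeal_eq, ← residue_eq_zero_iff, map_sub, map_pow, hr, sub_self]
    set x := a₀ i + algebraMap O F d
    set y := a₁ i - algebraMap O F d
    have hx : x ∈ M.B₀ := add_mem (ha₀ i) (M.B₀.algebraMap_mem d)
    have hy : y ∈ M.B₁ := sub_mem (ha₁ i) (M.B₁.algebraMap_mem d)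
    have hxy : δ - x - y ∈ (P i).nonunits := by
      convert hd i using 1
      ring
    have h0 : A₀ - x ^ p ∈ (P i).nonunits := by
      have h2 := h.add_pow_sub_mem_nonunits i (h.chart₀.fibre.le i _ (ha₀ i))
        (h.algebraMap_mem i d)
      convert h.sub_mem_nonunits i (h.add_mem_nonunits i hc hcd) h2 using 1
      ring
    refine ⟨x, y, hx, hy, hxy, h0, ?_⟩
    convert h.sub_mem_nonunits i (key i _ hx _ hy hxy) h0 using 1
    ring
  choose x y hx hy hxy hx' hy' using hnorm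
  have hglue : ∀ {B : Subalgebra O F} {w : F}, IsWildChart B w π P e F₀ → ∀ {A : F}, A ∈ B →
      ∀ {v : Bool → F}, (∀ i, v i ∈ B) → (∀ i, A - v i ^ p ∈ (P i).nonunits) →
      ∃ b ∈ B, ∀ i, v i - b ∈ (P i).nonunits := by
    intro B w hB A hA v hv hv'
    obtain ⟨b, hb⟩ := h.exists_glue hB (fun i => ⟨v i, hv i⟩) fun m hm hcen => by
      have := hm.isPrime
      refine Ideal.IsPrime.mem_of_pow_mem ‹_› p ?_
      obtain ⟨r, hr⟩ := exists_add_pow_prime_eq h.prime
        (⟨v true, hv true⟩ - ⟨v false, hv false⟩ : B) ⟨v false, hv false⟩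
      rw [sub_add_cancel] at hr
      have hmem : ∀ i, (⟨A, hA⟩ : B) - (⟨v i, hv i⟩ : B) ^ p ∈ m := fun i =>
        hcen i _ (by push_cast; exact hv' i)
      have hp' : (p : B) ∈ m := hcen true _ (by
        have := h.natCast_mul_mem_nonunits true (b := 1) (P true).one_mem
        simpa using this)
      have := sub_mem (sub_mem (hmem false) (hmem true))
        (m.mul_mem_right ((⟨v true, hv true⟩ - ⟨v false, hv false⟩ : B) * ⟨v false, hv false⟩ * r)
          hp')
      convert this using 1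
      rw [hr]
      ring
    exact ⟨b, b.2, hb⟩
  obtain ⟨b₀, hb₀, hb₀'⟩ := hglue h.chart₀ hA₀ hx hx'
  obtain ⟨b₁, hb₁, hb₁'⟩ := hglue h.chart₁ hA₁ hy hy'
  obtain ⟨w, hw, hwe⟩ := h.exists_smul_overlap 1
    (sub_mem (sub_mem hδ (M.le₀ hb₀)) (M.le₁ hb₁)) fun i => by
      rw [h.pDvd_one_iff]
      convert h.add_mem_nonunits i (h.add_mem_nonunits i (hxy i) (hb₀' i)) (hb₁' i) using 1
      ring
  rw [pow_one] at hwe
  exact Model.mem_splitSub.mpr ⟨b₀, hb₀, b₁, hb₁, w, hw, by rw [← hwe]; ring⟩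

/-! ## The operators -/

variable {N : F →*₀ F} {Tr : F →+ F} {W φ : F ≃+* F} (ho : IsOrdOps M π p P N Tr W φ)

include ho

/-- The involution carries a class to a class of the image, up to the neighbourhood. -/
theorem exists_class_W (hk : 0 < k) (hc : IsClass M hn π f k δ r₀ r₁) :
    ∃ δ' s₀ s₁, IsClass M hn π (W f) k δ' s₀ s₁ ∧ W δ - δ' ∈ M.nearSub :=
  hc.exists_map h.prime hk (σ := W.toRingHom) (fun _ hb => (ho.swap_W.chart₀ _).mpr hb)
    (fun _ hb => (ho.swap_W.near _).mpr hb) (ho.W_const π)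

theorem split_trace {z : F} (hzB : z ∈ M.B₀₁) (hz : SplitOn M P false z) :
    Tr z ∈ M.splitSub π := by
  obtain ⟨A₀, h₀, A₁, h₁, hA⟩ := h.splitOn_descend false hzB hz
  have hy : z - A₀ - A₁ ∈ M.B₀₁ := sub_mem (sub_mem hzB (M.le₀ h₀)) (M.le₁ h₁)
  obtain ⟨w, hw, hwe⟩ := h.exists_smul_overlap 1 (ho.norm.trace₀₁ _ hy) fun i => by
    rw [h.pDvd_one_iff]
    cases i with
    | false =>
      convert h.add_mem_nonunits _ (ho.inf _ hy) hA using 1
      ring
    | true =>
      have h1 : φ (z - A₀ - A₁) ∈ (P true).nonunits := by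
        rw [ho.swap_φ.swap, Bool.not_true]
        exact hA
      have h2 : φ (z - A₀ - A₁) ^ p ∈ (P true).nonunits := by
        obtain ⟨q, hq⟩ : ∃ q, p = q + 1 := ⟨p - 1, (Nat.sub_add_cancel h.prime.pos).symm⟩
        rw [hq, pow_succ']
        exact h.mul_mem_nonunits _ h1 (pow_mem ((P true).nonunits_subset h1) q)
      convert h.add_mem_nonunits _ (ho.zero _ hy) h2 using 1
      ring
  rw [pow_one, map_sub, map_sub] at hwe
  exact Model.mem_splitSub.mpr ⟨Tr A₀, ho.norm.trace₀ _ h₀, Tr A₁, ho.norm.trace₁ _ h₁, w, hw,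
    by rw [← hwe]; ring⟩

theorem splitOn_of_norm_root (hk : 0 < k) (hf : f ≠ 0) (hc : IsClass M hn π f k δ r₀ r₁) {c : O}
    {H : F} (hH : N f = algebraMap O F c * H ^ p) : SplitOn M P false δ :=
  h.splitOn_congr false (h.splitOn_of_split
    (h.split_of_eq_const_mul_pow hk ((map_ne_zero N).mpr hf) hH (hc.norm ho.norm hk)) false)
    (by
      rw [← h.pDvd_one_iff, show δ - Tr δ = -(Tr δ - δ) by ring]
      exact ((h.pDvd_one_iff false).mpr (ho.inf _ hc.mem)).neg)

theorem splitOn_true_of_norm_root (hk : 0 < k) (hf : f ≠ 0) (hc : IsClass M hn π f k δ r₀ r₁)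
    {c : O} {H : F} (hH : N (W f) = algebraMap O F c * H ^ p) : SplitOn M P true δ := by
  obtain ⟨δ', s₀, s₁, hd, hnear⟩ := h.exists_class_W ho hk hc
  have h1 := h.splitOn_add_near false
    (h.splitOn_of_norm_root ho hk ((map_ne_zero W).mpr hf) hd hH) hnear
  rw [add_sub_cancel] at h1
  have h2 := h.splitOn_map ho.swap_W.symm h1
  rwa [W.symm_apply_apply] at h2

/-- A class whose two norms are trivial splits below the critical level. -/
theorem split_new (hk : 0 < k) (hke : p * k < e + k) (hf : f ≠ 0)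
    (hc : IsClass M hn π f k δ r₀ r₁) {c c' : O} {H H' : F}
    (hNf : N f = algebraMap O F c * H ^ p) (hNW : N (W f) = algebraMap O F c' * H' ^ p) :
    δ ∈ M.splitSub π := by
  refine h.split_of_pow hc.mem (h.split_pow hk hke hc) fun i => ?_
  cases i with
  | false => exact h.splitOn_of_norm_root ho hk hf hc hNf
  | true => exact h.splitOn_true_of_norm_root ho hk hf hc hNW

theorem trace_sub_mem_split (hk : 0 < k) (hf : f ≠ 0) (hc : IsClass M hn π f k δ r₀ r₁) {c : O}
    {H : F} (hc0 : c ≠ 0) (hH : H ≠ 0) (hNf : N f = algebraMap O F c * f * H ^ p) :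
    Tr δ - δ ∈ M.splitSub π :=
  h.split_sub_of_eq hk hf hc (hc.norm ho.norm hk) hc0 hH hNf

/-- The class of the Hecke transform of a class with split `p`-th power splits: the norm of the
image under the involution is trivial one level higher. -/
theorem split_old (hk : 0 < k) (hke : p * k < e + k) (hf : f ≠ 0)
    (hc : IsClass M hn π f k δ r₀ r₁) {c : O} {H : F} (hc0 : c ≠ 0) (hH : H ≠ 0)
    (hNf : N f = algebraMap O F c * f * H ^ p) :
    ∃ δ' s₀ s₁, IsClass M hn π (N (W f)) k δ' s₀ s₁ ∧ δ' ∈ M.splitSub π := by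
  obtain ⟨δ', s₀, s₁, hd, hnear⟩ := h.exists_class_W ho hk hc
  refine ⟨Tr δ', N s₀, N s₁, hd.norm ho.norm hk, ?_⟩
  suffices hδ : SplitOn M P true δ by
    refine h.split_trace ho hd.mem ?_
    have h1 := h.splitOn_add_near false (h.splitOn_map ho.swap_W (i := true) hδ) (neg_mem hnear)
    rwa [← sub_eq_add_neg, sub_sub_cancel] at h1
  have h1 : SplitOn M P true (φ (δ ^ p)) := h.splitOn_map ho.swap_φ (i := false)
    (h.splitOn_of_split (h.split_pow hk hke hc) false)
  rw [map_pow] at h1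
  have h2 := h.splitOn_congr true h1 (ho.zero _ hc.mem)
  have h3 := h.splitOn_sub true h2
    (h.splitOn_of_split (h.trace_sub_mem_split ho hk hf hc hc0 hH hNf) true)
  rwa [sub_sub_cancel] at h3

/-- At the critical level a class killed by the Hecke transform splits. -/
theorem split_kernel (hk : 0 < k) (hke : p * k = e + k) (hf : f ≠ 0)
    (hc : IsClass M hn π f k δ r₀ r₁) {c c' : O} {H H' : F} (hc0 : c ≠ 0) (hH : H ≠ 0)
    (hNf : N f = algebraMap O F c * f * H ^ p)
    (hNW : N (W f) = algebraMap O F c' * H' ^ p) : δ ∈ M.splitSub π := by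
  have hzero : SplitOn M P true δ := h.splitOn_true_of_norm_root ho hk hf hc hNW
  have hs := h.trace_sub_mem_split ho hk hf hc hc0 hH hNf
  obtain ⟨ν, hν, hAS⟩ := h.split_crit hk hke hc
  have hφp : SplitOn M P true (φ δ ^ p) := by
    refine h.splitOn_congr true (z := Tr δ) ?_ (by
      rw [← h.pDvd_one_iff, show φ δ ^ p - Tr δ = -(Tr δ - φ δ ^ p) by ring]
      exact ((h.pDvd_one_iff true).mpr (ho.zero _ hc.mem)).neg)
    obtain ⟨A₀, h₀, A₁, h₁, hA⟩ := h.splitOn_of_split hs true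
    obtain ⟨B₀, g₀, B₁, g₁, hB⟩ := hzero
    refine ⟨A₀ + B₀, add_mem h₀ g₀, A₁ + B₁, add_mem h₁ g₁, ?_⟩
    convert h.add_mem_nonunits true hA hB using 1
    ring
  have h1 : SplitOn M P true (φ (δ ^ p + algebraMap O F ν * δ)) :=
    h.splitOn_map ho.swap_φ (i := false) (h.splitOn_of_split hAS false)
  have h2 := h.splitOn_sub true h1 hφp
  obtain ⟨ν', hν'⟩ := ho.φ_const ν
  rw [map_add, map_pow, map_mul, hν', add_sub_cancel_left] at h2
  have hν'u : IsUnit ν' := by
    obtain ⟨v, hv⟩ := hν.exists_right_inv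
    obtain ⟨v', hv'⟩ := ho.φ_const v
    refine IsUnit.of_mul_eq_one v' (h.injective ?_)
    rw [map_mul, ← hν', ← hv', ← map_mul, ← map_mul, hv, map_one, map_one]
  have h3 := h.splitOn_map ho.swap_φ.symm (i := true) (h.splitOn_of_unit true hν'u h2)
  rw [φ.symm_apply_apply] at h3
  have h4 := sub_mem (h.split_trace ho hc.mem h3) hs
  rwa [sub_sub_cancel] at h4

omit ho in
/-- A tame automorphism fixing the function: the class splits where its character is not trivial. -/
theorem split_tame {σ : F →+* F} (h₀ : ∀ b ∈ M.B₀, σ b ∈ M.B₀) (h₁ : ∀ b ∈ M.B₁, σ b ∈ M.B₁)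
    (htriv : ∀ z ∈ M.B₀₁, ∃ w ∈ M.B₀₁, σ z = z + π • w) {u : O}
    (hu : σ (algebraMap O F π) = algebraMap O F (π * u)) (hk : 0 < k) (huk : IsUnit (u ^ k - 1))
    (hf : f ≠ 0) (hc : IsClass M hn π f k δ r₀ r₁) {c : O} {H : F} (hc0 : c ≠ 0) (hH : H ≠ 0)
    (hσf : σ f = algebraMap O F c * f * H ^ p) : δ ∈ M.splitSub π := by
  have h₀₁ : ∀ b ∈ M.B₀₁, σ b ∈ M.B₀₁ := fun b hb => by
    obtain ⟨w, hw, he⟩ := htriv b hb
    exact he ▸ add_mem hb (M.B₀₁.smul_mem hw π)
  have hsub := h.split_sub_of_eq hk hf hc (hc.map_of h₀ h₁ h₀₁ hu) hc0 hH hσf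
  obtain ⟨w, hw, he⟩ := htriv δ hc.mem
  refine h.splitSub_of_unit huk ?_
  have h2 := sub_mem hsub (h.smul_mem_splitSub (M.B₀₁.smul_mem hw (u ^ k)))
  convert h2 using 1
  rw [he]
  simp only [Algebra.smul_def, map_sub, map_one]
  ring

end IsWildModel

end Fermat.Agent.Models
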