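/-
The cover `u ^ e = x` of a node `x y = γ ^ e` is graded by exponents modulo `e`; hence every Kummer
function at the node is a monomial times a unit and an `n`-th power, whatever the characteristic.
-/
import Fermat.Agent.Models.PointForm

set_option autoImplicit false
set_option linter.unusedSectionVars false

noncomputable section

namespace Fermat.Agent.Models

open IsLocalRing

variable {R : Type} [CommRing R] [IsDomain R] [IsNoetherianRing R] [IsLocalRing R]
  {F : Type} [Field F] [Algebra R F] [IsFractionRing R F]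
  {E : Type} [Field E] [Algebra F E] [Algebra R E] [IsScalarTower R F E]

namespace NodeCover

variable (C : NodeCover R F E)

theorem u_ne : C.u ≠ 0 := fun h => C.u'_ne (Subtype.ext h)

theorem linearIndependent_u : LinearIndependent F fun i : Fin C.e => C.u ^ (i : ℕ) := by
  haveI : FiniteDimensional F E := FiniteDimensional.of_finrank_pos (by
    rw [C.finrank_eq]; exact C.e_pos)
  let pb := PowerBasis.ofAdjoinEqTop (IsIntegral.of_finite F C.u) C.adjoin_u
  have hgen : pb.gen = C.u := PowerBasis.ofAdjoinEqTop_gen _ C.adjoin_u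
  have hdim : pb.dim = C.e := by rw [← pb.finrank, C.finrank_eq]
  have := pb.basis.linearIndependent.comp (Fin.cast hdim.symm) (Fin.cast_injective _)
  simpa [Function.comp_def, hgen] using this

/-- The basis `1, u, …, u ^ (e - 1)`. -/
def uBasis : Module.Basis (Fin C.e) F E :=
  haveI : Nonempty (Fin C.e) := ⟨⟨0, C.e_pos⟩⟩
  basisOfLinearIndependentOfCardEqFinrank C.linearIndependent_u
    (by rw [Fintype.card_fin, C.finrank_eq])

theorem uBasis_apply (i : Fin C.e) : C.uBasis i = C.u ^ (i : ℕ) := by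
  simp [uBasis]

/-- The homogeneous part of degree `r`. -/
def part (r : Fin C.e) (z : E) : E := C.uBasis.repr z r • C.u ^ (r : ℕ)

theorem part_zero (r : Fin C.e) : C.part r 0 = 0 := by simp [part]

theorem part_add (r : Fin C.e) (z z' : E) : C.part r (z + z') = C.part r z + C.part r z' := by
  simp [part, add_smul]

theorem part_smul (r : Fin C.e) (c : F) (z : E) : C.part r (c • z) = c • C.part r z := by
  simp [part, mul_smul]

theorem part_mul_base (r : Fin C.e) (c : F) (z : E) :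
    C.part r (z * algebraMap F E c) = C.part r z * algebraMap F E c := by
  rw [mul_comm z, ← Algebra.smul_def, C.part_smul, Algebra.smul_def, mul_comm]

theorem sum_part (z : E) : ∑ r, C.part r z = z := by
  conv_rhs => rw [← C.uBasis.sum_repr z]
  exact Finset.sum_congr rfl fun r _ => by rw [part, uBasis_apply]

/-- Homogeneous elements: multiples of an integral power of `u`. -/
theorem part_homogeneous (c : F) (i : ℤ) (r : Fin C.e) :
    C.part r (algebraMap F E c * C.u ^ i) =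
      if (r : ℤ) = i % (C.e : ℤ) then algebraMap F E c * C.u ^ i else 0 := by
  have he : (0 : ℤ) < C.e := by exact_mod_cast C.e_pos
  have h1 := Int.emod_nonneg i he.ne'
  have h2 := Int.emod_lt_of_pos i he
  let r₀ : Fin C.e := ⟨(i % (C.e : ℤ)).toNat, by omega⟩
  have hz : algebraMap F E c * C.u ^ i =
      (c * algebraMap R F C.x ^ (i / (C.e : ℤ))) • C.uBasis r₀ := by
    rw [C.uBasis_apply, Algebra.smul_def, map_mul, map_zpow₀, ← IsScalarTower.algebraMap_apply,
      ← C.u_pow, ← zpow_natCast C.u C.e, ← zpow_mul, mul_assoc, ← zpow_natCast C.u (r₀ : ℕ),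
      ← zpow_add₀ C.u_ne]
    congr 2
    show i = (C.e : ℤ) * (i / C.e) + ((i % (C.e : ℤ)).toNat : ℤ)
    rw [Int.toNat_of_nonneg h1, Int.mul_ediv_add_emod]
  rw [hz, C.part_smul]
  split_ifs with h
  · have : r₀ = r := Fin.ext (by show (i % (C.e : ℤ)).toNat = r; omega)
    rw [part, C.uBasis.repr_self, ← this, Finsupp.single_eq_same, one_smul, C.uBasis_apply]
  · have : r₀ ≠ r := fun e => h (by rw [← e]; show ((i % (C.e : ℤ)).toNat : ℤ) = _; omega)
    rw [part, C.uBasis.repr_self, Finsupp.single_eq_of_ne this.symm, zero_smul, smul_zero]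

theorem monomial_eq (a b : ℕ) :
    C.u ^ a * C.v ^ b = algebraMap F E (algebraMap R F C.γ ^ b) * C.u ^ ((a : ℤ) - b) := by
  rw [map_pow, ← IsScalarTower.algebraMap_apply, ← C.u_mul_v, mul_pow, zpow_sub₀ C.u_ne,
    zpow_natCast, zpow_natCast]
  field_simp [C.u_ne]

theorem coe_ring_mem (z : C.ring) (r : Fin C.e) :
    C.part r (z : E) ∈ C.ring ∧
      ((r : ℕ) ≠ 0 → ∃ h : C.part r (z : E) ∈ C.ring,
        (⟨_, h⟩ : C.ring) ∈ Ideal.span {C.u', C.v'}) := by
  classical
  obtain ⟨z, hz⟩ := z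
  have hz' : z ∈ Submodule.span R ((Submonoid.closure {C.u, C.v} : Submonoid E) : Set E) := by
    rw [← Algebra.adjoin_eq_span]; exact hz
  show C.part r z ∈ C.ring ∧ ((r : ℕ) ≠ 0 → ∃ h : C.part r z ∈ C.ring,
    (⟨_, h⟩ : C.ring) ∈ Ideal.span {C.u', C.v'})
  clear hz
  induction hz' using Submodule.span_induction with
  | mem m hm =>
    obtain ⟨a, b, rfl⟩ : ∃ a b : ℕ, m = C.u ^ a * C.v ^ b := by
      obtain ⟨a, b, h⟩ := (Submonoid.mem_closure_pair C.u C.v m).mp hm
      exact ⟨a, b, h.symm⟩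
    rw [C.monomial_eq, C.part_homogeneous]
    split_ifs with h
    · rw [← C.monomial_eq]
      refine ⟨(C.u' ^ a * C.v' ^ b).2, fun hr => ⟨(C.u' ^ a * C.v' ^ b).2, ?_⟩⟩
      show C.u' ^ a * C.v' ^ b ∈ _
      rcases Nat.eq_zero_or_pos a with ha | ha
      · rcases Nat.eq_zero_or_pos b with hb | hb
        · refine absurd ?_ hr
          subst ha hb
          simpa using h
        · exact Ideal.mul_mem_left _ _ (Ideal.pow_mem_of_mem _ (Ideal.subset_span (by simp)) _ hb)
      · exact Ideal.mul_mem_right _ _ (Ideal.pow_mem_of_mem _ (Ideal.subset_span (by simp)) _ ha)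
    · exact ⟨zero_mem _, fun _ => ⟨zero_mem _, zero_mem _⟩⟩
  | zero => rw [C.part_zero]; exact ⟨zero_mem _, fun _ => ⟨zero_mem _, zero_mem _⟩⟩
  | add m m' _ _ hm hm' =>
    rw [C.part_add]
    refine ⟨add_mem hm.1 hm'.1, fun hr => ⟨add_mem hm.1 hm'.1, ?_⟩⟩
    obtain ⟨h1, h1'⟩ := hm.2 hr
    obtain ⟨h2, h2'⟩ := hm'.2 hr
    exact add_mem h1' h2'
  | smul c m _ hm =>
    rw [← IsScalarTower.algebraMap_smul F c m, C.part_smul, IsScalarTower.algebraMap_smul]
    refine ⟨C.ring.smul_mem hm.1 c, fun hr => ⟨C.ring.smul_mem hm.1 c, ?_⟩⟩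
    obtain ⟨h1, h1'⟩ := hm.2 hr
    exact Submodule.smul_of_tower_mem _ c h1'

/-- The degree zero part of the cover lies in the integrally closed base. -/
theorem exists_base [IsIntegrallyClosed R] {z : C.ring} {c : F}
    (hz : (z : E) = algebraMap F E c) : ∃ r : R, algebraMap R F r = c :=
  IsIntegrallyClosed.isIntegral_iff.mp ((isIntegral_algebraMap_iff (algebraMap F E).injective).mp
    (hz ▸ (Algebra.IsIntegral.isIntegral (R := R) z).map C.ring.val))

/-- A unit of the cover which is homogeneous has degree zero. -/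
theorem dvd_of_isUnit_homogeneous {z : C.ring} (hz : IsUnit z) {c : F} {i : ℤ}
    (h : (z : E) = algebraMap F E c * C.u ^ i) : (C.e : ℤ) ∣ i := by
  by_contra hi
  have he : (0 : ℤ) < C.e := by exact_mod_cast C.e_pos
  have h1 := Int.emod_nonneg i he.ne'
  have h2 := Int.emod_lt_of_pos i he
  let r : Fin C.e := ⟨(i % (C.e : ℤ)).toNat, by omega⟩
  have hr : (r : ℤ) = i % (C.e : ℤ) := by show ((i % (C.e : ℤ)).toNat : ℤ) = _; omega
  have hr0 : (r : ℕ) ≠ 0 := fun h0 => hi (Int.dvd_of_emod_eq_zero (by omega))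
  obtain ⟨hmem, hmax⟩ := (C.coe_ring_mem z r).2 hr0
  have e : (⟨_, hmem⟩ : C.ring) = z := Subtype.ext (by
    show C.part r (z : E) = z
    rw [h, C.part_homogeneous, if_pos hr])
  rw [e, ← C.maximalIdeal_eq] at hmax
  exact hmax hz

theorem exists_base_unit [IsIntegrallyClosed R] {z : C.ring} (hz : IsUnit z) {c : F}
    (h : (z : E) = algebraMap F E c) : ∃ r : R, IsUnit r ∧ algebraMap R F r = c := by
  obtain ⟨r, hr⟩ := C.exists_base h
  refine ⟨r, ?_, hr⟩
  by_contra hu
  have h1 : algebraMap R C.ring r = z := Subtype.ext (by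
    show algebraMap R E r = _
    rw [h, ← hr, ← IsScalarTower.algebraMap_apply])
  have h2 := C.map_mem_span ((mem_maximalIdeal r).mpr hu)
  rw [h1, ← C.maximalIdeal_eq] at h2
  exact h2 hz

/-- At every prime of the cover away from `u v`, some multiple of the root by an element of the
function field is a unit there. -/
theorem exists_base_mul [IsIntegrallyClosed R] {n : ℕ} (hn : 0 < n) {A : R}
    (hroots : ∀ Q : Ideal R, Q.IsPrime → Q ≠ ⊥ → C.γ ∉ Q →
      HasRootAt R n (algebraMap R F A) Q)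
    {U g : C.ring} (hU : IsUnit U) (hg : g ≠ 0) {a b : ℕ}
    (hA : algebraMap R C.ring A = U * C.u' ^ a * C.v' ^ b * g ^ n)
    {P : C.ring} (hP : Prime P) (hPu : ¬ P ∣ C.u') (hPv : ¬ P ∣ C.v') :
    ∃ (w : F) (G : C.ring), (g : E) * algebraMap F E w = (G : E) ∧ ¬ P ∣ G := by
  haveI := C.ufm_ring
  set I : Ideal C.ring := Ideal.span {P}
  haveI : I.IsPrime := (Ideal.span_singleton_prime hP.ne_zero).mpr hP
  set q : Ideal R := I.comap (algebraMap R C.ring)
  have hγ : C.γ ∉ q := fun h => by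
    rw [Ideal.mem_comap, ← C.u'_mul_v', Ideal.mem_span_singleton] at h
    exact (hP.dvd_or_dvd h).elim hPu hPv
  have hq : q ≠ ⊥ := fun h => hP.ne_zero
    (Ideal.span_singleton_eq_bot.mp (Ideal.eq_bot_of_comap_eq_bot h))
  obtain ⟨h, α, β, hα, hβ, he⟩ := hroots q (I.comap_isPrime _) hq hγ
  obtain ⟨h₁, h₂, hh₂, rfl⟩ := IsFractionRing.div_surjective (A := R) (K := F) h
  have hh2 : h₂ ≠ 0 := nonZeroDivisors.ne_zero hh₂
  have hh2F : algebraMap R F h₂ ≠ 0 :=
    (map_ne_zero_iff _ (IsFractionRing.injective R F)).mpr hh2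
  have hkey : β * h₁ ^ n = α * A * h₂ ^ n := by
    refine IsFractionRing.injective R F ?_
    rw [div_pow, ← mul_div_assoc, div_eq_iff (pow_ne_zero _ hh2F)] at he
    simp only [map_mul, map_pow]
    linear_combination he
  have hαI : ¬ P ∣ algebraMap R C.ring α := fun h => hα (Ideal.mem_span_singleton.mpr h)
  have hβI : ¬ P ∣ algebraMap R C.ring β := fun h => hβ (Ideal.mem_span_singleton.mpr h)
  have hgh : g * algebraMap R C.ring h₂ ≠ 0 :=
    mul_ne_zero hg ((map_ne_zero_iff _ C.injective_ring).mpr hh2)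
  obtain ⟨G, H, d, hrel, hdG, hdH⟩ :=
    UniqueFactorizationMonoid.exists_reduced_factors _ hgh (algebraMap R C.ring h₁)
  have hA0 : A ≠ 0 := fun h0 => by
    rw [h0, map_zero, eq_comm] at hA
    exact mul_ne_zero (mul_ne_zero (mul_ne_zero hU.ne_zero (pow_ne_zero _ C.u'_ne))
      (pow_ne_zero _ C.v'_ne)) (pow_ne_zero _ hg) hA
  have hh1 : h₁ ≠ 0 := fun h0 => by
    rw [h0, zero_pow hn.ne', mul_zero, eq_comm, mul_eq_zero, mul_eq_zero] at hkey
    rcases hkey with (h | h) | h
    · exact hα (h ▸ zero_mem _)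
    · exact hA0 h
    · exact pow_ne_zero _ hh2 h
  have hH0 : H ≠ 0 := fun h0 =>
    (map_ne_zero_iff _ C.injective_ring).mpr hh1 (by rw [← hdH, h0, mul_zero])
  have hd0 : d ≠ 0 := fun h0 => hgh (by rw [← hdG, h0, zero_mul])
  set M := algebraMap R C.ring α * U * C.u' ^ a * C.v' ^ b
  have hMP : ¬ P ∣ M := by
    intro h
    rcases hP.dvd_or_dvd h with h | h
    · rcases hP.dvd_or_dvd h with h | h
      · rcases hP.dvd_or_dvd h with h | h
        · exact hαI h
        · exact hP.not_isUnit (isUnit_of_dvd_unit h hU)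
      · exact hPu (hP.dvd_of_dvd_pow h)
    · exact hPv (hP.dvd_of_dvd_pow h)
  have hrel' : algebraMap R C.ring β * H ^ n = M * G ^ n := by
    refine mul_left_cancel₀ (pow_ne_zero n hd0) ?_
    have e := congrArg (algebraMap R C.ring) hkey
    simp only [map_mul, map_pow] at e
    rw [hA, ← hdH] at e
    rw [show d ^ n * (algebraMap R C.ring β * H ^ n) = algebraMap R C.ring β * (d * H) ^ n by ring,
      e, show d ^ n * (M * G ^ n) = M * (d * G) ^ n by ring, hdG]
    simp only [M]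
    ring
  have hPG : ¬ P ∣ G := fun h => by
    have h2 : P ∣ algebraMap R C.ring β * H ^ n := hrel' ▸ (dvd_pow h hn.ne').mul_left _
    rcases hP.dvd_or_dvd h2 with h3 | h3
    · exact hβI h3
    · exact hP.not_isUnit (hrel h (hP.dvd_of_dvd_pow h3))
  have hHM : H ∣ M := by
    have h2 : H ∣ G ^ n * M := ⟨algebraMap R C.ring β * H ^ (n - 1), by
      rw [mul_comm (G ^ n), ← hrel']
      conv_lhs => rw [show n = n - 1 + 1 by omega, pow_succ']
      ring⟩
    exact (hrel.symm.pow_right).dvd_of_dvd_mul_left h2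
  -- the multiplier
  set r : R := α * C.γ ^ (a + b)
  obtain ⟨T, hT⟩ : H ∣ algebraMap R C.ring r := by
    refine hHM.trans ?_
    obtain ⟨U', rfl⟩ := hU
    refine ⟨(↑U'⁻¹ : C.ring) * C.u' ^ b * C.v' ^ a, ?_⟩
    simp only [r, M, map_mul, map_pow, ← C.u'_mul_v', mul_pow, pow_add]
    have := U'.mul_inv
    linear_combination (-(algebraMap R C.ring α * C.u' ^ a * C.v' ^ b * C.u' ^ b * C.v' ^ a)) * this
  refine ⟨algebraMap R F h₂ * algebraMap R F r / algebraMap R F h₁, G * T, ?_, fun h => ?_⟩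
  · rw [map_div₀, map_mul, ← IsScalarTower.algebraMap_apply, ← IsScalarTower.algebraMap_apply,
      ← IsScalarTower.algebraMap_apply, ← mul_div_assoc,
      div_eq_iff ((map_ne_zero_iff _ C.injective_E).mpr hh1)]
    have e1 := congrArg (fun z : C.ring => (z : E)) hdG
    have e2 := congrArg (fun z : C.ring => (z : E)) hdH
    have e3 := congrArg (fun z : C.ring => (z : E)) hT
    simp only [MulMemClass.coe_mul, Subalgebra.coe_algebraMap] at e1 e2 e3 ⊢
    rw [← e2, ← mul_assoc (g : E), ← e1, e3]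
    ring
  · rcases hP.dvd_or_dvd h with h | h
    · exact hPG h
    · have h2 : P ∣ algebraMap R C.ring r := hT ▸ h.mul_left _
      simp only [r, map_mul, map_pow, ← C.u'_mul_v'] at h2
      rcases hP.dvd_or_dvd h2 with h2 | h2
      · exact hαI h2
      · exact (hP.dvd_or_dvd (hP.dvd_of_dvd_pow h2)).elim hPu hPv

/-- The root along the cover can be taken homogeneous. -/
theorem exists_homogeneous_root [IsIntegrallyClosed R] {n : ℕ} (hn : 0 < n) {A : R}
    (hroots : ∀ Q : Ideal R, Q.IsPrime → Q ≠ ⊥ → C.γ ∉ Q →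
      HasRootAt R n (algebraMap R F A) Q)
    {U g : C.ring} (hU : IsUnit U) (hg : g ≠ 0) (hgu : ¬ C.u' ∣ g) (hgv : ¬ C.v' ∣ g) {a b : ℕ}
    (hA : algebraMap R C.ring A = U * C.u' ^ a * C.v' ^ b * g ^ n) :
    ∃ (c : C.ring) (h : F) (i : ℕ), IsUnit c ∧
      algebraMap F E h * C.u ^ i = (g : E) * (c : E) := by
  classical
  haveI := C.ufm_ring
  haveI := C.isLocalRing_ring
  have hpart : ∀ r, g ∣ (⟨_, (C.coe_ring_mem g r).1⟩ : C.ring) := by
    intro r
    set z : C.ring := ⟨_, (C.coe_ring_mem g r).1⟩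
    obtain ⟨g', z', d, hrel, hdg, hdz⟩ := UniqueFactorizationMonoid.exists_reduced_factors g hg z
    have hd0 : d ≠ 0 := fun h0 => hg (by rw [← hdg, h0, zero_mul])
    suffices hg' : IsUnit g' by
      rw [← hdg, ← hdz]
      exact mul_dvd_mul_left d hg'.dvd
    by_contra hnu
    have hg'0 : g' ≠ 0 := fun h0 => hg (by rw [← hdg, h0, mul_zero])
    obtain ⟨P, hP, hPg⟩ := WfDvdMonoid.exists_irreducible_factor hnu hg'0
    have hP' := UniqueFactorizationMonoid.irreducible_iff_prime.mp hP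
    have hPg' : P ∣ g := hdg ▸ hPg.mul_left d
    obtain ⟨w, G, hwG, hPG⟩ := C.exists_base_mul hn hroots hU hg hA hP'
      (fun h => hgu ((hP'.associated_of_dvd C.prime_u' h).symm.dvd.trans hPg'))
      (fun h => hgv ((hP'.associated_of_dvd C.prime_v' h).symm.dvd.trans hPg'))
    set Z : C.ring := ⟨_, (C.coe_ring_mem G r).1⟩
    have hZ : z * G = g * Z := Subtype.ext (by
      show C.part r (g : E) * (G : E) = (g : E) * C.part r (G : E)
      rw [← hwG, C.part_mul_base]
      ring)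
    have h2 : g' ∣ z' * G := by
      refine ⟨Z, mul_left_cancel₀ hd0 ?_⟩
      rw [← mul_assoc, hdz, ← mul_assoc, hdg]
      exact hZ
    rcases hP'.dvd_or_dvd (hPg.trans h2) with h | h
    · exact hP'.not_isUnit (hrel hPg h)
    · exact hPG h
  choose c hc using hpart
  obtain ⟨r, hr⟩ : ∃ r, IsUnit (c r) := by
    by_contra hall
    push Not at hall
    have h1 : ∑ r, c r = 1 := by
      refine mul_left_cancel₀ hg ?_
      rw [Finset.mul_sum, mul_one]
      refine Subtype.ext ?_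
      rw [AddSubmonoidClass.coe_finsetSum]
      conv_rhs => rw [← C.sum_part (g : E)]
      exact Finset.sum_congr rfl fun r _ => (congrArg Subtype.val (hc r)).symm
    exact (maximalIdeal.isMaximal C.ring).ne_top ((Ideal.eq_top_iff_one _).mpr
      (h1 ▸ Ideal.sum_mem _ fun r _ => (mem_maximalIdeal _).mpr (hall r)))
  refine ⟨c r, C.uBasis.repr g r, r, hr, ?_⟩
  rw [← Algebra.smul_def]
  exact congrArg Subtype.val (hc r)

/-- The structure of a Kummer function at a node, in every residue characteristic. -/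
theorem exists_monomial [IsIntegrallyClosed R] {n : ℕ} (hn : 0 < n) {A : R} (hA : A ≠ 0)
    (hroots : ∀ Q : Ideal R, Q.IsPrime → Q ≠ ⊥ → C.γ ∉ Q →
      HasRootAt R n (algebraMap R F A) Q) :
    ∃ (U : R) (h : F) (i j : ℕ), IsUnit U ∧
      algebraMap R F (U * C.x ^ i * C.γ ^ j) * h ^ n = algebraMap R F A := by
  classical
  haveI := C.ufm_ring
  obtain ⟨U, g, a, b, hU, hg, hAE⟩ := C.exists_monomial_pow hn hA hroots
  -- remove the factors along the branches
  obtain ⟨ka, g₁, hg₁, hga⟩ := WfDvdMonoid.max_power_factor hg C.prime_u'.irreducible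
  have hg₁0 : g₁ ≠ 0 := fun h => hg₁ (h ▸ dvd_zero _)
  obtain ⟨kb, g₂, hg₂, hgb⟩ := WfDvdMonoid.max_power_factor hg₁0 C.prime_v'.irreducible
  have hg₂u : ¬ C.u' ∣ g₂ := fun h => hg₁ (hgb ▸ h.mul_left _)
  have hg₂0 : g₂ ≠ 0 := fun h => hg₂ (h ▸ dvd_zero _)
  set a₁ := a + ka * n
  set b₁ := b + kb * n
  have hAE' : algebraMap R C.ring A = U * C.u' ^ a₁ * C.v' ^ b₁ * g₂ ^ n := by
    rw [hAE, hga, hgb]
    simp only [a₁, b₁, pow_add, mul_pow, ← pow_mul]
    ring
  obtain ⟨c, h, i, hc, hci⟩ := C.exists_homogeneous_root hn hroots hU hg₂0 hg₂u hg₂ hAE'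
  have hc0 : (c : E) ≠ 0 := fun h0 => hc.ne_zero (Subtype.ext h0)
  have hh : h ≠ 0 := fun h0 => by
    rw [h0, map_zero, zero_mul] at hci
    exact mul_ne_zero (fun e => hg₂0 (Subtype.ext e)) hc0 hci.symm
  have hγ0 : algebraMap R F C.γ ≠ 0 :=
    (map_ne_zero_iff _ (IsFractionRing.injective R F)).mpr C.γ_ne
  have hx0 : algebraMap R F C.x ≠ 0 :=
    (map_ne_zero_iff _ (IsFractionRing.injective R F)).mpr C.x_ne
  -- the unit and its degree
  obtain ⟨c', hc'⟩ := hc
  set U₁ : C.ring := U * (↑c'⁻¹ : C.ring) ^ n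
  have hU₁ : IsUnit U₁ := hU.mul (c'⁻¹.isUnit.pow _)
  set k : ℤ := (a₁ : ℤ) - b₁ + i * n
  have hkey : algebraMap R E A = (U₁ : E) * algebraMap F E (algebraMap R F C.γ ^ b₁ * h ^ n) *
      C.u ^ k := by
    have e := congrArg Subtype.val hAE'
    simp only [MulMemClass.coe_mul, SubmonoidClass.coe_pow, Subalgebra.coe_algebraMap] at e
    rw [e]
    simp only [k, U₁, MulMemClass.coe_mul, SubmonoidClass.coe_pow]
    rw [show ((C.u' : C.ring) : E) = C.u from rfl, show ((C.v' : C.ring) : E) = C.v from rfl,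
      mul_assoc (U : E) (C.u ^ a₁), C.monomial_eq, map_mul, zpow_add₀ C.u_ne, zpow_mul,
      zpow_natCast, zpow_natCast]
    have hcc : (g₂ : E) = algebraMap F E h * C.u ^ i * ((↑c'⁻¹ : C.ring) : E) := by
      rw [hci, ← hc', mul_assoc, ← MulMemClass.coe_mul, Units.mul_inv, OneMemClass.coe_one,
        mul_one]
    rw [hcc, map_pow (algebraMap F E) h]
    ring
  set c₀ : F := algebraMap R F A / (algebraMap R F C.γ ^ b₁ * h ^ n)
  have hU₁e : (U₁ : E) = algebraMap F E c₀ * C.u ^ (-k) := by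
    have hne : algebraMap F E (algebraMap R F C.γ ^ b₁ * h ^ n) ≠ 0 :=
      (map_ne_zero _).mpr (mul_ne_zero (pow_ne_zero _ hγ0) (pow_ne_zero _ hh))
    rw [map_div₀, ← IsScalarTower.algebraMap_apply, hkey, zpow_neg]
    have := zpow_ne_zero k C.u_ne
    field_simp
  obtain ⟨t, ht⟩ : (C.e : ℤ) ∣ k := dvd_neg.mp (C.dvd_of_isUnit_homogeneous hU₁ hU₁e)
  obtain ⟨V, hV, hVc⟩ := C.exists_base_unit hU₁ (c := c₀ / algebraMap R F C.x ^ t) (by
    rw [hU₁e, map_div₀ (algebraMap F E) c₀, map_zpow₀, ← IsScalarTower.algebraMap_apply R F E C.x, ← C.u_pow,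
      ← zpow_natCast C.u C.e, ← zpow_mul, ← ht, zpow_neg, ← div_eq_mul_inv])
  -- make the exponent natural
  set s : ℕ := (-t).toNat
  refine ⟨V, h * (algebraMap R F C.x ^ s)⁻¹, (t + n * s).toNat, b₁, hV, ?_⟩
  have hs : 0 ≤ t + n * s := by
    rcases le_or_gt 0 t with h | h
    · positivity
    · have h1 : (s : ℤ) = -t := by simp [s]; omega
      have h2 : (1 : ℤ) ≤ n := by exact_mod_cast hn
      rw [h1]; nlinarith
  have hxpow : algebraMap R F C.x ^ (t + n * s).toNat =
      algebraMap R F C.x ^ t * (algebraMap R F C.x ^ s) ^ n := by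
    rw [← zpow_natCast, Int.toNat_of_nonneg hs, zpow_add₀ hx0, ← pow_mul, mul_comm s n,
      ← Nat.cast_mul, zpow_natCast]
  rw [map_mul, map_mul, map_pow, map_pow, hxpow, hVc, mul_pow, inv_pow]
  have h1 := pow_ne_zero n (pow_ne_zero s hx0)
  have h2 := zpow_ne_zero t hx0
  have h3 := pow_ne_zero b₁ hγ0
  have h4 := pow_ne_zero n hh
  simp only [c₀]
  field_simp

/-- A power of `x` which is an `n`-th power up to a unit has exponent divisible by `n`. -/
theorem dvd_of_pow_eq [IsIntegrallyClosed R] {n : ℕ} (hn : n.Prime) {U : R} (hU : IsUnit U)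
    {i j : ℕ} {h : F}
    (heq : algebraMap R F (U * C.x ^ i * C.γ ^ j) = h ^ n) : n ∣ i := by
  classical
  haveI := C.ufm_ring
  by_contra hni
  obtain ⟨h₁, h₂, hh₂, rfl⟩ := IsFractionRing.div_surjective (A := R) (K := F) h
  have hh2 : h₂ ≠ 0 := nonZeroDivisors.ne_zero hh₂
  have hh2F : algebraMap R F h₂ ≠ 0 :=
    (map_ne_zero_iff _ (IsFractionRing.injective R F)).mpr hh2
  have hkey : U * C.x ^ i * C.γ ^ j * h₂ ^ n = h₁ ^ n := by
    refine IsFractionRing.injective R F ?_
    rw [map_mul, heq, map_pow, map_pow, div_pow, div_mul_cancel₀ _ (pow_ne_zero _ hh2F)]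
  have e : algebraMap R C.ring U * C.u' ^ (C.e * i + j) * C.v' ^ j * algebraMap R C.ring h₂ ^ n =
      algebraMap R C.ring h₁ ^ n := by
    rw [← map_pow, ← map_pow, ← hkey, map_mul, map_mul, map_mul, map_pow, map_pow, map_pow,
      ← C.u'_mul_v', ← C.u'_pow, ← pow_mul, pow_add]
    ring
  have hUr : IsUnit (algebraMap R C.ring U) := hU.map _
  have hh1 : h₁ ≠ 0 := fun h0 => by
    rw [h0, map_zero, zero_pow hn.pos.ne'] at e
    exact mul_ne_zero (mul_ne_zero (mul_ne_zero hUr.ne_zero (pow_ne_zero _ C.u'_ne))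
      (pow_ne_zero _ C.v'_ne))
      (pow_ne_zero _ ((map_ne_zero_iff _ C.injective_ring).mpr hh2)) e
  obtain ⟨p₁, g₁, hg₁, hge⟩ := WfDvdMonoid.max_power_factor
    ((map_ne_zero_iff _ C.injective_ring).mpr hh1) C.prime_u'.irreducible
  obtain ⟨p₂, g₂, hg₂, hge₂⟩ := WfDvdMonoid.max_power_factor
    ((map_ne_zero_iff _ C.injective_ring).mpr hh2) C.prime_u'.irreducible
  have hmult : ∀ (p : C.ring), Prime p → ∀ {k l : ℕ} {s t : C.ring}, ¬ p ∣ s → ¬ p ∣ t →
      p ^ k * s = p ^ l * t → k = l := by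
    intro p hp k l s t hs ht h
    by_contra hne
    rcases Nat.lt_or_gt_of_ne hne with h' | h'
    · obtain ⟨r, rfl⟩ := Nat.exists_eq_add_of_lt h'
      rw [show k + r + 1 = k + (r + 1) by ring, pow_add, mul_assoc] at h
      exact hs ⟨p ^ r * t, by rw [mul_left_cancel₀ (pow_ne_zero _ hp.ne_zero) h]; ring⟩
    · obtain ⟨r, rfl⟩ := Nat.exists_eq_add_of_lt h'
      rw [show l + r + 1 = l + (r + 1) by ring, pow_add, mul_assoc] at h
      exact ht ⟨p ^ r * s, by rw [← mul_left_cancel₀ (pow_ne_zero _ hp.ne_zero) h]; ring⟩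
  -- the exponent at `v` is divisible by `n`
  obtain ⟨r₁, k₁, hk₁, hre₁⟩ := WfDvdMonoid.max_power_factor
    ((map_ne_zero_iff _ C.injective_ring).mpr hh1) C.prime_v'.irreducible
  obtain ⟨r₂, k₂, hk₂, hre₂⟩ := WfDvdMonoid.max_power_factor
    ((map_ne_zero_iff _ C.injective_ring).mpr hh2) C.prime_v'.irreducible
  have hvu : ¬ C.v' ∣ C.u' := fun h =>
    C.not_dvd_v' (C.prime_v'.associated_of_dvd C.prime_u' h).symm.dvd
  have hj : j + r₂ * n = r₁ * n := by
    refine hmult _ C.prime_v' (s := algebraMap R C.ring U * C.u' ^ (C.e * i + j) * k₂ ^ n)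
      (t := k₁ ^ n) ?_ (fun h => hk₁ (C.prime_v'.dvd_of_dvd_pow h)) ?_
    · intro h
      rcases C.prime_v'.dvd_or_dvd h with h | h
      · rcases C.prime_v'.dvd_or_dvd h with h | h
        · exact C.prime_v'.not_isUnit (isUnit_of_dvd_unit h hUr)
        · exact hvu (C.prime_v'.dvd_of_dvd_pow h)
      · exact hk₂ (C.prime_v'.dvd_of_dvd_pow h)
    · rw [hre₁, hre₂] at e
      rw [mul_pow, mul_pow, ← pow_mul, ← pow_mul] at e
      rw [pow_add]
      linear_combination e
  have hi : C.e * i + j + p₂ * n = p₁ * n := by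
    refine hmult _ C.prime_u' (s := algebraMap R C.ring U * C.v' ^ j * g₂ ^ n)
      (t := g₁ ^ n) ?_ (fun h => hg₁ (C.prime_u'.dvd_of_dvd_pow h)) ?_
    · intro h
      rcases C.prime_u'.dvd_or_dvd h with h | h
      · rcases C.prime_u'.dvd_or_dvd h with h | h
        · exact C.prime_u'.not_isUnit (isUnit_of_dvd_unit h hUr)
        · exact C.not_dvd_v' (C.prime_u'.dvd_of_dvd_pow h)
      · exact hg₂ (C.prime_u'.dvd_of_dvd_pow h)
    · rw [hge, hge₂] at e
      rw [mul_pow, mul_pow, ← pow_mul, ← pow_mul] at e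
      rw [pow_add]
      linear_combination e
  obtain ⟨j', rfl⟩ : n ∣ j := (Nat.dvd_add_left (dvd_mul_left n r₂)).mp (hj ▸ dvd_mul_left n r₁)
  obtain ⟨m, hm⟩ : n ∣ C.e * i :=
    (Nat.dvd_add_left (dvd_mul_right n j')).mp
      ((Nat.dvd_add_left (dvd_mul_left n p₂)).mp (hi ▸ dvd_mul_left n p₁))
  set ζ : E := algebraMap R E h₁ / (algebraMap R E h₂ * C.u ^ (m : ℤ) *
    algebraMap R E C.γ ^ j')
  have hζn : ζ ^ n = algebraMap R E U := by
    have hγE : algebraMap R E C.γ ≠ 0 := (map_ne_zero_iff _ C.injective_E).mpr C.γ_ne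
    rw [div_pow, div_eq_iff (pow_ne_zero _ (mul_ne_zero (mul_ne_zero
      ((map_ne_zero_iff _ C.injective_E).mpr hh2) (zpow_ne_zero _ C.u_ne))
      (pow_ne_zero _ hγE))), ← map_pow (algebraMap R E), ← hkey, zpow_natCast, mul_pow, mul_pow,
      ← pow_mul C.u, ← pow_mul, mul_comm m n, mul_comm j' n, ← hm, pow_mul C.u, C.u_pow]
    simp only [map_mul, map_pow]
    ring
  haveI : IsIntegrallyClosed C.ring := inferInstance
  obtain ⟨z, hz⟩ := (IsIntegrallyClosed.isIntegral_iff (R := C.ring) (K := E) (x := ζ)).mp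
    (IsIntegral.of_pow hn.pos (by
      rw [hζn, IsScalarTower.algebraMap_apply R C.ring E]; exact isIntegral_algebraMap))
  have hzu : IsUnit z := by
    refine (isUnit_pow_iff hn.pos.ne').mp ?_
    have : z ^ n = algebraMap R C.ring U :=
      IsFractionRing.injective C.ring E (by
        rw [map_pow, hz, hζn, ← IsScalarTower.algebraMap_apply])
    exact this ▸ hUr
  obtain ⟨c, hc⟩ := C.dvd_of_isUnit_homogeneous hzu
    (c := algebraMap R F h₁ / (algebraMap R F h₂ * algebraMap R F C.γ ^ j')) (i := -(m : ℤ)) (by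
    have e1 : (z : E) = ζ := hz
    rw [e1, map_div₀, map_mul, map_pow, ← IsScalarTower.algebraMap_apply,
      ← IsScalarTower.algebraMap_apply, ← IsScalarTower.algebraMap_apply, zpow_neg]
    simp only [ζ]
    field_simp)
  refine hni (Int.natCast_dvd_natCast.mp ⟨-c, ?_⟩)
  have he : (C.e : ℤ) ≠ 0 := by exact_mod_cast C.e_pos.ne'
  have hm' : (C.e : ℤ) * i = n * m := by exact_mod_cast hm
  refine mul_left_cancel₀ he ?_
  linear_combination hm' - (n : ℤ) * hc

end NodeCover

end Fermat.Agent.Models
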