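/-
Orders along the components and the first order action of a wild automorphism on them.
-/
import Fermat.Agent.Models.Wild.Regular
import Fermat.Agent.Models.DetectPoint

set_option autoImplicit false
set_option linter.unusedSectionVars false

noncomputable section

namespace Fermat.Agent.Models

open IsLocalRing

variable {O F : Type} [CommRing O] [IsDomain O] [IsDiscreteValuationRing O] [Field F] [Algebra O F]

/-- `x` is `1 + π ^ b t` modulo `π ^ (b + 1)` along the component. -/
def Near (π : O) (P : ValuationSubring F) (b : ℕ) (x : F) (t : O) : Prop :=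
  PDvd π P (b + 1) (x - 1 - algebraMap O F (π ^ b * t))

namespace IsWildModel

variable {M : Model O F} {π : O} {P : Bool → ValuationSubring F} {e p : ℕ} {F₀ : Subfield F}
  (h : IsWildModel M π P e p F₀)

include h

theorem rs_pi (i : Bool) : rs (P i) (algebraMap O F π) = 0 :=
  rs_eq_zero_of_nonunit (h.uniformizer i).1

theorem isU_algebraMap (i : Bool) {a : O} (ha : ¬ π ∣ a) : IsU (P i) (algebraMap O F a) :=
  ⟨h.algebraMap_mem i a, fun h0 => ha ((h.algebraMap_nonunit_iff i a).mp
    ((rs_eq_zero (h.algebraMap_mem i a)).mp h0))⟩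

/-- Chart elements have an order along each component. -/
theorem exists_order_mem (i : Bool) {z : F} (hz : z ∈ M.B₀) (hz0 : z ≠ 0) :
    ∃ n : ℕ, IsU (P i) (z / algebraMap O F π ^ n) := by
  by_contra hall
  push Not at hall
  have hP0 := h.pi_ne_zero
  set Q := algebraMap O F π
  have hmem : ∀ n, z / Q ^ n ∈ P i := by
    intro n
    induction n with
    | zero => simpa using h.chart₀.fibre.le i z hz
    | succ n ih =>
      have h1 : z / Q ^ n ∈ (P i).nonunits :=
        (rs_eq_zero ih).mp (by_contra fun h0 => hall n ⟨ih, h0⟩)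
      have h2 := (h.uniformizer i).2 _ h1
      rwa [div_div, ← pow_succ] at h2
  haveI := h.chart₀.fibre.noetherian
  let T : ℕ →o Ideal M.B₀ :=
    { toFun := fun n =>
        { carrier := {c : M.B₀ | (c : F) * Q ^ n / z ∈ P i}
          zero_mem' := by simp
          add_mem' := by
            intro c c' hc hc'
            simp only [Set.mem_setOf_eq] at hc hc' ⊢
            rw [AddMemClass.coe_add, add_mul, add_div]
            exact (P i).add_mem _ _ hc hc'
          smul_mem' := by
            intro r c hc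
            simp only [Set.mem_setOf_eq, smul_eq_mul, MulMemClass.coe_mul] at hc ⊢
            rw [mul_assoc, mul_div_assoc]
            exact (P i).mul_mem _ _ (h.chart₀.fibre.le i _ r.2) hc }
      monotone' := fun m n hmn c hc => by
        obtain ⟨d, rfl⟩ := Nat.exists_eq_add_of_le hmn
        show (c : F) * Q ^ (m + d) / z ∈ P i
        rw [pow_add, ← mul_assoc, mul_div_right_comm]
        exact (P i).mul_mem _ _ hc (pow_mem ((P i).nonunits_subset (h.uniformizer i).1) d) }
  obtain ⟨N, hN⟩ := monotone_stabilizes_iff_noetherian.mpr inferInstance T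
  obtain ⟨a, d, hd, had⟩ := h.chart₀.frac i _ (hmem (N + 1))
  have ha : a ∈ T (N + 1) := by
    show (a : F) * Q ^ (N + 1) / z ∈ P i
    rw [← had]
    have e1 : z / Q ^ (N + 1) * (d : F) * Q ^ (N + 1) / z = (d : F) := by field_simp
    rw [e1]
    exact h.chart₀.fibre.le i _ d.2
  rw [← hN (N + 1) N.le_succ] at ha
  refine hd ((h.mem_nonunits_iff i).mpr ⟨_, ha, ?_⟩)
  rw [← had, Algebra.smul_def]
  show (d : F) = Q * _
  field_simp
  ring

/-- Functions have an order along each component. -/
theorem exists_order (i : Bool) {z : F} (hz : z ≠ 0) :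
    ∃ n : ℤ, IsU (P i) (z / algebraMap O F π ^ n) := by
  haveI := h.chart₀.fractionRing
  obtain ⟨a, c, hc, rfl⟩ := IsFractionRing.div_surjective (A := M.B₀) (K := F) z
  have hc0 : (algebraMap M.B₀ F c) ≠ 0 := fun h0 => hz (by rw [h0, div_zero])
  have ha0 : (algebraMap M.B₀ F a) ≠ 0 := fun h0 => hz (by rw [h0, zero_div])
  obtain ⟨m, hm⟩ := h.exists_order_mem i a.2 ha0
  obtain ⟨l, hl⟩ := h.exists_order_mem i c.2 hc0
  refine ⟨(m : ℤ) - l, ?_⟩
  convert hm.div hl using 1
  rw [zpow_sub₀ h.pi_ne_zero, zpow_natCast, zpow_natCast]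
  change (a : F) ≠ 0 at ha0
  change (c : F) ≠ 0 at hc0
  show (a : F) / (c : F) / _ = _
  field_simp

/-- A power of the uniformiser is a unit only for exponent zero. -/
theorem eq_zero_of_isU_zpow (i : Bool) {n : ℤ} (hn : IsU (P i) (algebraMap O F π ^ n)) : n = 0 := by
  have key : ∀ m : ℕ, IsU (P i) (algebraMap O F π ^ m) → m = 0 := by
    intro m hm
    by_contra h0
    exact hm.2 (by rw [rs_pow ((P i).nonunits_subset (h.uniformizer i).1), h.rs_pi, zero_pow h0])
  obtain ⟨m, rfl | rfl⟩ := n.eq_nat_or_neg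
  · rw [zpow_natCast] at hn
    rw [key m hn]
    rfl
  · rw [zpow_neg, zpow_natCast] at hn
    have := hn.inv
    rw [inv_inv] at this
    rw [key m this]
    rfl

theorem near_mul (i : Bool) {b : ℕ} (hb : 0 < b) {x y : F} {s t : O} (hx : Near π (P i) b x s)
    (hy : Near π (P i) b y t) : Near π (P i) b (x * y) (s + t) := by
  have hy' : y ∈ P i := by
    have h1 := h.pDvd_mono i (Nat.zero_le _) hy
    rw [h.pDvd_zero_iff] at h1
    have := (P i).add_mem _ _ h1 ((P i).add_mem _ _ (P i).one_mem (h.algebraMap_mem i (π ^ b * t)))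
    convert this using 1
    ring
  have h1 := hx.mul_mem hy'
  have h2 := hy.mul_mem ((P i).add_mem _ _ (P i).one_mem (h.algebraMap_mem i (π ^ b * s)))
  have h3 : PDvd π (P i) (b + 1) (algebraMap O F (π ^ b * s * (π ^ b * t))) :=
    h.pDvd_algebraMap i (by
      obtain ⟨c, rfl⟩ : ∃ c, b = c + 1 := ⟨b - 1, (Nat.sub_add_cancel hb).symm⟩
      exact ⟨π ^ c * (s * t), by ring⟩)
  have := (h1.add h2).add h3
  convert this using 1
  simp only [Near, mul_add, map_mul, map_add]
  ring

theorem near_one (i : Bool) (b : ℕ) : Near π (P i) b (1 : F) 0 := by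
  rw [Near, sub_self, mul_zero, map_zero, sub_zero]
  exact ⟨0, (P i).zero_mem, by rw [smul_zero]⟩

theorem near_inv (i : Bool) {b : ℕ} (hb : 0 < b) {x : F} {t : O} (hx : Near π (P i) b x t) :
    Near π (P i) b x⁻¹ (-t) := by
  have hd : PDvd π (P i) 1 (x - 1) := by
    have := (h.pDvd_mono i (Nat.succ_le_succ b.zero_le) hx).add
      (h.pDvd_algebraMap i (a := π ^ b * t) (Dvd.dvd.mul_right (pow_dvd_pow π hb) _))
    simpa using this
  have hxP : x ∈ P i := by
    have h1 := (P i).nonunits_subset ((h.pDvd_one_iff i).mp hd)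
    simpa using (P i).add_mem _ _ h1 (P i).one_mem
  have hxU : IsU (P i) x := by
    refine ⟨hxP, ?_⟩
    rw [(rs_eq_iff hxP (P i).one_mem).mpr ((h.pDvd_one_iff i).mp hd), rs_one]
    exact one_ne_zero
  have h2 : PDvd π (P i) (b + 1) (algebraMap O F (π ^ b * t) * (x - 1)) :=
    (h.pDvd_algebraMap i (a := π ^ b * t) (dvd_mul_right _ _)).mul hd
  have := (h2.sub hx).mul_mem hxU.inv.1
  convert this using 1
  have := hxU.ne_zero
  simp only [Near, mul_neg, map_neg]
  field_simp
  ring

theorem near_pow (i : Bool) {b : ℕ} (hb : 0 < b) {x : F} {t : O} (hx : Near π (P i) b x t) :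
    ∀ n : ℕ, Near π (P i) b (x ^ n) ((n : O) * t)
  | 0 => by simpa using h.near_one i b
  | n + 1 => by
    rw [pow_succ, Nat.cast_succ, add_mul, one_mul]
    exact h.near_mul i hb (near_pow i hb hx n) hx

theorem near_zpow (i : Bool) {b : ℕ} (hb : 0 < b) {x : F} {t : O} (hx : Near π (P i) b x t)
    (n : ℤ) : Near π (P i) b (x ^ n) ((n : O) * t) := by
  obtain ⟨m, rfl | rfl⟩ := n.eq_nat_or_neg
  · rw [zpow_natCast, Int.cast_natCast]
    exact h.near_pow i hb hx m
  · rw [zpow_neg, zpow_natCast, Int.cast_neg, Int.cast_natCast, neg_mul]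
    exact h.near_inv i hb (h.near_pow i hb hx m)

theorem near_tau_pi (i : Bool) {τ : F →+* F} {b : ℕ} {β : O} (ha : IsWildAut M π F₀ τ b β) :
    Near π (P i) b (τ (algebraMap O F π) / algebraMap O F π) β := by
  obtain ⟨r, hr⟩ := ha.map_pi
  refine ⟨algebraMap O F r, h.algebraMap_mem i r, ?_⟩
  rw [hr, map_mul, mul_div_cancel_left₀ _ h.pi_ne_zero, Algebra.smul_def]
  simp only [map_mul, map_add, map_one, map_pow]
  ring

/-- The automorphism is trivial along each component modulo `π ^ (b + 1)`. -/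
theorem tau_pDvd (i : Bool) {τ : F →+* F} {b : ℕ} {β : O} (ha : IsWildAut M π F₀ τ b β) {z : F}
    (hz : z ∈ P i) : PDvd π (P i) (b + 1) (τ z - z) := by
  obtain ⟨a, c, hc, hac⟩ := h.chart₀.frac i z hz
  have hle := h.chart₀.fibre.le i
  obtain ⟨e₁, he₁, ee₁⟩ := ha.trivial₀ _ a.2
  obtain ⟨e₂, he₂, ee₂⟩ := ha.trivial₀ _ c.2
  have hτc : PDvd π (P i) (b + 1) (τ (c : F) - c) := ⟨e₂, hle _ he₂, ee₂⟩
  have hU : IsU (P i) (τ (c : F)) := by
    have hτcP : τ (c : F) ∈ P i := hle _ (ha.trivial₀.map_mem c.2)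
    refine ⟨hτcP, ?_⟩
    rw [(rs_eq_iff hτcP (hle _ c.2)).mpr
      ((h.pDvd_one_iff i).mp (h.pDvd_mono i (Nat.succ_le_succ b.zero_le) hτc))]
    exact fun h0 => hc ((rs_eq_zero (hle _ c.2)).mp h0)
  have h1 := ((show PDvd π (P i) (b + 1) (τ (a : F) - a) from ⟨e₁, hle _ he₁, ee₁⟩).sub
    (hτc.mul_mem hz)).mul_mem hU.inv.1
  have e0 : τ (a : F) = τ z * τ (c : F) := by rw [← map_mul, hac]
  convert h1 using 1
  rw [← hac, map_mul]
  have := hU.ne_zero
  field_simp
  ring

/-- A function of order `n` is multiplied by `1 + n β π ^ b` to first order. -/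
theorem near_tau (i : Bool) {τ : F →+* F} {b : ℕ} {β : O} (ha : IsWildAut M π F₀ τ b β) {z : F}
    {n : ℤ} (hz : IsU (P i) (z / algebraMap O F π ^ n)) :
    Near π (P i) b (τ z / z) ((n : O) * β) := by
  set u := z / algebraMap O F π ^ n with hu
  have hu0 : Near π (P i) b (τ u / u) 0 := by
    have := (h.tau_pDvd i ha hz.1).mul_mem hz.inv.1
    convert this using 1
    have := hz.ne_zero
    simp only [Near, mul_zero, map_zero, sub_zero]
    field_simp
  have h1 := h.near_mul i ha.pos hu0 (h.near_zpow i ha.pos (h.near_tau_pi i ha) n)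
  rw [zero_add] at h1
  convert h1 using 1
  have hP := h.pi_ne_zero
  have hτP : τ (algebraMap O F π) ≠ 0 := (map_ne_zero τ).mpr hP
  rw [hu, map_div₀, map_zpow₀, div_zpow]
  have := zpow_ne_zero n hP
  have := zpow_ne_zero n hτP
  field_simp

end IsWildModel

end Fermat.Agent.Models
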