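/-
Local forms of a Kummer function on a wild model: roots at smooth points and monomials at nodes.
-/
import Fermat.Agent.Models.Wild.Orders
import Fermat.Agent.Models.Wild.NodeGrade
import Fermat.Agent.Models.CoreInvariant

set_option autoImplicit false
set_option linter.unusedSectionVars false

noncomputable section

namespace Fermat.Agent.Models

open IsLocalRing
open scoped IntermediateField

/-- The form at a node, in every residue characteristic. -/
theorem hasFormAt_node_grade {R : Type} [CommRing R] [IsDomain R] [IsNoetherianRing R]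
    [IsLocalRing R] [IsIntegrallyClosed R] {F : Type} [Field F] [Algebra R F] [IsFractionRing R F]
    {n : ℕ} (hn : 0 < n) {x y γ : R} {e : ℕ} (he : 0 < e)
    (hm : maximalIdeal R = Ideal.span {x, y, γ}) (hxy : x * y = γ ^ e) (hx : x ≠ 0)
    (hP : ∃ P : Ideal R, P.IsPrime ∧ x ∈ P ∧ y ∉ P) (hP' : ∃ P : Ideal R, P.IsPrime ∧ y ∈ P ∧ x ∉ P)
    {f : F} (hf : f ≠ 0)
    (hroots : ∀ Q : Ideal R, Q.IsPrime → Q ≠ ⊥ → γ ∉ Q → HasRootAt R n f Q) :
    HasFormAt R n x γ f (maximalIdeal R) := by
  let Ω := AlgebraicClosure F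
  have hinjF := IsFractionRing.injective R F
  have hinj : Function.Injective (algebraMap R Ω) := by
    rw [IsScalarTower.algebraMap_eq R F Ω]
    exact (algebraMap F Ω).injective.comp hinjF
  obtain ⟨u, hu⟩ := IsAlgClosed.exists_pow_nat_eq (algebraMap R Ω x) he
  have hu0 : u ≠ 0 := by
    rintro rfl
    rw [zero_pow he.ne'] at hu
    exact (map_ne_zero_iff _ hinj).mpr hx hu.symm
  have huF : IsIntegral F u :=
    IsIntegral.of_pow he (hu ▸ IsScalarTower.algebraMap_apply R F Ω x ▸ isIntegral_algebraMap)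
  let E : IntermediateField F Ω := F⟮u⟯
  let pb := IntermediateField.adjoin.powerBasis huF
  let uE : E := ⟨u, IntermediateField.mem_adjoin_simple_self F u⟩
  have huE : uE ^ e = algebraMap R E x := Subtype.ext (by push_cast; exact hu)
  have hxE : algebraMap R E x ≠ 0 := fun h =>
    (map_ne_zero_iff _ hinj).mpr hx (congrArg Subtype.val h)
  have huE0 : uE ≠ 0 := fun h => hu0 (congrArg Subtype.val h)
  haveI : IsScalarTower R F E := IsScalarTower.of_algebraMap_eq fun r =>
    Subtype.ext (IsScalarTower.algebraMap_apply R F Ω r)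
  let C : NodeCover R F E :=
    { x := x
      y := y
      γ := γ
      e := e
      u := uE
      v := algebraMap R E γ / uE
      e_pos := he
      hm := hm
      hxy := hxy
      x_ne := hx
      u_pow := huE
      v_pow := by rw [div_pow, huE, ← map_pow, ← hxy, map_mul, mul_div_cancel_left₀ _ hxE]
      u_mul_v := mul_div_cancel₀ _ huE0
      adjoin_u := pb.adjoin_gen_eq_top
      exists_P := hP
      exists_P' := hP' }
  obtain ⟨A, b, hA, hb, hAf, hAroots⟩ := exists_numerator (R := R) hn hf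
  obtain ⟨U, z, i, j, hU, hz⟩ :=
    C.exists_monomial hn hA fun Q hQ hQ0 hQγ => hAroots Q (hroots Q hQ hQ0 hQγ)
  have hbF : algebraMap R F b ≠ 0 := (map_ne_zero_iff _ hinjF).mpr hb
  refine ⟨z / algebraMap R F b, 1, U, i, j,
    fun h => (maximalIdeal.isMaximal R).ne_top ((Ideal.eq_top_iff_one _).mpr h),
    fun h => (maximalIdeal.isMaximal R).ne_top (Ideal.eq_top_of_isUnit_mem _ h hU), ?_⟩
  rw [div_pow, ← mul_div_assoc, div_eq_iff (pow_ne_zero _ hbF), map_one, one_mul, mul_comm f, ← hAf]
  exact hz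

variable {O F : Type} [CommRing O] [IsDomain O] [IsDiscreteValuationRing O] [Field F] [Algebra O F]

/-- A Kummer function: roots off the special fibre and orders divisible by `p` along it. -/
structure IsKummer (M : Model O F) (π : O) (P : Bool → ValuationSubring F) (p : ℕ) (f : F) :
    Prop where
  ne_zero : f ≠ 0
  off₀ : ∀ Q : Ideal M.B₀, Q.IsPrime → Q ≠ ⊥ → algebraMap O M.B₀ π ∉ Q → HasRootAt M.B₀ p f Q
  off₁ : ∀ Q : Ideal M.B₁, Q.IsPrime → Q ≠ ⊥ → algebraMap O M.B₁ π ∉ Q → HasRootAt M.B₁ p f Q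
  ord : ∀ i, ∃ G : F, IsU (P i) (G ^ p / f)

/-- The hypotheses on `f` seen on one chart. -/
structure IsKummerOn (B : Subalgebra O F) (π : O) (P : Bool → ValuationSubring F) (p : ℕ) (f : F)
    (n : Bool → ℤ) : Prop where
  ne_zero : f ≠ 0
  off : ∀ Q : Ideal B, Q.IsPrime → Q ≠ ⊥ → algebraMap O B π ∉ Q → HasRootAt B p f Q
  order : ∀ i, IsU (P i) (f / algebraMap O F π ^ ((p : ℤ) * n i))

/-- Roots at the prime zero. -/
theorem hasRootAt_bot {R : Type} [CommRing R] [IsDomain R] {F : Type} [Field F] [Algebra R F]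
    [IsFractionRing R F] {n : ℕ} {f : F} (hf : f ≠ 0) : HasRootAt R n f ⊥ := by
  obtain ⟨a, b, hb, rfl⟩ := IsFractionRing.div_surjective (A := R) (K := F) f
  have hbF : algebraMap R F b ≠ 0 := fun h0 => hf (by rw [h0, div_zero])
  have haF : algebraMap R F a ≠ 0 := fun h0 => hf (by rw [h0, zero_div])
  refine ⟨1, b, a, fun h => hbF (by rw [Ideal.mem_bot.mp h, map_zero]),
    fun h => haF (by rw [Ideal.mem_bot.mp h, map_zero]), ?_⟩
  rw [one_pow, mul_one, mul_div_cancel₀ _ hbF]

namespace IsWildModel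

variable {M : Model O F} {π : O} {P : Bool → ValuationSubring F} {e p : ℕ} {F₀ : Subfield F}
  (h : IsWildModel M π P e p F₀)

include h

/-- The orders of a Kummer function along the components. -/
theorem exists_kummer_orders {f : F} (hf : IsKummer M π P p f) :
    ∃ n : Bool → ℤ, IsKummerOn M.B₀ π P p f n ∧ IsKummerOn M.B₁ π P p f n := by
  have key : ∀ i, ∃ n : ℤ, IsU (P i) (f / algebraMap O F π ^ ((p : ℤ) * n)) := fun i => by
    obtain ⟨G, hG⟩ := hf.ord i
    have hG0 : G ≠ 0 := fun h0 => hG.ne_zero (by rw [h0, zero_pow h.prime.pos.ne', zero_div])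
    obtain ⟨n, hn⟩ := h.exists_order i hG0
    refine ⟨n, ?_⟩
    convert (hn.pow p).mul hG.inv using 1
    rw [div_pow, inv_div, ← zpow_natCast (algebraMap O F π ^ n), ← zpow_mul, mul_comm n]
    have := pow_ne_zero p hG0
    field_simp
  choose n hn using key
  exact ⟨n, ⟨hf.ne_zero, hf.off₀, hn⟩, ⟨hf.ne_zero, hf.off₁, hn⟩⟩

variable {B : Subalgebra O F} {w : F}

theorem exists_center_le (hB : IsWildChart B w π P e F₀) {Q : Ideal B} [Q.IsPrime]
    (hπ : algebraMap O B π ∈ Q) : ∃ i, center hB.fibre i ≤ Q := by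
  by_contra hne
  push Not at hne
  obtain ⟨c₀, hc₀, hc₀Q⟩ := SetLike.not_le_iff_exists.mp (hne false)
  obtain ⟨c₁, hc₁, hc₁Q⟩ := SetLike.not_le_iff_exists.mp (hne true)
  obtain ⟨d, hd, hde⟩ := hB.fibre.reduced _ (c₀ * c₁).2 fun i => by
    cases i with
    | false => exact mem_center.mp (Ideal.mul_mem_right c₁ _ hc₀)
    | true => exact mem_center.mp (Ideal.mul_mem_left _ c₀ hc₁)
  have hmem : c₀ * c₁ ∈ Q := by
    rw [show c₀ * c₁ = algebraMap O B π * ⟨d, hd⟩ from Subtype.ext (hde.trans (Algebra.smul_def π d))]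
    exact Q.mul_mem_right _ hπ
  exact (Ideal.IsPrime.mem_or_mem ‹_› hmem).elim hc₀Q hc₁Q

theorem root_off (hB : IsWildChart B w π P e F₀) {f : F} {n : Bool → ℤ}
    (hf : IsKummerOn B π P p f n) {Q : Ideal B} (hQ : Q.IsPrime) (hπ : algebraMap O B π ∉ Q) :
    HasRootAt B p f Q := by
  haveI := hB.fractionRing
  rcases eq_or_ne Q ⊥ with rfl | hne
  · exact hasRootAt_bot hf.ne_zero
  · exact hf.off Q hQ hne hπ

theorem root_center (hB : IsWildChart B w π P e F₀) {f : F} {n : Bool → ℤ}
    (hf : IsKummerOn B π P p f n) (i : Bool) : HasRootAt B p f (center hB.fibre i) := by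
  obtain ⟨a, c, hc, hac⟩ := hB.frac i _ (hf.order i).1
  have hcQ : c ∉ center hB.fibre i := fun h' => hc (mem_center.mp h')
  refine ⟨algebraMap O F π ^ n i, c, a, hcQ, fun h' => ?_, ?_⟩
  · have hu := (hf.order i).mul (isU_of_notMem_center (hf := hB.fibre) hcQ)
    rw [hac] at hu
    exact hu.2 (rs_of_mem_center h')
  · show (a : F) * _ = (c : F) * f
    rw [← hac, ← zpow_natCast (algebraMap O F π ^ n i), ← zpow_mul, mul_comm (n i)]
    have := zpow_ne_zero ((p : ℤ) * n i) h.pi_ne_zero
    field_simp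

/-- Smooth points carry roots. -/
theorem root_smooth (hB : IsWildChart B w π P e F₀) {f : F} {n : Bool → ℤ}
    (hf : IsKummerOn B π P p f n) {m : Ideal B} (hm : m.IsMaximal) (hπ : algebraMap O B π ∈ m)
    {j : Bool} (hs : IsSmoothOn B π P j m) : HasRootAt B p f m := by
  obtain ⟨hj, ⟨v, hv, hvm⟩, x, hxm, hxj, hgen⟩ := hs
  haveI := hB.fibre.noetherian
  haveI := hB.fractionRing
  haveI := hm.isPrime
  have hcj : center hB.fibre j ≤ m := fun y hy => hj y (mem_center.mp hy)
  refine hasRootAt_regular h.prime.pos m (x := algebraMap O B π) (y := x) hπ hxm hgen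
    (fun h0 => h.pi_ne_zero (congrArg Subtype.val h0)) (center hB.fibre j) hcj
    (mem_center.mpr (h.uniformizer j).1) (fun h' => hxj (mem_center.mp h')) hf.ne_zero
    fun Q hQ _ hQm hne => ?_
  by_cases hπQ : algebraMap O B π ∈ Q
  swap
  · exact h.root_off hB hf hQ hπQ
  obtain ⟨i, hi⟩ := h.exists_center_le hB hπQ
  obtain rfl : i = j := by
    by_contra hij
    have : (!j) = i := by cases i <;> cases j <;> first | rfl | exact absurd rfl hij
    exact hvm (hQm (hi (mem_center.mpr (this ▸ hv))))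
  have hQe : Q = center hB.fibre i := by
    by_contra hne'
    obtain ⟨y, hyQ, hyc⟩ := SetLike.exists_of_lt (lt_of_le_of_ne hi (Ne.symm hne'))
    exact hne ((hB.fibre.maximal_above i Q hQ (fun b hb => hi (mem_center.mpr hb))
      ⟨y, hyQ, fun h' => hyc (mem_center.mpr h')⟩).eq_of_le hm.ne_top hQm)
  rw [hQe]
  exact h.root_center hB hf i

/-- Nodes carry forms. -/
theorem form_node (hB : IsWildChart B w π P e F₀) {f : F} (hf : f ≠ 0)
    (hoff : ∀ Q : Ideal B, Q.IsPrime → Q ≠ ⊥ → algebraMap O B π ∉ Q → HasRootAt B p f Q)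
    {m : Ideal B} (hm : m.IsMaximal) {x y u : B}
    (hn : IsNodeParam B π P e F₀ m x y u) : HasFormAt B p x (algebraMap O B π) f m := by
  haveI := hB.fibre.noetherian
  haveI := hB.fractionRing
  haveI := hm.isPrime
  haveI : IsIntegrallyClosed B := (isIntegrallyClosed_iff F).mpr fun {z} hz =>
    ⟨⟨z, hB.closed z hz⟩, rfl⟩
  let L := Localization.AtPrime m
  haveI : IsNoetherianRing L := IsLocalization.isNoetherianRing m.primeCompl L inferInstance
  haveI : IsIntegrallyClosed L :=
    isIntegrallyClosed_of_isLocalization L m.primeCompl m.primeCompl_le_nonZeroDivisors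
  have hu : ∀ s : m.primeCompl, IsUnit (algebraMap B F s) := fun s =>
    isUnit_iff_ne_zero.mpr ((map_ne_zero_iff _ (IsFractionRing.injective B F)).mpr
      fun h => s.2 (h ▸ m.zero_mem))
  letI : Algebra L F := (IsLocalization.lift (M := m.primeCompl) hu).toAlgebra
  haveI : IsScalarTower B L F := IsScalarTower.of_algebraMap_eq fun r =>
    (IsLocalization.lift_eq hu r).symm
  haveI : IsFractionRing L F :=
    IsFractionRing.isFractionRing_of_isDomain_of_isLocalization m.primeCompl L F
  obtain ⟨uu, huu⟩ := IsLocalization.map_units L (⟨u, hn.u_notMem⟩ : m.primeCompl)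
  change (uu : L) = algebraMap B L u at huu
  have hinjL : Function.Injective (algebraMap B L) :=
    IsLocalization.injective L m.primeCompl_le_nonZeroDivisors
  set X := algebraMap B L x with hX
  set Y := algebraMap B L y * ((uu⁻¹ : Lˣ) : L) with hY
  set G := algebraMap B L (algebraMap O B π) with hG
  have hπm : algebraMap O B π ∈ m := hn.centre true _ (h.uniformizer true).1
  have hmax : maximalIdeal L = Ideal.span {X, Y, G} := by
    refine le_antisymm (fun z hz => ?_) (Ideal.span_le.mpr ?_)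
    · obtain ⟨a, s, rfl⟩ := IsLocalization.exists_mk'_eq m.primeCompl z
      rw [IsLocalization.AtPrime.mk'_mem_maximal_iff L m] at hz
      obtain ⟨t, ht, htz⟩ := hn.gen a hz
      have h2 := Ideal.mem_map_of_mem (algebraMap B L) htz
      rw [Ideal.map_span, Set.image_insert_eq, Set.image_pair, map_mul, Ideal.unit_mul_mem_iff_mem _
        (IsLocalization.map_units _ (⟨t, ht⟩ : m.primeCompl))] at h2
      rw [← IsLocalization.mk'_spec L a s, Ideal.mul_unit_mem_iff_mem _
        (IsLocalization.map_units _ s)] at h2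
      refine (Ideal.span_le.mpr ?_) h2
      rintro _ (rfl | rfl | rfl)
      · exact Ideal.subset_span (by simp [hX])
      · have : algebraMap B L y = Y * (uu : L) := by rw [hY, mul_assoc, Units.inv_mul, mul_one]
        rw [this]
        exact Ideal.mul_mem_right _ _ (Ideal.subset_span (by simp))
      · exact Ideal.subset_span (by simp [hG])
    · rintro _ (rfl | rfl | rfl)
      · exact (IsLocalization.AtPrime.to_map_mem_maximal_iff L m _).mpr hn.x_mem
      · exact Ideal.mul_mem_right _ _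
          ((IsLocalization.AtPrime.to_map_mem_maximal_iff L m _).mpr hn.y_mem)
      · exact (IsLocalization.AtPrime.to_map_mem_maximal_iff L m _).mpr hπm
  have hxy : X * Y = G ^ e := by
    rw [hX, hY, ← mul_assoc, ← map_mul, hn.mul_eq, map_mul, map_pow, mul_assoc, ← huu,
      Units.mul_inv, mul_one, hG]
  have hx0 : X ≠ 0 := fun h0 => hn.x_false (by
    rw [show x = 0 from hinjL (h0.trans (map_zero _).symm)]
    exact (P false).nonunits.zero_mem)
  have hprime : ∀ i, ((center hB.fibre i).map (algebraMap B L)).IsPrime ∧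
      ∀ z : B, algebraMap B L z ∈ (center hB.fibre i).map (algebraMap B L) → z ∈ center hB.fibre i := by
    intro i
    have hd : Disjoint (m.primeCompl : Set B) (center hB.fibre i : Set B) :=
      Set.disjoint_left.mpr fun z hz hzQ => hz (hn.centre i z (mem_center.mp hzQ))
    refine ⟨IsLocalization.isPrime_of_isPrime_disjoint m.primeCompl L _ inferInstance hd,
      fun z hz => ?_⟩
    rw [← IsLocalization.under_map_of_isPrime_disjoint m.primeCompl L
      (center_isPrime (hf := hB.fibre) i) hd]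
    exact hz
  refine HasFormAt.of_localization (L := L) m (hasFormAt_node_grade h.prime.pos h.e_pos hmax hxy hx0
    ⟨_, (hprime true).1, Ideal.mem_map_of_mem _ (mem_center.mpr hn.x_true), fun hy => hn.y_true ?_⟩
    ⟨_, (hprime false).1, Ideal.mul_mem_right _ _ (Ideal.mem_map_of_mem _
      (mem_center.mpr hn.y_false)), fun hx => hn.x_false (mem_center.mp ((hprime false).2 x hx))⟩
    hf (hasRootAt_localization m hoff))
  have h2 := Ideal.mul_mem_right (uu : L) _ hy
  rw [hY, mul_assoc, Units.inv_mul, mul_one] at h2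
  exact mem_center.mp ((hprime true).2 y h2)

/-- The orders in a form at a node. -/
theorem node_orders (hB : IsWildChart B w π P e F₀) {f : F} {V : Bool → ℤ} (hf : f ≠ 0)
    (hV : ∀ c, IsU (P c) (f / algebraMap O F π ^ V c)) {m : Ideal B} {x y u : B}
    (hn : IsNodeParam B π P e F₀ m x y u) {z : F} {a b : B} {i j : ℕ} (ha : a ∉ m) (hb : b ∉ m)
    (he : algebraMap B F (b * x ^ i * algebraMap O B π ^ j) * z ^ p = algebraMap B F a * f)
    {v : Bool → ℤ} (hv : ∀ c, IsU (P c) (z / algebraMap O F π ^ v c)) :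
    (j : ℤ) + p * v false = V false ∧ (e : ℤ) * i + j + p * v true = V true := by
  have hP0 := h.pi_ne_zero
  set Q := algebraMap O F π
  have hU : ∀ c (r : B), r ∉ m → IsU (P c) (r : F) := fun c r hr =>
    isU_of_notMem_center (hf := hB.fibre) fun h' => hr (hn.centre c r (mem_center.mp h'))
  have he' : (b : F) * (x : F) ^ i * Q ^ j * z ^ p = (a : F) * f := by
    have := he
    simp only [map_mul, map_pow] at this
    exact this
  have key : ∀ (c : Bool) (k : ℕ), IsU (P c) ((x : F) / Q ^ k) →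
      (k : ℤ) * i + j + p * v c = V c := by
    intro c k hxk
    have h1 : IsU (P c) ((b : F) * ((x : F) / Q ^ k) ^ i * (z / Q ^ v c) ^ p /
        ((a : F) * (f / Q ^ (V c)))) :=
      (((hU c b hb).mul (hxk.pow i)).mul ((hv c).pow p)).div ((hU c a ha).mul (hV c))
    have h2 : (b : F) * ((x : F) / Q ^ k) ^ i * (z / Q ^ v c) ^ p /
        ((a : F) * (f / Q ^ (V c))) =
        Q ^ (V c - ((k : ℤ) * i + j + p * v c)) := by
      have haf : (a : F) * f ≠ 0 := mul_ne_zero (hU c a ha).ne_zero hf
      rw [zpow_sub₀ hP0, zpow_add₀ hP0, zpow_add₀ hP0, div_pow, div_pow, ← pow_mul,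
        ← zpow_natCast Q (k * i), ← zpow_natCast (Q ^ v c) p, ← zpow_mul, zpow_natCast Q j,
        mul_comm (v c), Nat.cast_mul]
      have := zpow_ne_zero ((k : ℤ) * i) hP0
      have := zpow_ne_zero ((p : ℤ) * v c) hP0
      have := zpow_ne_zero (V c) hP0
      have := pow_ne_zero j hP0
      rw [mul_div_assoc' (a : F), ← he']
      have hz : (b : F) * (x : F) ^ i * Q ^ j * z ^ p ≠ 0 := he'.symm ▸ haf
      simp only [ne_eq, mul_eq_zero, not_or] at hz
      obtain ⟨⟨⟨_, _⟩, _⟩, _⟩ := hz
      field_simp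
    rw [h2] at h1
    have := h.eq_zero_of_isU_zpow c h1
    omega
  refine ⟨by simpa using key false 0 (by
    simpa using isU_of_notMem_center (hf := hB.fibre) (i := false) (b := x)
      fun h' => hn.x_false (mem_center.mp h')), key true e ?_⟩
  have hy : IsU (P true) (y : F) :=
    isU_of_notMem_center (hf := hB.fibre) fun h' => hn.y_true (mem_center.mp h')
  convert (hU true u hn.u_notMem).div hy using 1
  have hxy := congrArg Subtype.val hn.mul_eq
  simp only [MulMemClass.coe_mul, SubmonoidClass.coe_pow] at hxy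
  change (x : F) * (y : F) = Q ^ e * (u : F) at hxy
  have := hy.ne_zero
  field_simp
  linear_combination hxy

/-- Every point of the special fibre carries a form with fixed parameter. -/
theorem exists_form (hB : IsWildChart B w π P e F₀) {f : F} {n : Bool → ℤ}
    (hf : IsKummerOn B π P p f n) {m : Ideal B} (hm : m.IsMaximal) (hπ : algebraMap O B π ∈ m) :
    ∃ x : B, x ≠ 0 ∧ (x : F) ∈ F₀ ∧ HasFormAt B p x (algebraMap O B π) f m := by
  rcases hB.points m hm hπ with ⟨j, hj⟩ | ⟨x, y, u, hn⟩
  · obtain ⟨z, a, b, ha, hb, he⟩ := h.root_smooth hB hf hm hπ hj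
    exact ⟨1, fun h1 => one_ne_zero (congrArg Subtype.val h1), F₀.one_mem, z, a, b, 0, 0, ha, hb,
      by rw [pow_zero, pow_zero, mul_one, mul_one]; exact he⟩
  · exact ⟨x, fun h0 => hn.x_false (h0 ▸ (P false).nonunits.zero_mem), hn.fixed,
      h.form_node hB hf.ne_zero hf.off hm hn⟩

/-- Roots of `τ f / f` everywhere on a chart. -/
theorem root_tau_div (hB : IsWildChart B w π P e F₀) {τ : F →+* F} {b : ℕ} {β : O}
    (ha : IsWildAut M π F₀ τ b β) (hτ : TrivialMod B (π ^ (b + 1)) τ) {f : F} {n : Bool → ℤ}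
    (hf : IsKummerOn B π P p f n) {m : Ideal B} (hm : m.IsMaximal) :
    HasRootAt B p (τ f / f) m := by
  haveI := hm.isPrime
  obtain ⟨r, hr⟩ := ha.map_pi
  set v : O := 1 + β * π ^ b + π ^ (b + 1) * r with hv
  have hvu : IsUnit v := notMem_maximalIdeal.mp (by
    rw [h.irreducible.maximalIdeal_eq, Ideal.mem_span_singleton]
    rintro ⟨c, hc⟩
    obtain ⟨b', hb'⟩ : ∃ b', b = b' + 1 := ⟨b - 1, (Nat.sub_add_cancel ha.pos).symm⟩
    refine h.irreducible.not_isUnit (IsUnit.of_mul_eq_one (c - β * π ^ b' - π ^ b * r) ?_)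
    rw [hv, hb'] at hc
    rw [hb']
    linear_combination -hc)
  have hτπ : τ (algebraMap O F π) = algebraMap O F π * algebraMap O F v := by
    rw [hr, map_mul]
  by_cases hπ : algebraMap O B π ∈ m
  · obtain ⟨x, hx0, hx, hform⟩ := h.exists_form hB hf hm hπ
    refine hform.root_map_div hf.ne_zero (fun h0 => hx0 (Subtype.ext h0))
      (fun h0 => h.pi_ne_zero h0) (fun c hc h0 => hc (by
        rw [show c = 0 from Subtype.ext h0]; exact m.zero_mem))
      τ (fun c => ⟨⟨_, hτ.map_mem c.2⟩, rfl, fun hc h' => hc ?_⟩)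
      (ha.fix _ hx) ⟨algebraMap O B v, fun h' => hm.ne_top
        (Ideal.eq_top_of_isUnit_mem _ h' (hvu.map _)), hτπ⟩
    obtain ⟨d, hd, hde⟩ := hτ _ c.2
    rw [show c = ⟨_, hτ.map_mem c.2⟩ - algebraMap O B (π ^ (b + 1)) * ⟨d, hd⟩ from Subtype.ext (by
      show (c : F) = τ (c : F) - algebraMap O F (π ^ (b + 1)) * d
      rw [← Algebra.smul_def, ← hde, sub_sub_cancel])]
    exact sub_mem h' (m.mul_mem_right _ (by
      rw [map_pow]; exact Ideal.pow_mem_of_mem m hπ _ b.succ_pos))
  · let φ : B →+* B := (τ.comp B.val.toRingHom).codRestrict B fun c => hτ.map_mem c.2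
    have hQπ : algebraMap O B π ∉ m.comap φ := fun h' => by
      have h2 : algebraMap O B π * algebraMap O B v ∈ m := by
        rw [show algebraMap O B π * algebraMap O B v = φ (algebraMap O B π) from
          Subtype.ext hτπ.symm]
        exact h'
      exact (hm.isPrime.mem_or_mem h2).elim hπ
        fun h3 => hm.ne_top (Ideal.eq_top_of_isUnit_mem _ h3 (hvu.map _))
    obtain ⟨z, a, c, haQ, hcQ, he⟩ := h.root_off hB hf (hm.isPrime.comap φ) hQπ
    obtain ⟨z', a', c', ha', hc', he'⟩ := h.root_off hB hf hm.isPrime hπ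
    refine ⟨τ z / z', φ a * c', φ c * a', hm.isPrime.mul_notMem haQ hc',
      hm.isPrime.mul_notMem hcQ ha', ?_⟩
    change (c : F) * z ^ p = (a : F) * f at he
    change (c' : F) * z' ^ p = (a' : F) * f at he'
    have he2 := congrArg τ he
    rw [map_mul, map_mul, map_pow] at he2
    show τ (c : F) * (a' : F) * _ = τ (a : F) * (c' : F) * (τ f / f)
    have hz' : z' ^ p ≠ 0 := fun h0 => by
      rw [h0, mul_zero, eq_comm, mul_eq_zero] at he'
      exact he'.elim (fun h1 => ha' (by rw [show a' = 0 from Subtype.ext h1]; exact m.zero_mem))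
        hf.ne_zero
    have hf0 := hf.ne_zero
    rw [div_pow]
    field_simp
    linear_combination ((a' : F) * f) * he2 - (τ (a : F) * τ f) * he'

/-- `τ f / f` has roots everywhere. -/
theorem roots_tau_div {τ : F →+* F} {b : ℕ} {β : O} (ha : IsWildAut M π F₀ τ b β) {f : F}
    (hf : IsKummer M π P p f) : RootsEverywhere M p (τ f / f) := by
  obtain ⟨n, h0, h1⟩ := h.exists_kummer_orders hf
  exact ⟨fun m hm => h.root_tau_div h.chart₀ ha ha.trivial₀ h0 hm,
    fun m hm => h.root_tau_div h.chart₁ ha ha.trivial₁ h1 hm⟩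

/-- Exponent zero gives roots everywhere on a chart. -/
theorem root_of_expEq_zero (hB : IsWildChart B w π P e F₀) {f : F} {n : Bool → ℤ}
    (hf : IsKummerOn B π P p f n) (hs : ExpEq B π P e F₀ p f 0) {m : Ideal B} (hm : m.IsMaximal) :
    HasRootAt B p f m := by
  by_cases hπ : algebraMap O B π ∈ m
  swap
  · exact h.root_off hB hf hm.isPrime hπ
  rcases hB.points m hm hπ with ⟨j, hj⟩ | ⟨x, y, u, hn⟩
  · exact h.root_smooth hB hf hm hπ hj
  · obtain ⟨z, a, b, i, j, ha, hb, hi, he⟩ := hs m x y u hm hn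
    rw [Nat.zero_mod] at hi
    have hz0 : z ≠ 0 := by
      rintro rfl
      rw [zero_pow h.prime.pos.ne', mul_zero, eq_comm, mul_eq_zero] at he
      exact he.elim (fun h1 => ha (by rw [show a = 0 from Subtype.ext h1]; exact m.zero_mem))
        hf.ne_zero
    choose v hv using fun c => h.exists_order c hz0
    obtain ⟨hj, -⟩ := h.node_orders hB hf.ne_zero hf.order hn ha hb he hv
    obtain ⟨i', rfl⟩ := Nat.dvd_of_mod_eq_zero hi
    obtain ⟨j', rfl⟩ : p ∣ j := Int.natCast_dvd_natCast.mp
      ⟨n false - v false, by linear_combination hj⟩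
    refine ⟨algebraMap B F (x ^ i' * algebraMap O B π ^ j') * z, a, b, ha, hb, ?_⟩
    rw [← he, mul_pow, ← mul_assoc, ← map_pow, ← map_mul]
    congr 2
    ring

/-- A Kummer function of exponent zero at every node has roots everywhere. -/
theorem roots_of_expEq_zero {f : F} (hf : IsKummer M π P p f)
    (h₀ : ExpEq M.B₀ π P e F₀ p f 0) (h₁ : ExpEq M.B₁ π P e F₀ p f 0) : RootsEverywhere M p f := by
  obtain ⟨n, k0, k1⟩ := h.exists_kummer_orders hf
  exact ⟨fun m hm => h.root_of_expEq_zero h.chart₀ k0 h₀ hm,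
    fun m hm => h.root_of_expEq_zero h.chart₁ k1 h₁ hm⟩

end IsWildModel

end Fermat.Agent.Models
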