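/-
The exponents at the nodes agree when `τ f / f` is trivial modulo `π ^ p`.
-/
import Fermat.Agent.Models.Wild.Forms
import Fermat.Agent.Models.Wild.Trivial

set_option autoImplicit false
set_option linter.unusedSectionVars false

noncomputable section

namespace Fermat.Agent.Models

open IsLocalRing

namespace IsWildModel

variable {O F : Type} [CommRing O] [IsDomain O] [IsDiscreteValuationRing O] [Field F] [Algebra O F]
variable {M : Model O F} {π : O} {P : Bool → ValuationSubring F} {e p : ℕ} {F₀ : Subfield F}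
  (h : IsWildModel M π P e p F₀)

include h

/-- A multiple of `π` in the base is an integer multiple of `p`. -/
theorem dvd_of_pi_dvd {n : ℤ} (hn : π ∣ (n : O)) : (p : ℤ) ∣ n := by
  by_contra hnd
  obtain ⟨a, c, hac⟩ := (Nat.prime_iff_prime_int.mp h.prime).coprime_iff_not_dvd.mpr hnd
  refine h.irreducible.not_isUnit (isUnit_of_dvd_one ?_)
  obtain ⟨u, hu⟩ := h.natCast_eq
  have hp : π ∣ (p : O) := hu ▸ Dvd.dvd.mul_left (dvd_pow_self π h.e_pos.ne') _
  have := congrArg (fun k : ℤ => (k : O)) hac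
  simp only [Int.cast_add, Int.cast_mul, Int.cast_natCast, Int.cast_one] at this
  exact this ▸ dvd_add (Dvd.dvd.mul_left hp _) (Dvd.dvd.mul_left hn _)

theorem isU_of_near (i : Bool) {b : ℕ} (hb : 0 < b) {x : F} {t : O} (hx : Near π (P i) b x t) :
    IsU (P i) x := by
  have hd : x - 1 ∈ (P i).nonunits := by
    rw [← h.pDvd_one_iff i]
    have := (h.pDvd_mono i (Nat.succ_le_succ b.zero_le) hx).add
      (h.pDvd_algebraMap i (a := π ^ b * t) (Dvd.dvd.mul_right (pow_dvd_pow π hb) _))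
    simpa using this
  have hxP : x ∈ P i := by
    simpa using (P i).add_mem _ _ ((P i).nonunits_subset hd) (P i).one_mem
  exact ⟨hxP, by rw [(rs_eq_iff hxP (P i).one_mem).mpr hd, rs_one]; exact one_ne_zero⟩

variable {B : Subalgebra O F} {w : F}

/-- A root of `τ f / f` compared with the moved root in a form. -/
theorem exists_ratio (hB : IsWildChart B w π P e F₀) {τ : F →+* F} {b : ℕ} {β : O}
    (ha : IsWildAut M π F₀ τ b β) (hτ : TrivialMod B (π ^ (b + 1)) τ) {f : F} (hf : f ≠ 0)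
    {m : Ideal B} (hm : m.IsMaximal) (hπ : algebraMap O B π ∈ m) {x : B} (hx0 : x ≠ 0)
    (hx : (x : F) ∈ F₀) {z : F} {a c : B} {i j : ℕ} (hamem : a ∉ m) (hcm : c ∉ m)
    (he : algebraMap B F (c * x ^ i * algebraMap O B π ^ j) * z ^ p = algebraMap B F a * f)
    {r : F} (hr : r ^ p / (τ f / f) ∈ B) :
    z ≠ 0 ∧ ∃ D A : B, D ∉ m ∧ r * (D : F) = (A : F) * (τ z / z) := by
  obtain ⟨r', hr'⟩ := ha.map_pi
  set v : O := 1 + β * π ^ b + π ^ (b + 1) * r'
  have he' : (c : F) * (x : F) ^ i * algebraMap O F π ^ j * z ^ p = (a : F) * f := by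
    have := he
    simp only [map_mul, map_pow] at this
    exact this
  have ha0 : (a : F) ≠ 0 := fun h0 => hamem (by
    rw [show a = 0 from Subtype.ext h0]; exact m.zero_mem)
  have hz : z ≠ 0 := by
    rintro rfl
    rw [zero_pow h.prime.pos.ne', mul_zero, eq_comm, mul_eq_zero] at he'
    exact he'.elim ha0 hf
  refine ⟨hz, ?_⟩
  obtain ⟨d, hd, hde⟩ := hτ _ a.2
  set a' : B := ⟨τ (a : F), hτ.map_mem a.2⟩
  set c' : B := ⟨τ (c : F), hτ.map_mem c.2⟩
  have ha' : a' ∉ m := fun h' => hamem (by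
    rw [show a = a' - algebraMap O B (π ^ (b + 1)) * ⟨d, hd⟩ from Subtype.ext (by
      show (a : F) = τ (a : F) - algebraMap O F (π ^ (b + 1)) * d
      rw [← Algebra.smul_def, ← hde, sub_sub_cancel])]
    exact sub_mem h' (m.mul_mem_right _ (by
      rw [map_pow]; exact Ideal.pow_mem_of_mem m hπ _ b.succ_pos)))
  set D : B := c * a'
  set U : B := ⟨_, hr⟩
  set ρ := r * (D : F) * (z / τ z)
  have hρp : ρ ^ p = ((D ^ (p - 1) * (U * c' * a * algebraMap O B (v ^ j)) : B) : F) := by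
    have he2 := congrArg τ he'
    rw [map_mul, map_mul, map_mul, map_mul, map_pow, map_pow, map_pow, ha.fix _ hx, hr'] at he2
    have hτf : τ f ≠ 0 := (map_ne_zero τ).mpr hf
    have hτz : τ z ≠ 0 := (map_ne_zero τ).mpr hz
    have hx0' : (x : F) ≠ 0 := fun h0 => hx0 (Subtype.ext h0)
    have hτa : τ (a : F) ≠ 0 := (map_ne_zero τ).mpr ha0
    obtain ⟨p', hp'⟩ : ∃ p', p = p' + 1 := ⟨p - 1, (Nat.sub_add_cancel h.prime.pos).symm⟩
    simp only [ρ, D, U, a', c', hp', Nat.add_sub_cancel]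
    push_cast
    show _ = _ * (_ * _ * _ * algebraMap O F v ^ j)
    rw [hp'] at he' he2
    rw [map_mul] at he2
    have hcne : (c : F) ≠ 0 := fun h0 => hcm (by
      rw [show c = 0 from Subtype.ext h0]; exact m.zero_mem)
    simp only [mul_pow, div_pow]
    have hx' := pow_ne_zero i hx0'
    have hP' := pow_ne_zero j h.pi_ne_zero
    have hz' := pow_ne_zero (p' + 1) hz
    have hτz' := pow_ne_zero (p' + 1) hτz
    rw [mul_pow] at he2
    field_simp
    refine mul_right_cancel₀ (mul_ne_zero hx' hP') ?_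
    linear_combination ((c : F) ^ p' * τ (a : F) ^ (p' + 1) * τ f * r ^ (p' + 1)) * he' -
      (((c : F) * τ (a : F)) ^ p' * r ^ (p' + 1) * (a : F) * f) * he2
  have hρ : ρ ∈ B := rootClosed_of_isIntegral h.prime.pos hB.closed ρ (hρp ▸ Subtype.coe_prop _)
  refine ⟨D, ⟨ρ, hρ⟩, hm.isPrime.mul_notMem hcm ha', ?_⟩
  show r * (D : F) = r * (D : F) * (z / τ z) * (τ z / z)
  have := (map_ne_zero τ).mpr hz
  field_simp

/-- The section is regular modulo `π ^ (b + 1)` along each component. -/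
theorem locRegular_root (hB : IsWildChart B w π P e F₀) {τ : F →+* F} {b : ℕ} {β : O}
    (ha : IsWildAut M π F₀ τ b β) (hτ : TrivialMod B (π ^ (b + 1)) τ) {f : F} {n : Bool → ℤ}
    (hf : IsKummerOn B π P p f n) {r : F} (hr : r ^ p / (τ f / f) ∈ B) (k : Bool) {z : F}
    (hz : PDvd π (P k) (b + 1) (z - r)) : LocRegular B π (P k) (b + 1) z := by
  intro m hm hπ _
  obtain ⟨x, hx0, hx, h', a, c, i, j, ham, hcm, he⟩ := h.exists_form hB hf hm hπ
  obtain ⟨hh', D, A, hD, hDA⟩ := h.exists_ratio hB ha hτ hf.ne_zero hm hπ hx0 hx ham hcm he hr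
  obtain ⟨v, hv⟩ := h.exists_order k hh'
  refine ⟨D, hD, A * algebraMap O B (1 + π ^ b * ((v : O) * β)), ?_⟩
  have h1 := (hz.mul_mem (hB.fibre.le k _ D.2)).add
    ((h.near_tau k ha hv).mul_mem (hB.fibre.le k _ A.2))
  convert h1 using 1
  rw [MulMemClass.coe_mul]
  show _ - (A : F) * algebraMap O F (1 + _) = _
  rw [map_add, map_one]
  linear_combination hDA

/-- The constants along the two components at a node. -/
theorem node_congr (hB : IsWildChart B w π P e F₀) {τ : F →+* F} {b : ℕ} {β : O}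
    (ha : IsWildAut M π F₀ τ b β) (hτ : TrivialMod B (π ^ (b + 1)) τ) {f : F} {n : Bool → ℤ}
    (hf : IsKummerOn B π P p f n) {r : F} (hr : r ^ p / (τ f / f) ∈ B) {q : ℕ} (he : e = p * q)
    {c : Bool → O} (hc : ∀ k, PDvd π (P k) (b + 1) (r - algebraMap O F (c k)))
    {m : Ideal B} (hm : m.IsMaximal) {x y u : B}
    (hn : IsNodeParam B π P e F₀ m x y u) :
    ∃ (h' : F) (a g : B) (i j : ℕ), a ∉ m ∧ g ∉ m ∧
      algebraMap B F (g * x ^ i * algebraMap O B π ^ j) * h' ^ p = algebraMap B F a * f ∧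
      π ^ (b + 1) ∣ c false - c true -
        π ^ b * (β * c true * (((q * i : ℕ) : ℤ) - (n true - n false) : ℤ)) := by
  have hπ : algebraMap O B π ∈ m := hn.centre true _ (h.uniformizer true).1
  obtain ⟨h', a, g, i, j, ham, hgm, heq⟩ := h.form_node hB hf.ne_zero hf.off hm hn
  refine ⟨h', a, g, i, j, ham, hgm, heq, ?_⟩
  have hx0 : x ≠ 0 := fun h0 => hn.x_false (h0 ▸ (P false).nonunits.zero_mem)
  obtain ⟨hh', D, A, hD, hDA⟩ :=
    h.exists_ratio hB ha hτ hf.ne_zero hm hπ hx0 hn.fixed ham hgm heq hr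
  choose v hv using fun k => h.exists_order k hh'
  obtain ⟨h0, h1⟩ := h.node_orders hB hf.ne_zero hf.order hn ham hgm heq hv
  have hK : ∀ k, PDvd π (P k) (b + 1)
      ((A : F) - algebraMap O F (c k * (1 + π ^ b * -((v k : O) * β))) * (D : F)) := fun k => by
    have hnear := h.near_tau k ha (hv k)
    have hinv := h.near_inv k ha.pos hnear
    have hU := h.isU_of_near k ha.pos hinv
    have t1 := ((hc k).mul_mem (hB.fibre.le k _ D.2)).mul_mem hU.1
    have t2 := hinv.mul_mem ((P k).mul_mem _ _ (h.algebraMap_mem k (c k)) (hB.fibre.le k _ D.2))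
    have := t1.add t2
    convert this using 1
    have hw := (h.isU_of_near k ha.pos hnear).ne_zero
    have hA : (A : F) = r * (D : F) * (τ h' / h')⁻¹ := by rw [hDA, mul_inv_cancel_right₀ hw]
    rw [hA, map_mul, map_add, map_one]
    ring
  obtain ⟨s, hs⟩ := h.dvd_sub_of_node_mul hB.fibre hm hn A.2 hD (hK false) (hK true)
  have hv' : v false - v true = ((q * i : ℕ) : ℤ) - (n true - n false) := by
    refine mul_left_cancel₀ (by exact_mod_cast h.prime.pos.ne' : (p : ℤ) ≠ 0) ?_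
    rw [he] at h1
    push_cast at h1 ⊢
    linear_combination h0 - h1
  rw [← hv']
  obtain ⟨b', hb'⟩ : ∃ b', b = b' + 1 := ⟨b - 1, (Nat.sub_add_cancel ha.pos).symm⟩
  refine ⟨s + β * (v false : O) * π ^ b' *
    (β * ((v false : O) * c false - (v true : O) * c true) + π * s), ?_⟩
  rw [Int.cast_sub]
  rw [hb', pow_succ π b'] at hs
  rw [hb', pow_succ π b']
  simp only [pow_succ] at hs ⊢
  linear_combination (1 + β * (v false : O) * π ^ b' * π) * hs

/-- The exponent is constant along the nodes. -/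
theorem exists_exp_const {τ : F →+* F} {b : ℕ} {β : O} (ha : IsWildAut M π F₀ τ b β) {q : ℕ}
    (he : e = p * q) (hq : ¬ p ∣ q) (hb : b < p) {f : F} (hf : IsKummer M π P p f)
    (ht : Triv M π p (τ f / f) p) :
    ∃ s, ExpEq M.B₀ π P e F₀ p f s ∧ ExpEq M.B₁ π P e F₀ p f s := by
  obtain ⟨n, k0, k1⟩ := h.exists_kummer_orders hf
  obtain ⟨r₀, r₁, hr⟩ := ht
  obtain ⟨d, hd, hde⟩ := hr.close
  have hgU : ∀ k, IsU (P k) (τ f / f) := fun k =>
    h.isU_of_near k ha.pos (h.near_tau k ha (k0.order k))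
  have hdP : ∀ k, d ∈ P k := fun k => mem_of_pow_mem h.prime.pos (by
    have := (P k).mul_mem _ _ (h.overlap_le k hd) (hgU k).1
    rwa [div_mul_cancel₀ _ (hgU k).ne_zero] at this)
  have h01 : ∀ k, PDvd π (P k) (b + 1) (r₀ - r₁) := fun k =>
    h.pDvd_mono k hb ⟨d, hdP k, hde⟩
  have hr0U : ∀ k, IsU (P k) r₀ := fun k => isU_of_pow h.prime.pos (by
    have h1 : IsU (P k) (r₀ ^ p / (τ f / f)) := ⟨h.chart₀.fibre.le k _ hr.gen₀.1, fun h0 =>
      h.notMem_nonunits_of_gen h.chart₀.fibre.le hr.gen₀ k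
        ((rs_eq_zero (h.chart₀.fibre.le k _ hr.gen₀.1)).mp h0)⟩
    have := h1.mul (hgU k)
    rwa [div_mul_cancel₀ _ (hgU k).ne_zero] at this)
  have hbe : b + 1 ≤ e := by
    rcases Nat.eq_zero_or_pos q with rfl | hq0
    · exact absurd (dvd_zero p) hq
    · calc b + 1 ≤ p := hb
        _ ≤ p * q := Nat.le_mul_of_pos_right p hq0
        _ = e := he.symm
  have hz0 : ∀ k, PDvd π (P k) (b + 1) (r₀ - r₀) := fun k => by
    rw [sub_self]; exact ⟨0, (P k).zero_mem, by rw [smul_zero]⟩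
  choose c hc using fun k => h.exists_const_pow k (b + 1) hbe (hr0U k).1
    (h.locRegular_root h.chart₀ ha ha.trivial₀ k0 hr.gen₀.1 k (hz0 k))
    (h.locRegular_root h.chart₁ ha ha.trivial₁ k1 hr.gen₁.1 k (h01 k))
  have hc1 : ∀ k, PDvd π (P k) (b + 1) (r₁ - algebraMap O F (c k)) := fun k => by
    have := (hc k).sub (h01 k)
    simpa using this
  have hcu : ¬ π ∣ c true := fun h0 => (hr0U true).2 ((rs_eq_zero (hr0U true).1).mpr (by
    rw [← h.pDvd_one_iff true]
    have := (h.pDvd_mono true (Nat.succ_le_succ b.zero_le) (hc true)).add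
      (h.pDvd_algebraMap true (k := 1) (a := c true) (by rwa [pow_one]))
    simpa using this))
  obtain ⟨m₀, hm₀, x₀, y₀, u₀, hn₀⟩ := h.exists_node
  obtain ⟨h₀', a₀, g₀, s, j₀, -, -, -, hs₀⟩ :=
    h.node_congr h.chart₀ ha ha.trivial₀ k0 hr.gen₀.1 he hc hm₀ hn₀
  have key : ∀ i : ℕ, π ^ (b + 1) ∣ c false - c true -
      π ^ b * (β * c true * (((q * i : ℕ) : ℤ) - (n true - n false) : ℤ)) → i % p = s % p := by
    intro i hi
    have h1 := dvd_sub hs₀ hi
    rw [show c false - c true - π ^ b * (β * c true * (((q * s : ℕ) : ℤ) - (n true - n false) : ℤ)) -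
        (c false - c true - π ^ b * (β * c true * (((q * i : ℕ) : ℤ) - (n true - n false) : ℤ))) =
        π ^ b * (β * c true * (((q : ℤ) * ((i : ℤ) - s) : ℤ) : O)) by push_cast; ring,
      pow_succ, mul_dvd_mul_iff_left (pow_ne_zero _ h.irreducible.ne_zero)] at h1
    have h2 := ((IsUnit.dvd_mul_left (ha.unit.mul
      (notMem_maximalIdeal.mp (by
        rw [h.irreducible.maximalIdeal_eq, Ideal.mem_span_singleton]; exact hcu)))).mp h1)
    rcases (Nat.prime_iff_prime_int.mp h.prime).dvd_or_dvd (h.dvd_of_pi_dvd h2) with h3 | h3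
    · exact absurd (Int.natCast_dvd_natCast.mp h3) hq
    · exact ((Nat.modEq_iff_dvd.mpr h3).symm)
  refine ⟨s, fun m x y u hm hn => ?_, fun m x y u hm hn => ?_⟩
  · obtain ⟨h', a, g, i, j, ham, hgm, heq, hi⟩ :=
      h.node_congr h.chart₀ ha ha.trivial₀ k0 hr.gen₀.1 he hc hm hn
    exact ⟨h', a, g, i, j, ham, hgm, key i hi, heq⟩
  · obtain ⟨h', a, g, i, j, ham, hgm, heq, hi⟩ :=
      h.node_congr h.chart₁ ha ha.trivial₁ k1 hr.gen₁.1 he hc1 hm hn
    exact ⟨h', a, g, i, j, ham, hgm, key i hi, heq⟩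

end IsWildModel

end Fermat.Agent.Models
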