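/-
The endgames on a wild model: exponents, scaling, and the vanishing of classes.
-/
import Fermat.Agent.Models.Wild.Exponent
import Fermat.Agent.Models.Wild.Split
import Fermat.Agent.Models.Wild.Branch

set_option autoImplicit false
set_option linter.unusedSectionVars false

noncomputable section

namespace Fermat.Agent.Models

open IsLocalRing

namespace IsWildModel

variable {O F : Type} [CommRing O] [IsDomain O] [IsDiscreteValuationRing O] [Field F] [Algebra O F]
variable {M : Model O F} {π : O} {P : Bool → ValuationSubring F} {e p : ℕ} {F₀ : Subfield F}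
  (h : IsWildModel M π P e p F₀)

include h

/-- When `p` does not divide `e` the orders fix the exponent. -/
theorem exists_exp_const_unit (hpe : ¬ p ∣ e) {f : F} (hf : f ≠ 0)
    (hoff₀ : ∀ Q : Ideal M.B₀, Q.IsPrime → Q ≠ ⊥ → algebraMap O M.B₀ π ∉ Q → HasRootAt M.B₀ p f Q)
    (hoff₁ : ∀ Q : Ideal M.B₁, Q.IsPrime → Q ≠ ⊥ → algebraMap O M.B₁ π ∉ Q →
      HasRootAt M.B₁ p f Q) :
    ∃ s, ExpEq M.B₀ π P e F₀ p f s ∧ ExpEq M.B₁ π P e F₀ p f s := by
  choose V hV using fun k => h.exists_order k hf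
  have key : ∀ {B : Subalgebra O F} {w : F}, IsWildChart B w π P e F₀ →
      (∀ Q : Ideal B, Q.IsPrime → Q ≠ ⊥ → algebraMap O B π ∉ Q → HasRootAt B p f Q) →
      ∀ {m : Ideal B} {x y u : B}, m.IsMaximal → IsNodeParam B π P e F₀ m x y u →
      ∃ (z : F) (a b : B) (i j : ℕ), a ∉ m ∧ b ∉ m ∧
        algebraMap B F (b * x ^ i * algebraMap O B π ^ j) * z ^ p = algebraMap B F a * f ∧
        (p : ℤ) ∣ (e : ℤ) * i - (V true - V false) := by
    intro B w hB hoff m x y u hm hn
    obtain ⟨z, a, b, i, j, ha, hb, he⟩ := h.form_node hB hf hoff hm hn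
    have hz : z ≠ 0 := by
      rintro rfl
      rw [zero_pow h.prime.pos.ne', mul_zero, eq_comm, mul_eq_zero] at he
      exact he.elim (fun h1 => ha (by rw [show a = 0 from Subtype.ext h1]; exact m.zero_mem)) hf
    choose v hv using fun k => h.exists_order k hz
    obtain ⟨h0, h1⟩ := h.node_orders hB hf hV hn ha hb he hv
    exact ⟨z, a, b, i, j, ha, hb, he, v false - v true, by linear_combination h1 - h0⟩
  obtain ⟨m₀, hm₀, x₀, y₀, u₀, hn₀⟩ := h.exists_node
  obtain ⟨-, -, -, s, -, -, -, -, hs⟩ := key h.chart₀ hoff₀ hm₀ hn₀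
  have hcong : ∀ i : ℕ, (p : ℤ) ∣ (e : ℤ) * i - (V true - V false) → i % p = s % p := fun i hi => by
    have h1 := dvd_sub hs hi
    rw [show (e : ℤ) * s - (V true - V false) - ((e : ℤ) * i - (V true - V false)) =
      (e : ℤ) * ((s : ℤ) - i) by ring] at h1
    rcases (Nat.prime_iff_prime_int.mp h.prime).dvd_or_dvd h1 with h2 | h2
    · exact absurd (Int.natCast_dvd_natCast.mp h2) hpe
    · exact Nat.modEq_iff_dvd.mpr h2
  refine ⟨s, fun m x y u hm hn => ?_, fun m x y u hm hn => ?_⟩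
  · obtain ⟨z, a, b, i, j, ha, hb, he, hi⟩ := key h.chart₀ hoff₀ hm hn
    exact ⟨z, a, b, i, j, ha, hb, hcong i hi, he⟩
  · obtain ⟨z, a, b, i, j, ha, hb, he, hi⟩ := key h.chart₁ hoff₁ hm hn
    exact ⟨z, a, b, i, j, ha, hb, hcong i hi, he⟩

/-- A power of the uniformiser makes both orders multiples of `p`. -/
theorem exists_scaling {f : F} (hf : f ≠ 0)
    (hoff₀ : ∀ Q : Ideal M.B₀, Q.IsPrime → Q ≠ ⊥ → algebraMap O M.B₀ π ∉ Q → HasRootAt M.B₀ p f Q)
    (hoff₁ : ∀ Q : Ideal M.B₁, Q.IsPrime → Q ≠ ⊥ → algebraMap O M.B₁ π ∉ Q →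
      HasRootAt M.B₁ p f Q)
    (hs : p ∣ e ∨ ExpEq M.B₀ π P e F₀ p f 0) :
    ∃ t : ℕ, IsKummer M π P p (algebraMap O F π ^ t * f) := by
  choose V hV using fun k => h.exists_order k hf
  obtain ⟨m, hm, x, y, u, hn⟩ := h.exists_node
  haveI := hm.isPrime
  have hdiv : (p : ℤ) ∣ V true - V false := by
    obtain ⟨z, a, b, i, j, ha, hb, he, hei⟩ : ∃ (z : F) (a b : M.B₀) (i j : ℕ), a ∉ m ∧ b ∉ m ∧
        algebraMap M.B₀ F (b * x ^ i * algebraMap O M.B₀ π ^ j) * z ^ p =
          algebraMap M.B₀ F a * f ∧ p ∣ e * i := by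
      rcases hs with hpe | hs
      · obtain ⟨z, a, b, i, j, ha, hb, he⟩ := h.form_node h.chart₀ hf hoff₀ hm hn
        exact ⟨z, a, b, i, j, ha, hb, he, hpe.mul_right i⟩
      · obtain ⟨z, a, b, i, j, ha, hb, hi, he⟩ := hs m x y u hm hn
        rw [Nat.zero_mod] at hi
        exact ⟨z, a, b, i, j, ha, hb, he, (Nat.dvd_of_mod_eq_zero hi).mul_left e⟩
    have hz : z ≠ 0 := by
      rintro rfl
      rw [zero_pow h.prime.pos.ne', mul_zero, eq_comm, mul_eq_zero] at he
      exact he.elim (fun h1 => ha (by rw [show a = 0 from Subtype.ext h1]; exact m.zero_mem)) hf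
    choose v hv using fun k => h.exists_order k hz
    obtain ⟨h0, h1⟩ := h.node_orders h.chart₀ hf hV hn ha hb he hv
    obtain ⟨c, hc⟩ := hei
    refine ⟨(c : ℤ) + v true - v false, ?_⟩
    have hc' : (e : ℤ) * i = p * c := by exact_mod_cast hc
    linear_combination h0 - h1 + hc'
  have hp : (0 : ℤ) < p := by exact_mod_cast h.prime.pos
  set t : ℕ := ((-V false) % (p : ℤ)).toNat
  have ht : (p : ℤ) ∣ (t : ℤ) + V false := by
    rw [Int.toNat_of_nonneg (Int.emod_nonneg _ hp.ne')]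
    exact ⟨-((-V false) / (p : ℤ)), by linear_combination Int.emod_def (-V false) (p : ℤ)⟩
  have htk : ∀ k, (p : ℤ) ∣ (t : ℤ) + V k := fun k => by
    cases k with
    | false => exact ht
    | true =>
      rw [show (t : ℤ) + V true = (t : ℤ) + V false + (V true - V false) by ring]
      exact dvd_add ht hdiv
  have hscale : ∀ {B : Subalgebra O F},
      (∀ Q : Ideal B, Q.IsPrime → Q ≠ ⊥ → algebraMap O B π ∉ Q → HasRootAt B p f Q) →
      ∀ Q : Ideal B, Q.IsPrime → Q ≠ ⊥ → algebraMap O B π ∉ Q →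
        HasRootAt B p (algebraMap O F π ^ t * f) Q := by
    intro B hoff Q hQ hQ0 hπ
    obtain ⟨z, a, b, ha, hb, he⟩ := hoff Q hQ hQ0 hπ
    refine ⟨z, a, algebraMap O B π ^ t * b, ha,
      hQ.mul_notMem (fun h' => hπ (hQ.mem_of_pow_mem _ h')) hb, ?_⟩
    rw [map_mul, map_pow, mul_assoc, he, mul_left_comm]
    rfl
  refine ⟨t, mul_ne_zero (pow_ne_zero _ h.pi_ne_zero) hf, hscale hoff₀, hscale hoff₁, fun k => ?_⟩
  obtain ⟨d, hd⟩ := htk k
  refine ⟨algebraMap O F π ^ d, ?_⟩
  convert (hV k).inv using 1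
  rw [← zpow_natCast (algebraMap O F π ^ d), ← zpow_mul, mul_comm d, ← hd,
    zpow_add₀ h.pi_ne_zero, zpow_natCast, inv_div]
  have := pow_ne_zero t h.pi_ne_zero
  field_simp

/-- The exponents do not change under scaling. -/
theorem expEq_scale {B : Subalgebra O F} {f : F} {s : ℕ} (t : ℕ)
    (hs : ExpEq B π P e F₀ p f s) : ExpEq B π P e F₀ p (algebraMap O F π ^ t * f) s := by
  intro m x y u hm hn
  obtain ⟨z, a, b, i, j, ha, hb, hi, he⟩ := hs m x y u hm hn
  refine ⟨z, a, b, i, j + t, ha, hb, hi, ?_⟩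
  rw [pow_add, ← mul_assoc, mul_left_comm (algebraMap B F a), ← he, map_mul, map_pow]
  show _ * algebraMap O F π ^ t * _ = _
  ring

/-- `τ f / f` is trivial modulo `π`. -/
theorem triv_tau_one {τ : F →+* F} {b : ℕ} {β : O} (ha : IsWildAut M π F₀ τ b β) {f : F}
    (hf : IsKummer M π P p f) : Triv M π p (τ f / f) 1 := by
  obtain ⟨n, h0, -⟩ := h.exists_kummer_orders hf
  refine h.triv_one (h.roots_tau_div ha hf) (T := fun _ => 1) fun i => ?_
  have hn := h.near_inv i ha.pos (h.near_tau i ha (h0.order i))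
  rw [← h.pDvd_one_iff i, one_pow, one_div]
  have := (h.pDvd_mono i (Nat.succ_le_succ b.zero_le) hn).add
    (h.pDvd_algebraMap i (k := 1) (a := π ^ b * -(((((p : ℤ) * n i) : ℤ) : O) * β))
      (Dvd.dvd.mul_right (pow_dvd_pow π ha.pos) _))
  simpa using this

theorem natCast_unit {k : ℕ} (hk : ¬ p ∣ k) : IsUnit (k : O) :=
  notMem_maximalIdeal.mp (by
    rw [h.irreducible.maximalIdeal_eq, Ideal.mem_span_singleton]
    exact fun hd => hk (Int.natCast_dvd_natCast.mp (h.dvd_of_pi_dvd (by rwa [Int.cast_natCast]))))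

/-- The classes of a function moved by `τ` by a constant times a power split below level `p`. -/
theorem split_of_fixed {τ : F →+* F} {b : ℕ} {β : O} (ha : IsWildAut M π F₀ τ b β) {g : F}
    (hg : g ≠ 0) (hfix : ∃ (c : O) (H : F), τ g / g = algebraMap O F c * H ^ p) {hn : 0 < p}
    {k : ℕ} (hk : 0 < k) (hkp : k < p) {δ r₀ r₁ : F} (hc : IsClass M hn π g k δ r₀ r₁) :
    δ ∈ M.splitSub π := by
  obtain ⟨c, H, he⟩ := hfix
  obtain ⟨r₀', r₁', hc'⟩ := h.isClass_tau ha hg hk hc
  exact h.splitSub_of_unit ((h.natCast_unit (Nat.not_dvd_of_pos_of_lt hk hkp)).mul ha.unit)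
    (h.split_of_eq_const_mul_pow (by omega) (div_ne_zero ((map_ne_zero τ).mpr hg) hg) he hc')

theorem triv_p_of_fixed {τ : F →+* F} {b : ℕ} {β : O} (ha : IsWildAut M π F₀ τ b β) {g : F}
    (hg : g ≠ 0) (hfix : ∃ (c : O) (H : F), τ g / g = algebraMap O F c * H ^ p)
    (h1 : Triv M π p g 1) : ∀ d, d < p → Triv M π p g (1 + d) := by
  intro d
  induction d with
  | zero => exact fun _ => h1
  | succ d ih =>
    intro hd
    obtain ⟨r₀, r₁, hr⟩ := ih (by omega)
    obtain ⟨δ, hc⟩ := hr.exists_class hg h.prime.pos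
    exact h.triv_succ (k := 1 + d) (by omega) hc
      (h.split_of_fixed ha hg hfix (k := 1 + d) (by omega) (by omega) hc)

/-- Constant exponent for a function whose translate by `τ` is fixed by `τ`. -/
theorem exists_exp_wild (he : e = p * (p - 1)) {τ : F →+* F} {b : ℕ} {β : O}
    (ha : IsWildAut M π F₀ τ b β) (hb : b < p) {f : F} (hf : IsKummer M π P p f)
    (hfix : ∃ (c : O) (H : F), τ (τ f / f) / (τ f / f) = algebraMap O F c * H ^ p) :
    ∃ s, ExpEq M.B₀ π P e F₀ p f s ∧ ExpEq M.B₁ π P e F₀ p f s := by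
  have hg : τ f / f ≠ 0 := div_ne_zero ((map_ne_zero τ).mpr hf.ne_zero) hf.ne_zero
  have hp := h.prime.two_le
  have ht := h.triv_p_of_fixed ha hg hfix (h.triv_tau_one ha hf) (p - 1) (by omega)
  rw [show 1 + (p - 1) = p by omega] at ht
  exact h.exists_exp_const ha he (Nat.not_dvd_of_pos_of_lt (by omega) (by omega)) hb hf ht

/-- The endgame: `τ f / f` is a constant times a power. -/
theorem root_tau_of_wild (he : e = p * (p - 1)) {τ : F →+* F} {b : ℕ} {β : O}
    (ha : IsWildAut M π F₀ τ b β) (hb : b < p) {f : F} (hf : IsKummer M π P p f)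
    (hfix : ∃ (c : O) (H : F), τ (τ f / f) / (τ f / f) = algebraMap O F c * H ^ p)
    (hroots : RootsEverywhere M p f) {T : Bool → F}
    (hT : ∀ i, T i ^ p / f - 1 ∈ (P i).nonunits) :
    ∃ (c : O) (H : F), c ≠ 0 ∧ H ≠ 0 ∧ H ^ p = algebraMap O F c * (τ f / f) := by
  have hf0 := hf.ne_zero
  have hg : τ f / f ≠ 0 := div_ne_zero ((map_ne_zero τ).mpr hf0) hf0
  have hp := h.prime.two_le
  have hn : 0 < p := h.prime.pos
  have hbp := ha.pos
  have hlow : ∀ d, d ≤ p - b → Triv M π p f (1 + d) := by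
    intro d
    induction d with
    | zero => exact fun _ => h.triv_one hroots hT
    | succ d ih =>
      intro hd
      obtain ⟨r₀, r₁, hr⟩ := ih (by omega)
      obtain ⟨δ, hc⟩ := hr.exists_class hf0 hn
      refine h.triv_succ (k := 1 + d) (by omega) hc ?_
      obtain ⟨r₀', r₁', hc'⟩ := h.isClass_tau ha hf0 (by omega) hc
      have hku : IsUnit (((1 + d : ℕ) : O) * β) :=
        (h.natCast_unit (Nat.not_dvd_of_pos_of_lt (by omega) (by omega))).mul ha.unit
      rcases lt_or_eq_of_le (show 1 + d + b ≤ p by omega) with hlt | heq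
      · exact h.splitSub_of_unit hku (h.split_of_fixed ha hg hfix (by omega) hlt hc')
      · obtain ⟨k', hk'⟩ : ∃ k', p = (1 + d) + k' + 1 := ⟨p - (1 + d) - 1, by omega⟩
        have hpow : δ ^ p ∈ M.splitSub π := h.split_pow (by omega) (by
          rw [he]
          calc p * (1 + d) ≤ p * (p - 1) := Nat.mul_le_mul_left p (by omega)
            _ < p * (p - 1) + (1 + d) := by omega) hc
        rw [heq] at hc'
        obtain ⟨ν, hν, hcrit⟩ := h.split_crit hn (by
          rw [he, Nat.mul_sub_one, Nat.sub_add_cancel (Nat.le_mul_self p)]) hc'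
        refine h.splitSub_of_unit (hν.mul hku) ?_
        have := sub_mem hcrit ((M.splitSub π).smul_mem ((((1 + d : ℕ) : O) * β) ^ p) hpow)
        rw [Algebra.smul_def, map_pow, mul_pow, add_sub_cancel_left, ← mul_assoc, ← map_mul] at this
        exact this
  obtain ⟨r₀, r₁, hr⟩ := hlow (p - b) le_rfl
  obtain ⟨δ, hc⟩ := hr.exists_class hf0 hn
  obtain ⟨r₀', r₁', hc'⟩ := h.isClass_tau ha hf0 (by omega) hc
  rw [show 1 + (p - b) + b = p + 1 by omega] at hc'
  refine h.exists_root_of_triv hg (h.roots_tau_div ha hf).1 p.succ_pos ?_ hc'.triv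
  rw [he, Nat.succ_eq_add_one, mul_add, mul_one, Nat.mul_sub_one]
  have := Nat.le_mul_self p
  omega

/-- Small ramification: roots everywhere and power reductions give a constant times a power. -/
theorem root_of_small (he : e + 1 < p) {f : F} (hroots : RootsEverywhere M p f) {T : Bool → F}
    (hT : ∀ i, T i ^ p / f - 1 ∈ (P i).nonunits) :
    ∃ (c : O) (H : F), c ≠ 0 ∧ H ≠ 0 ∧ H ^ p = algebraMap O F c * f := by
  have hf : f ≠ 0 := fun h0 => by
    have := hT true
    rw [h0, div_zero, zero_sub, ValuationSubring.mem_nonunits_iff, Valuation.map_neg, map_one] at this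
    exact lt_irrefl _ this
  exact h.exists_root_of_triv hf hroots.1 one_pos (by omega) (h.triv_one hroots hT)

end IsWildModel

end Fermat.Agent.Models
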