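/-
Power reductions along both components give exponent zero at the crossings and, after scaling, a
trivialisation modulo the uniformiser.
-/
import Fermat.Agent.Models.Wild.Endgame

set_option autoImplicit false
set_option linter.unusedSectionVars false

noncomputable section

namespace Fermat.Agent.Models

open IsLocalRing

namespace IsWildModel

variable {O F : Type} [CommRing O] [IsDomain O] [IsDiscreteValuationRing O] [Field F] [Algebra O F]
variable {M : Model O F} {π : O} {P : Bool → ValuationSubring F} {e p : ℕ} {F₀ : Subfield F}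
  (h : IsWildModel M π P e p F₀)

include h

theorem isU_of_sub_one (i : Bool) {z : F} (hz : z - 1 ∈ (P i).nonunits) : IsU (P i) z := by
  have hzP : z ∈ P i := by
    simpa using (P i).add_mem _ _ ((P i).nonunits_subset hz) (P i).one_mem
  exact ⟨hzP, by rw [(rs_eq_iff hzP (P i).one_mem).mpr hz, rs_one]; exact one_ne_zero⟩

/-- A `p`-th power along a branch has exponent divisible by `p` in the parameter of the branch. -/
theorem expEq_zero_chart {B : Subalgebra O F} {w : F} (hB : IsWildChart B w π P e F₀) {f : F}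
    (hf : f ≠ 0)
    (hoff : ∀ Q : Ideal B, Q.IsPrime → Q ≠ ⊥ → algebraMap O B π ∉ Q → HasRootAt B p f Q)
    {n : Bool → ℤ} {T : Bool → F}
    (hT : ∀ i, T i ^ p / (f / algebraMap O F π ^ n i) - 1 ∈ (P i).nonunits) :
    ExpEq B π P e F₀ p f 0 := by
  intro m x y u hm hn
  haveI := hB.fibre.noetherian
  haveI := hm.isPrime
  obtain ⟨z, a, b, i, j, ha, hb, he⟩ := h.form_node hB hf hoff hm hn
  refine ⟨z, a, b, i, j, ha, hb, ?_, he⟩
  rw [Nat.zero_mod]
  set Q := algebraMap O F π
  have hQ0 : Q ≠ 0 := h.pi_ne_zero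
  have hp := h.prime.pos
  have hU : ∀ k, IsU (P k) (T k ^ p / (f / Q ^ n k)) := fun k => h.isU_of_sub_one k (hT k)
  have hT0 : ∀ k, T k ≠ 0 := fun k h0 =>
    (hU k).ne_zero (by rw [h0, zero_pow hp.ne', zero_div])
  obtain ⟨W, hW⟩ : ∃ W : Bool → ℤ, ∀ k, IsU (P k) (T k / Q ^ W k) :=
    ⟨_, fun k => (h.exists_order k (hT0 k)).choose_spec⟩
  have hV : ∀ k, IsU (P k) (f / Q ^ (n k + (p : ℤ) * W k)) := fun k => by
    convert ((hW k).pow p).div (hU k) using 1
    have := zpow_ne_zero (W k) hQ0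
    have := zpow_ne_zero (n k) hQ0
    have := pow_ne_zero p (hT0 k)
    rw [zpow_add₀ hQ0, mul_comm (p : ℤ), zpow_mul, zpow_natCast, div_pow]
    field_simp
  have hz0 : z ≠ 0 := by
    rintro rfl
    rw [zero_pow hp.ne', mul_zero, eq_comm, mul_eq_zero] at he
    exact he.elim (fun h1 => ha (by rw [show a = 0 from Subtype.ext h1]; exact m.zero_mem)) hf
  choose v hv using fun k => h.exists_order k hz0
  obtain ⟨hj, -⟩ := h.node_orders hB hf hV hn ha hb he hv
  -- the residue identity along the branch where `x` is the parameter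
  set G := z / Q ^ v false * (Q ^ W false / T false) with hG
  have hGU : IsU (P false) G := by
    have := (hv false).div (hW false)
    convert this using 1
    rw [hG, div_div_eq_mul_div, mul_div_assoc]
  have he' : (b : F) * (x : F) ^ i * Q ^ j * z ^ p = (a : F) * f := by
    have := he
    simp only [map_mul, map_pow] at this
    exact this
  have hid : (b : F) * (x : F) ^ i * G ^ p * (T false ^ p / (f / Q ^ n false)) = (a : F) := by
    rw [hG, mul_pow, div_pow, div_pow, div_div_eq_mul_div, ← zpow_natCast (Q ^ v false) p,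
      ← zpow_natCast (Q ^ W false) p, ← zpow_mul, ← zpow_mul]
    have hj' : n false = (j : ℤ) + v false * p - W false * p := by linear_combination -hj
    rw [hj', zpow_sub₀ hQ0, zpow_add₀ hQ0, zpow_natCast]
    have := zpow_ne_zero (v false * p) hQ0
    have := zpow_ne_zero (W false * p) hQ0
    have := pow_ne_zero p (hT0 false)
    field_simp
    linear_combination he'
  obtain ⟨num, den, hden, hnd⟩ := hB.frac false G hGU.1
  have hdenc : den ∉ center hB.fibre false := fun h' => hden (mem_center.mp h')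
  have hnumc : num ∉ center hB.fibre false := fun h' => by
    have h1 := hGU.mul (isU_of_notMem_center (hf := hB.fibre) hdenc)
    rw [hnd] at h1
    exact h1.2 (rs_of_mem_center h')
  have hc : b * x ^ i * num ^ p - a * den ^ p ∈ center hB.fibre false := by
    refine mem_center.mpr ((h.pDvd_one_iff false).mp ?_)
    have h1 := ((h.pDvd_one_iff false).mpr (hT false)).mul_mem
      ((P false).mul_mem _ _ ((P false).mul_mem _ _ ((P false).mul_mem _ _ (hB.fibre.le false _ b.2)
        (pow_mem (hB.fibre.le false _ x.2) i)) (pow_mem hGU.1 p))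
        (pow_mem (hB.fibre.le false _ den.2) p))
    have h2 := h1.neg
    convert h2 using 1
    push_cast
    rw [← hnd, ← hid]
    ring
  have hcm : center hB.fibre false ≤ m := fun c hc => hn.centre false c (mem_center.mp hc)
  have hgen : ∀ c ∈ m, ∃ s ∉ m, s * c ∈ Ideal.span {x} ⊔ center hB.fibre false := fun c hc' => by
    obtain ⟨s, hs, hsc⟩ := hn.gen c hc'
    refine ⟨s, hs, (Ideal.span_le.mpr ?_) hsc⟩
    rintro _ (rfl | rfl | rfl)
    · exact Submodule.mem_sup_left (Ideal.mem_span_singleton_self _)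
    · exact Submodule.mem_sup_right (mem_center.mpr hn.y_false)
    · exact Submodule.mem_sup_right (mem_center.mpr (h.uniformizer false).1)
  obtain ⟨α, s, hs, c, hcn, hsc⟩ := exists_monomial_branch hcm hn.x_mem hgen num hnumc
  obtain ⟨β, s', hs', c', hcd, hsc'⟩ := exists_monomial_branch hcm hn.x_mem hgen den hdenc
  set φ := Ideal.Quotient.mk (center hB.fibre false)
  have e0 : φ b * φ x ^ i * φ num ^ p = φ a * φ den ^ p := by
    simp only [← map_pow, ← map_mul]
    exact Ideal.Quotient.eq.mpr hc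
  have en : φ s * φ num = φ c * φ x ^ α := by
    simp only [← map_pow, ← map_mul]
    exact Ideal.Quotient.eq.mpr hsc
  have ed : φ s' * φ den = φ c' * φ x ^ β := by
    simp only [← map_pow, ← map_mul]
    exact Ideal.Quotient.eq.mpr hsc'
  have e1 : φ (b * s' ^ p * c ^ p) * φ x ^ (i + p * α) =
      φ (a * s ^ p * c' ^ p) * φ x ^ (p * β) := by
    simp only [map_mul, map_pow]
    calc φ b * φ s' ^ p * φ c ^ p * φ x ^ (i + p * α)
        = φ s' ^ p * φ b * φ x ^ i * (φ c * φ x ^ α) ^ p := by rw [pow_add, mul_comm p, pow_mul]; ring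
      _ = φ s' ^ p * φ s ^ p * (φ b * φ x ^ i * φ num ^ p) := by rw [← en]; ring
      _ = φ s ^ p * φ a * (φ s' * φ den) ^ p := by rw [e0]; ring
      _ = _ := by rw [ed, mul_comm p β, pow_mul]; ring
  have hx0 : φ x ≠ 0 := fun h0 =>
    hn.x_false (mem_center.mp (Ideal.Quotient.eq_zero_iff_mem.mp h0))
  have hpow : ∀ {r : B}, r ∉ m → r ^ p ∉ m := fun hr h' => hr (hm.isPrime.mem_of_pow_mem _ h')
  have key : ∀ (A A' : B) (k l : ℕ), A ∉ m → φ A * φ x ^ k = φ A' * φ x ^ l → ¬ k < l := by
    intro A A' k l hA heq hlt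
    obtain ⟨d, rfl⟩ := Nat.exists_eq_add_of_lt hlt
    rw [add_assoc, pow_add, mul_comm (φ x ^ k) (φ x ^ (d + 1)), ← mul_assoc] at heq
    have h2 := mul_right_cancel₀ (pow_ne_zero _ hx0) heq
    rw [← map_pow, ← map_mul] at h2
    refine hA ?_
    have h3 := add_mem (hcm (Ideal.Quotient.eq.mp h2))
      (m.mul_mem_left A' (Ideal.pow_mem_of_mem m hn.x_mem (d + 1) d.succ_pos))
    rwa [sub_add_cancel] at h3
  have heq : i + p * α = p * β := by
    refine le_antisymm (not_lt.mp (key _ _ _ _ ?_ e1.symm)) (not_lt.mp (key _ _ _ _ ?_ e1))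
    · exact hm.isPrime.mul_notMem (hm.isPrime.mul_notMem ha (hpow hs)) (hpow hcd)
    · exact hm.isPrime.mul_notMem (hm.isPrime.mul_notMem hb (hpow hs')) (hpow hcn)
  exact Nat.mod_eq_zero_of_dvd ((Nat.dvd_add_left (dvd_mul_right p α)).mp
    (heq ▸ dvd_mul_right p β))

/-- Power reductions on both components give exponent zero on both charts. -/
theorem expEq_zero {f : F} (hf : f ≠ 0)
    (hoff₀ : ∀ Q : Ideal M.B₀, Q.IsPrime → Q ≠ ⊥ → algebraMap O M.B₀ π ∉ Q → HasRootAt M.B₀ p f Q)
    (hoff₁ : ∀ Q : Ideal M.B₁, Q.IsPrime → Q ≠ ⊥ → algebraMap O M.B₁ π ∉ Q →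
      HasRootAt M.B₁ p f Q)
    {n : Bool → ℤ} {T : Bool → F}
    (hT : ∀ i, T i ^ p / (f / algebraMap O F π ^ n i) - 1 ∈ (P i).nonunits) :
    ExpEq M.B₀ π P e F₀ p f 0 ∧ ExpEq M.B₁ π P e F₀ p f 0 :=
  ⟨h.expEq_zero_chart h.chart₀ hf hoff₀ hT, h.expEq_zero_chart h.chart₁ hf hoff₁ hT⟩

/-- Power reductions on both components give, after scaling, roots everywhere and a trivialisation
modulo the uniformiser. -/
theorem exists_triv_one {f : F} (hf : f ≠ 0)
    (hoff₀ : ∀ Q : Ideal M.B₀, Q.IsPrime → Q ≠ ⊥ → algebraMap O M.B₀ π ∉ Q → HasRootAt M.B₀ p f Q)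
    (hoff₁ : ∀ Q : Ideal M.B₁, Q.IsPrime → Q ≠ ⊥ → algebraMap O M.B₁ π ∉ Q →
      HasRootAt M.B₁ p f Q)
    {n : Bool → ℤ} {T : Bool → F}
    (hT : ∀ i, T i ^ p / (f / algebraMap O F π ^ n i) - 1 ∈ (P i).nonunits) :
    ∃ t : ℕ, RootsEverywhere M p (algebraMap O F π ^ t * f) ∧
      Triv M π p (algebraMap O F π ^ t * f) 1 := by
  obtain ⟨h0, h1⟩ := h.expEq_zero hf hoff₀ hoff₁ hT
  obtain ⟨t, ht⟩ := h.exists_scaling hf hoff₀ hoff₁ (Or.inr h0)
  have hr := h.roots_of_expEq_zero ht (h.expEq_scale t h0) (h.expEq_scale t h1)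
  obtain ⟨N, hN, -⟩ := h.exists_kummer_orders ht
  have hP0 := h.pi_ne_zero
  have hTU : ∀ i, IsU (P i) (T i ^ p / (f / algebraMap O F π ^ n i)) := fun i =>
    h.isU_of_sub_one i (hT i)
  have hT0 : ∀ i, T i ≠ 0 := fun i h0' =>
    (hTU i).ne_zero (by rw [h0', zero_pow h.prime.pos.ne', zero_div])
  choose W hW using fun i => h.exists_order i (hT0 i)
  have hdiv : ∀ i, ∃ d : ℤ, (t : ℤ) + n i = p * d := fun i => by
    have h2 := (((hN.order i).mul (hTU i)).div ((hW i).pow p))
    rw [show algebraMap O F π ^ t * f / algebraMap O F π ^ ((p : ℤ) * N i) *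
        (T i ^ p / (f / algebraMap O F π ^ n i)) / (T i / algebraMap O F π ^ W i) ^ p =
        algebraMap O F π ^ ((t : ℤ) - p * N i + n i + W i * p) by
      rw [div_pow, ← zpow_natCast (algebraMap O F π ^ W i) p, ← zpow_mul, zpow_add₀ hP0,
        zpow_add₀ hP0, zpow_sub₀ hP0, zpow_natCast]
      have := zpow_ne_zero (n i) hP0
      have := zpow_ne_zero ((p : ℤ) * N i) hP0
      have := zpow_ne_zero (W i * p) hP0
      have := pow_ne_zero p (hT0 i)
      field_simp] at h2
    exact ⟨N i - W i, by linear_combination h.eq_zero_of_isU_zpow i h2⟩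
  choose d hd using hdiv
  refine ⟨t, hr, h.triv_one hr (T := fun i => T i * algebraMap O F π ^ d i) fun i => ?_⟩
  convert hT i using 2
  rw [mul_pow, ← zpow_natCast (algebraMap O F π ^ d i) p, ← zpow_mul, mul_comm (d i), ← hd,
    zpow_add₀ hP0, zpow_natCast]
  have := pow_ne_zero t hP0
  have := zpow_ne_zero (n i) hP0
  field_simp

end IsWildModel

end Fermat.Agent.Models
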