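import Mathlib.RingTheory.Valuation.ValuationSubring
import Mathlib.RingTheory.Valuation.LocalSubring
import Mathlib.RingTheory.Int.Basic
import Mathlib.FieldTheory.IsAlgClosed.Basic

/-!
Divisibility by `p` of a value below from a tame extension of valuations.
-/

set_option autoImplicit false
set_option linter.style.haveILetI false

noncomputable section

namespace Fermat.Agent.Models

open IsLocalRing

/-- A valuation ring extends along a map of fields. -/
theorem exists_comap_eq {F K : Type*} [Field F] [Field K] (ι : F →+* K) (V : ValuationSubring F) :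
    ∃ Wv : ValuationSubring K, Wv.comap ι = V := by
  obtain ⟨Wv, hV, hloc⟩ := IsLocalRing.exists_factor_valuationRing (R := V) (ι.comp V.subtype)
  refine ⟨Wv, le_antisymm (fun x hx => ?_) fun x hx => hV ⟨x, hx⟩⟩
  by_contra hn
  have hx0 : x ≠ 0 := fun h => hn (h ▸ zero_mem V)
  have hi : x⁻¹ ∈ V := (V.mem_or_inv_mem x).resolve_left hn
  have hu : IsUnit ((ι.comp V.subtype).codRestrict Wv.toSubring hV ⟨x⁻¹, hi⟩) := by
    refine IsUnit.of_mul_eq_one ⟨ι x, hx⟩ (Subtype.ext ?_)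
    show ι x⁻¹ * ι x = 1
    rw [← map_mul, inv_mul_cancel₀ hx0, map_one]
  obtain ⟨u, hu'⟩ := ((hloc.map_nonunit _ hu).exists_right_inv)
  refine hn ?_
  have : x⁻¹ * (u : F) = 1 := congrArg Subtype.val hu'
  rw [show x = (u : F) from (inv_inv x).symm.trans (inv_eq_of_mul_eq_one_right this)]
  exact u.2

/-- If upstairs the value is a `p`-th power of a value, values form a cyclic group, and some value
from below has exponent prime to `p`, then downstairs the value is a `p`-th power of a value. -/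
theorem exists_pow_mul_unit {F K : Type*} [Field F] [Field K] (ι : F →+* K)
    (Wv : ValuationSubring K) {p : ℕ} (hp : p.Prime) {u : K} (hu : u ≠ 0)
    (hu1 : Wv.valuation u < 1) (hgen : ∀ x : K, x ≠ 0 → ∃ n : ℤ, Wv.valuation x = Wv.valuation u ^ n)
    {y : F} {n : ℕ} (hn : ¬ p ∣ n) (hy : Wv.valuation (ι y) = Wv.valuation u ^ n)
    {h : F} {z : K} (hz : z ≠ 0) (hhz : Wv.valuation (ι h) = Wv.valuation z ^ p) :
    ∃ t : F, t ≠ 0 ∧ h * t ^ p ∈ Wv.comap ι ∧ (h * t ^ p)⁻¹ ∈ Wv.comap ι := by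
  obtain ⟨j, hj⟩ := hgen z hz
  set g := Wv.valuation u
  have hg : g ≠ 0 := (_root_.map_ne_zero _).mpr hu
  obtain ⟨a, b, hab⟩ : ∃ a b : ℤ, a * p + b * n = 1 :=
    ((hp.coprime_iff_not_dvd.mpr hn).isCoprime)
  have hι : ∀ x : F, ι x ≠ 0 → x ≠ 0 := fun x hx h0 => hx (h0 ▸ map_zero ι)
  have hy0 : y ≠ 0 := hι y fun h0 => pow_ne_zero n hg (by rw [← hy, h0, map_zero])
  have hh0 : h ≠ 0 := hι h fun h0 => pow_ne_zero p ((_root_.map_ne_zero _).mpr hz)
    (by rw [← hhz, h0, map_zero])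
  refine ⟨(h ^ a * y ^ (j * b))⁻¹, inv_ne_zero (mul_ne_zero (zpow_ne_zero _ hh0)
    (zpow_ne_zero _ hy0)), ?_⟩
  have hv : Wv.valuation (ι (h * ((h ^ a * y ^ (j * b))⁻¹) ^ p)) = 1 := by
    simp only [map_mul, map_pow, map_inv₀, map_zpow₀, hhz, hy, hj]
    simp only [← zpow_natCast, ← zpow_mul, ← zpow_add₀ hg, ← zpow_neg]
    rw [show (j * (p : ℤ) + -(j * (p : ℤ) * a + (n : ℤ) * (j * b)) * (p : ℤ) : ℤ) = 0 by
      linear_combination -(j * (p : ℤ)) * hab, zpow_zero]
  refine ⟨(Wv.valuation_le_one_iff _).mp hv.le, (Wv.valuation_le_one_iff _).mp ?_⟩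
  rw [map_inv₀, map_inv₀, hv, inv_one]

end Fermat.Agent.Models
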