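import Fermat.Agent.Models.Wild.Defs

/-!
The value of the reduction of a function with roots at all closed points is a multiple of `p`.
-/

set_option autoImplicit false
set_option linter.style.haveILetI false
set_option linter.unusedSectionVars false

noncomputable section

namespace Fermat.Agent.Models

open IsLocalRing

namespace IsWildModel

variable {O F : Type} [CommRing O] [IsDomain O] [IsDiscreteValuationRing O] [Field F] [Algebra O F]
variable {M : Model O F} {π : O} {P : Bool → ValuationSubring F} {e p : ℕ} {F₀ : Subfield F}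

/-- Roots at all closed points make the reduced value a `p`-th power, at a valuation centred on a
closed point of the chart. -/
theorem exists_reduced_pow (h : IsWildModel M π P e p F₀) {B : Subalgebra O F} {w : F}
    (hB : IsWildChart B w π P e F₀) (hwB : w ∈ B) (i : Bool) {K : Type} [Field K] (ρ : P i →+* K)
    (hker : ∀ z : P i, ρ z = 0 ↔ (z : F) ∈ (P i).nonunits) (Wv : ValuationSubring K)
    (hcst : ∀ o : O, ρ ⟨algebraMap O F o, h.algebraMap_mem i o⟩ ∈ Wv)
    (hw : ∀ hmem : w ∈ P i, ρ ⟨w, hmem⟩ ∈ Wv)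
    (hb : ∃ (b : B), ρ ⟨b, hB.fibre.le i _ b.2⟩ ≠ 0 ∧
      Wv.valuation (ρ ⟨b, hB.fibre.le i _ b.2⟩) < 1)
    {f : F} (hroot : ∀ m : Ideal B, m.IsMaximal → HasRootAt B p f m)
    (hf : f ∈ P i) (hf0 : ρ ⟨f, hf⟩ ≠ 0) :
    ∃ z : K, z ≠ 0 ∧ Wv.valuation (ρ ⟨f, hf⟩) = Wv.valuation z ^ p := by
  have hle : ∀ {y : F}, y ∈ Algebra.adjoin O ({w} : Set F) → y ∈ P i := fun hy =>
    hB.fibre.le i _ (Algebra.adjoin_le (Set.singleton_subset_iff.mpr hwB) hy)
  let j : B →+* P i := B.val.toRingHom.codRestrict (P i).toSubring fun b => hB.fibre.le i _ b.2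
  have hA : ∀ y ∈ Algebra.adjoin O ({w} : Set F), ∀ hy : y ∈ P i, ρ ⟨y, hy⟩ ∈ Wv := by
    intro y hy
    induction hy using Algebra.adjoin_induction with
    | mem y hy => rcases hy with rfl; exact fun hy => hw hy
    | algebraMap o => exact fun _ => hcst o
    | add a b ha hb iha ihb =>
      intro hab
      obtain ⟨ha', hb'⟩ := (show a ∈ P i ∧ b ∈ P i from
        ⟨hle ha, hle hb⟩)
      have e : (⟨a + b, hab⟩ : P i) = ⟨a, ha'⟩ + ⟨b, hb'⟩ := rfl
      rw [e, map_add]
      exact add_mem (iha ha') (ihb hb')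
    | mul a b ha hb iha ihb =>
      intro hab
      obtain ⟨ha', hb'⟩ := (show a ∈ P i ∧ b ∈ P i from
        ⟨hle ha, hle hb⟩)
      have e : (⟨a * b, hab⟩ : P i) = ⟨a, ha'⟩ * ⟨b, hb'⟩ := rfl
      rw [e, map_mul]
      exact mul_mem (iha ha') (ihb hb')
  have hBW : ∀ b : B, ρ (j b) ∈ Wv := by
    intro b
    obtain ⟨Q, hQ, hQb⟩ := hB.integral b b.2
    let A₁ := Algebra.adjoin O ({w} : Set F)
    let j₁ : A₁ →+* P i := A₁.val.toRingHom.codRestrict (P i).toSubring
      fun a => hle a.2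
    let g : A₁ →+* Wv := (ρ.comp j₁).codRestrict Wv.toSubring fun a => hA a a.2 _
    have h1 : Polynomial.eval₂ (ρ.comp j₁) (ρ (j b)) Q = 0 := by
      rw [← Polynomial.hom_eval₂, ← map_zero ρ]
      refine congrArg ρ (Subtype.ext ?_)
      show (P i).subtype (Polynomial.eval₂ j₁ (j b) Q) = 0
      rw [Polynomial.hom_eval₂]
      exact hQb
    have h2 : IsIntegral Wv (ρ (j b)) := ⟨Q.map g, hQ.map _, by
      rw [Polynomial.eval₂_map]; exact h1⟩
    obtain ⟨u, hu⟩ := IsIntegrallyClosed.isIntegral_iff.mp h2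
    exact hu ▸ u.2
  let φ : B →+* Wv := (ρ.comp j).codRestrict Wv.toSubring hBW
  set m := (maximalIdeal Wv).comap φ
  have hlt : ∀ b : B, b ∈ m ↔ Wv.valuation (ρ (j b)) < 1 := fun b =>
    Wv.valuation_lt_one_iff (φ b)
  have hcen : ∀ b : B, (b : F) ∈ (P i).nonunits → b ∈ m := fun b hbn => by
    rw [hlt, (hker (j b)).mpr hbn, map_zero]
    exact zero_lt_one
  obtain ⟨b₀, hb0, hb1⟩ := hb
  have hm : m.IsMaximal := hB.fibre.maximal_above i m inferInstance hcen
    ⟨b₀, (hlt b₀).mpr hb1, fun hn => hb0 ((hker (j b₀)).mpr hn)⟩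
  obtain ⟨z, a, b, ha, hb', he⟩ := hroot m hm
  have hunit : ∀ c : B, c ∉ m → Wv.valuation (ρ (j c)) = 1 := fun c hc =>
    le_antisymm ((Wv.valuation_le_one_iff _).mpr (hBW c)) (not_lt.mp fun h' => hc ((hlt c).mpr h'))
  have hne : ∀ c : B, c ∉ m → (P i).valuation (c : F) = 1 := fun c hc =>
    le_antisymm ((ValuationSubring.valuation_le_one_iff _ _).mpr (j c).2) (not_lt.mp fun h' =>
      hc (hcen c ((ValuationSubring.mem_nonunits_iff (P i)).mpr h')))
  have hfv : (P i).valuation f = 1 :=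
    le_antisymm ((ValuationSubring.valuation_le_one_iff _ _).mpr hf) (not_lt.mp fun h' =>
      hf0 ((hker _).mpr ((ValuationSubring.mem_nonunits_iff (P i)).mpr h')))
  have hzv : (P i).valuation z = 1 := by
    have h1 := congrArg (P i).valuation he
    rw [map_mul, map_mul, map_pow] at h1
    change (P i).valuation (b : F) * _ = (P i).valuation (a : F) * _ at h1
    rw [hne b hb', hne a ha, hfv, one_mul, one_mul] at h1
    exact (pow_eq_one_iff_of_nonneg zero_le h.prime.ne_zero).mp h1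
  let zP : P i := ⟨z, (ValuationSubring.valuation_le_one_iff _ _).mp hzv.le⟩
  have e : j b * zP ^ p = j a * ⟨f, hf⟩ := Subtype.ext he
  refine ⟨ρ zP, fun h0 => ?_, ?_⟩
  · have := (hker zP).mp h0
    rw [ValuationSubring.mem_nonunits_iff, hzv] at this
    exact lt_irrefl _ this
  · have h1 := congrArg (fun x => Wv.valuation (ρ x)) e
    simp only [map_mul, map_pow, hunit b hb', hunit a ha, one_mul] at h1
    exact h1.symm

end IsWildModel

end Fermat.Agent.Models
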