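/-
Roots everywhere are transported by a homomorphism preserving the first chart and mapping the
second into the neighbourhood of the zeros of the inverse coordinate.
-/
import Fermat.Agent.Models.Wild.Near

set_option autoImplicit false
set_option linter.unusedSectionVars false

noncomputable section

namespace Fermat.Agent.Models

variable {O F : Type} [CommRing O] [Field F] [Algebra O F]

/-- Roots at all maximal ideals of the source give roots of the image at a prime of the target
where the images are fractions. -/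
theorem hasRootAt_swap_map {S B : Subalgebra O F} {n : ℕ} {f : F} (σ : F →+* F)
    (hroots : ∀ Q : Ideal S, Q.IsMaximal → HasRootAt S n f Q) {m : Ideal B} (hm : m.IsPrime)
    (hfrac : ∀ x : S, ∃ s : B, s ∉ m ∧ (s : F) * σ (x : F) ∈ B) : HasRootAt B n (σ f) m := by
  choose s hs hsx using hfrac
  let c : S → B := fun x => ⟨_, hsx x⟩
  -- the denominators do not matter
  have hind : ∀ (x : S) (t z : B), t ∉ m → (z : F) = (t : F) * σ (x : F) → (z ∈ m ↔ c x ∈ m) := by
    intro x t z ht hz
    have e : s x * z = t * c x := Subtype.ext (by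
      show (s x : F) * (z : F) = (t : F) * ((s x : F) * σ (x : F))
      rw [hz]; ring)
    constructor
    · exact fun h => (hm.mem_or_mem (e ▸ m.mul_mem_left _ h)).resolve_left ht
    · exact fun h => (hm.mem_or_mem (e.symm ▸ m.mul_mem_left t h)).resolve_left (hs x)
  have hc0 : c 0 ∈ m := by
    rw [show c 0 = 0 from Subtype.ext (show (s 0 : F) * σ ((0 : S) : F) = 0 by
      rw [ZeroMemClass.coe_zero, map_zero, mul_zero])]
    exact m.zero_mem
  let Q : Ideal S :=
    { carrier := {x | c x ∈ m}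
      zero_mem' := hc0
      add_mem' := fun {x y} hx hy => (hind (x + y) (s x * s y) (s y * c x + s x * c y)
        (hm.mul_notMem (hs x) (hs y)) (by
          show (s y : F) * ((s x : F) * σ (x : F)) + (s x : F) * ((s y : F) * σ (y : F)) =
            (s x : F) * (s y : F) * σ ((x : F) + (y : F))
          rw [map_add]; ring)).mp (add_mem (m.mul_mem_left _ hx) (m.mul_mem_left _ hy))
      smul_mem' := fun r x hx => (hind (r * x) (s r * s x) (c r * c x)
        (hm.mul_notMem (hs r) (hs x)) (by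
          show (s r : F) * σ (r : F) * ((s x : F) * σ (x : F)) =
            (s r : F) * (s x : F) * σ ((r : F) * (x : F))
          rw [map_mul]; ring)).mp (m.mul_mem_left _ hx) }
  have hQne : Q ≠ ⊤ := fun h => hs 1 (by
    have h1 : c 1 ∈ m := (show (1 : S) ∈ Q from h ▸ Submodule.mem_top)
    rwa [show c 1 = s 1 from Subtype.ext (show (s 1 : F) * σ ((1 : S) : F) = _ by
      rw [OneMemClass.coe_one, map_one, mul_one])] at h1)
  obtain ⟨Q', hQ', hle⟩ := Ideal.exists_le_maximal Q hQne
  obtain ⟨h, a, b, ha, hb, he⟩ := (hroots Q' hQ').of_le hle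
  refine ⟨σ h, c a * s b, c b * s a, hm.mul_notMem ha (hs b), hm.mul_notMem hb (hs a), ?_⟩
  have h1 : σ (b : F) * σ h ^ n = σ (a : F) * σ f := by
    rw [← map_pow, ← map_mul, ← map_mul]
    exact congrArg σ he
  show (s b : F) * σ (b : F) * (s a : F) * σ h ^ n = (s a : F) * σ (a : F) * (s b : F) * σ f
  linear_combination (s b : F) * (s a : F) * h1

/-- Roots everywhere are preserved. -/
theorem RootsEverywhere.map [IsDomain O] [IsDiscreteValuationRing O] {M : Model O F} {p : ℕ}
    {f : F} (hf : RootsEverywhere M p f) (σ : F →+* F) (h₀ : ∀ b ∈ M.B₀, σ b ∈ M.B₀)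
    (h₁ : ∀ b ∈ M.B₁, σ b ∈ M.nearSub) : RootsEverywhere M p (σ f) := by
  refine ⟨fun m hm => hasRootAt_swap_map σ hf.1 hm.isPrime fun x =>
    ⟨1, fun h => hm.ne_top ((Ideal.eq_top_iff_one m).mpr h), by
      rw [OneMemClass.coe_one, one_mul]; exact h₀ _ x.2⟩, fun m hm => ?_⟩
  by_cases hv : (⟨M.w⁻¹, M.w_inv_mem⟩ : M.B₁) ∈ m
  · refine hasRootAt_swap_map σ hf.2 hm.isPrime fun x => ?_
    obtain ⟨s, hs, hsx⟩ := Model.mem_nearSub.mp (h₁ _ x.2)
    obtain ⟨r, hr, rfl⟩ := hs
    refine ⟨1 + ⟨M.w⁻¹, M.w_inv_mem⟩ * ⟨r, hr⟩, fun h => hm.ne_top ?_, hsx⟩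
    exact (Ideal.eq_top_iff_one m).mpr (by simpa using sub_mem h (m.mul_mem_right ⟨r, hr⟩ hv))
  · refine hasRootAt_swap_map σ hf.1 hm.isPrime fun x => ?_
    obtain ⟨E, hE⟩ := M.loc₁ _ (M.le₀ (h₀ _ x.2))
    exact ⟨⟨M.w⁻¹, M.w_inv_mem⟩ ^ E, fun h => hv (hm.isPrime.mem_of_pow_mem _ h), hE⟩

end Fermat.Agent.Models
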