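/-
A node parameter from the base field is, up to a unit, the parameter of the crossing below; so
monomials at the crossings below stay monomials over the extension.
-/
import Fermat.Agent.Models.Wild.Extend
import Fermat.Agent.Models.Wild.Regular

set_option autoImplicit false
set_option linter.style.haveILetI false
set_option linter.unusedSectionVars false

noncomputable section

namespace Fermat.Agent.Models

open IsLocalRing

section Principal

variable {W F : Type} [CommRing W] [Field F] [Algebra W F] {B : Subalgebra W F} [IsNoetherianRing B]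

/-- A prime through one of two local generators but not the other is locally generated by it. -/
theorem exists_mul_eq_of_two_generated {m P : Ideal B} [m.IsPrime] [P.IsPrime] {a b : B}
    (ha : a ∈ P) (hb : b ∉ P) (hP : P ≤ m) (hbm : b ∈ m)
    (hgen : ∀ z ∈ m, ∃ s ∉ m, s * z ∈ Ideal.span {a, b}) {z : B} (hz : z ∈ P) :
    ∃ s r : B, s ∉ m ∧ s * z = a * r := by
  let R := Localization.AtPrime m
  haveI : IsNoetherianRing R :=
    IsLocalization.isNoetherianRing m.primeCompl (Localization.AtPrime m) inferInstance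
  have hinj : Function.Injective (algebraMap B R) :=
    IsLocalization.injective R m.primeCompl_le_nonZeroDivisors
  have hR := maximalIdeal_eq_span_pair m (hP ha) hbm hgen
  have hd : Disjoint (m.primeCompl : Set B) (P : Set B) :=
    Set.disjoint_left.mpr fun w hw hwP => hw (hP hwP)
  haveI := IsLocalization.isPrime_of_isPrime_disjoint m.primeCompl R P ‹_› hd
  have hm3 : maximalIdeal R =
      Ideal.span {algebraMap B R b, algebraMap B R a, algebraMap B R a} := by
    rw [hR, Set.pair_comm]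
    congr 1
    simp [R]
  have h := prime_le_span_pair hm3 (P.map (algebraMap B R)) (Ideal.mem_map_of_mem _ ha)
    (Ideal.mem_map_of_mem _ ha) (fun h => hb (by
      rw [← IsLocalization.under_map_of_isPrime_disjoint m.primeCompl R ‹P.IsPrime› hd]
      exact h)) (Ideal.mem_map_of_mem _ hz)
  rw [Set.pair_eq_singleton, Ideal.mem_span_singleton] at h
  obtain ⟨w, hw⟩ := h
  obtain ⟨r, s, hrs⟩ := IsLocalization.exists_mk'_eq m.primeCompl w
  refine ⟨s, r, s.2, hinj ?_⟩
  rw [map_mul, map_mul, hw, ← hrs, ← IsLocalization.mk'_spec R r s]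
  ring

end Principal

variable {O O' F F' : Type} [CommRing O] [IsDomain O] [IsDiscreteValuationRing O]
  [CommRing O'] [IsDomain O'] [IsDiscreteValuationRing O']
  [Field F] [Field F'] [Algebra O F]
  [Algebra O O'] [Algebra O' F'] [Algebra F F'] [Algebra O F'] [IsScalarTower O F F']
  [IsScalarTower O O' F'] (X : TotRam O O' F F')
  {B : Subalgebra O F} {P₂ : Bool → ValuationSubring F} {P₁ : Bool → ValuationSubring F'}
  (hP : ∀ i x, algebraMap F F' x ∈ P₁ i ↔ x ∈ P₂ i)
  (hϖ : ∀ i, X.gen ∈ (P₁ i).nonunits) (hf : ChartFibre B X.π P₂)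
  (hpts : SemiPoints B X.π) (hu : ∀ i, algebraMap O F X.π ∈ (P₂ i).nonunits)
  (hmax : ∀ i, ¬ (center hf i).IsMaximal) (hπ0 : algebraMap O F X.π ≠ 0)
  (hc : Function.Injective (center hf))

include hP hϖ hf hpts hu hmax hπ0 hc

/-- The node parameter from the base is the crossing parameter up to a unit. -/
theorem node_param_base {mm : Ideal (X.extend B)} (hmm : mm.IsMaximal) {x y w : X.extend B}
    (hn : IsNodeParam (X.extend B) X.ϖ P₁ X.e (algebraMap F F').fieldRange mm x y w) :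
    ∃ x₀ y₀ u₀ x' s t : B, IsNodeTwo hf (mm.comap (extIncl X B)) x₀ y₀ u₀ ∧ x = extIncl X B x' ∧
      s ∉ mm.comap (extIncl X B) ∧ t ∉ mm.comap (extIncl X B) ∧ s * x' = t * x₀ := by
  haveI := hmm.isPrime
  haveI := hf.noetherian
  haveI hm₀ : (mm.comap (extIncl X B)).IsMaximal :=
    Ideal.isMaximal_comap_of_isIntegral_of_isMaximal' (extIncl X B) (extIncl_isIntegral X) mm
  set m₀ := mm.comap (extIncl X B)
  have hπm : algebraMap O' (X.extend B) X.ϖ ∈ mm :=
    hn.centre true ⟨X.gen, X.gen_mem_extend B⟩ (hϖ true)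
  have hπe : extIncl X B (algebraMap O B X.π) = algebraMap O' (X.extend B) X.ϖ ^ X.e *
      algebraMap O' (X.extend B) ((X.unit⁻¹ : O'ˣ) : O') := Subtype.ext X.gen_mul_unit_inv
  have hπ₀ : algebraMap O B X.π ∈ m₀ := by
    rw [Ideal.mem_comap, hπe]
    exact mm.mul_mem_right _ (Ideal.pow_mem_of_mem _ hπm _ X.e_pos)
  have hcen : ∀ i, center hf i ≤ m₀ := fun i b hb =>
    hn.centre i (extIncl X B b) ((nonunits_of_comap hP).mpr (mem_center.mp hb))
  obtain ⟨x₀, y₀, u₀, hn₀⟩ : ∃ x₀ y₀ u₀, IsNodeTwo hf m₀ x₀ y₀ u₀ :=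
    (semiTwo_cases hf hpts hu hmax hπ0 hc hm₀ hπ₀).resolve_left fun ⟨i, hi⟩ => hi.other (hcen _)
  -- coordinates
  obtain ⟨ξ, hξ⟩ := hn.fixed
  obtain ⟨bx, hbx, hxs⟩ := x.2
  let i₀ : Fin X.e := ⟨0, X.e_pos⟩
  have hsingle : ∀ a : F, algebraMap F F' a =
      ∑ i, algebraMap F F' ((Pi.single i₀ a : Fin X.e → F) i) * X.gen ^ (i : ℕ) := fun a => by
    rw [Finset.sum_eq_single i₀ (fun i _ hi => by rw [Pi.single_eq_of_ne hi, map_zero, zero_mul])
      (fun h => absurd (Finset.mem_univ _) h), Pi.single_eq_same, pow_zero, mul_one]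
  have hξB : ξ ∈ B := by
    have h := X.coord_unique ((hsingle ξ).symm.trans (hξ.trans hxs))
    have := congrFun h i₀
    rw [Pi.single_eq_same] at this
    exact this ▸ hbx i₀
  set x' : B := ⟨ξ, hξB⟩
  have hx : x = extIncl X B x' := Subtype.ext hξ.symm
  obtain ⟨bw, hbw, hws⟩ := w.2
  obtain ⟨bc, hbc, hcs⟩ := (y * algebraMap O' (X.extend B) ((X.unit⁻¹ : O'ˣ) : O')).2
  have hprod : extIncl X B x' * (y * algebraMap O' (X.extend B) ((X.unit⁻¹ : O'ˣ) : O')) =
      extIncl X B (algebraMap O B X.π) * w := by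
    rw [← hx, hπe, ← mul_assoc, hn.mul_eq]
    ring
  have hcoord : (fun i => ξ * bc i) = fun i => algebraMap O F X.π * bw i := by
    refine X.coord_unique ?_
    have e := congrArg Subtype.val hprod
    simp only [MulMemClass.coe_mul, coe_extIncl] at e hcs
    rw [hcs, hws, Finset.mul_sum, Finset.mul_sum] at e
    simp only [map_mul, mul_assoc]
    exact e
  set c₀ : B := ⟨bc i₀, hbc i₀⟩
  set w₀ : B := ⟨bw i₀, hbw i₀⟩
  have hcw : x' * c₀ = algebraMap O B X.π * w₀ := Subtype.ext (congrFun hcoord i₀)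
  have hw₀ : w₀ ∉ m₀ := fun h => hn.u_notMem (by
    have e : w = ∑ i, extIncl X B ⟨bw i, hbw i⟩ *
        algebraMap O' (X.extend B) X.ϖ ^ (i : ℕ) := Subtype.ext (by
      rw [hws, AddSubmonoidClass.coe_finsetSum]
      rfl)
    rw [e]
    refine Ideal.sum_mem _ fun i _ => ?_
    by_cases hi : (i : ℕ) = 0
    · obtain rfl : i = i₀ := Fin.ext hi
      exact mm.mul_mem_right _ h
    · exact mm.mul_mem_left _ (Ideal.pow_mem_of_mem _ hπm _ (Nat.pos_of_ne_zero hi)))
  have hx'T : x' ∈ center hf true := mem_center.mpr ((nonunits_of_comap hP).mp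
    (by rw [hξ]; exact hn.x_true))
  have hx'F : x' ∉ center hf false := fun h => hn.x_false (by
    rw [← hξ]; exact (nonunits_of_comap hP).mpr (mem_center.mp h))
  haveI := center_isPrime (hf := hf) true
  haveI := center_isPrime (hf := hf) false
  obtain ⟨s, r, hs, hsr⟩ := exists_mul_eq_of_two_generated hn₀.x_true hn₀.y_true (hn₀.centre true)
    hn₀.y_mem hn₀.gen hx'T
  have hx00 : x₀ ≠ 0 := fun h => hn₀.x_false (h ▸ zero_mem _)
  have hy00 : y₀ ≠ 0 := fun h => hn₀.y_true (h ▸ zero_mem _)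
  have e1 : r * c₀ * u₀ = s * w₀ * y₀ := by
    refine mul_left_cancel₀ hx00 ?_
    calc x₀ * (r * c₀ * u₀) = s * x' * c₀ * u₀ := by rw [hsr]; ring
      _ = s * w₀ * (algebraMap O B X.π * u₀) := by rw [mul_assoc s x', hcw]; ring
      _ = x₀ * (s * w₀ * y₀) := by rw [← hn₀.mul_eq]; ring
  have hout : ∀ {a : B}, a ∉ m₀ → a ∉ center hf false := fun ha h => ha (hcen false h)
  have hrF : r ∉ center hf false := fun h => (center_isPrime (hf := hf) false).mem_or_mem
    (hsr ▸ (center hf false).mul_mem_left _ h : s * x' ∈ center hf false) |>.elim (hout hs) hx'F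
  have hc₀ : c₀ ∈ center hf false := by
    have h : r * c₀ * u₀ ∈ center hf false := e1 ▸ Ideal.mul_mem_left _ _ hn₀.y_false
    exact (((center_isPrime false).mem_or_mem h).resolve_right (hout hn₀.u_notMem) |>
      (center_isPrime false).mem_or_mem).resolve_left hrF
  obtain ⟨s', r', hs', hsr'⟩ := exists_mul_eq_of_two_generated hn₀.y_false hn₀.x_false
    (hn₀.centre false) hn₀.x_mem (fun z hz => by rw [Set.pair_comm]; exact hn₀.gen z hz) hc₀
  have e2 : r * r' * u₀ = s' * s * w₀ := by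
    refine mul_left_cancel₀ hy00 ?_
    calc y₀ * (r * r' * u₀) = s' * (r * c₀ * u₀) := by
          linear_combination -(r * u₀) * hsr'
      _ = y₀ * (s' * s * w₀) := by rw [e1]; ring
  refine ⟨x₀, y₀, u₀, x', s, r, hn₀, hx, hs, fun hr => ?_, hsr.trans (mul_comm _ _)⟩
  have h : s' * s * w₀ ∈ m₀ := e2 ▸ m₀.mul_mem_right _ (m₀.mul_mem_right _ hr)
  exact (hm₀.isPrime.mem_or_mem h).elim (fun h => (hm₀.isPrime.mem_or_mem h).elim hs' hs) hw₀

/-- A monomial in `y` at the crossings is one at the nodes of the extended chart. -/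
theorem extend_monomial {a : B} {k : ℕ}
    (ha : ∀ (m₀ : Ideal B) (x₀ y₀ u₀ : B), m₀.IsMaximal → IsNodeTwo hf m₀ x₀ y₀ u₀ →
      ∃ c d : B, c ∉ m₀ ∧ d ∉ m₀ ∧ c * a = d * y₀ ^ k)
    {mm : Ideal (X.extend B)} (hmm : mm.IsMaximal) {x y w : X.extend B}
    (hn : IsNodeParam (X.extend B) X.ϖ P₁ X.e (algebraMap F F').fieldRange mm x y w) :
    ∃ c d : X.extend B, c ∉ mm ∧ d ∉ mm ∧
      c * extIncl X B a * x ^ k = d * algebraMap O' (X.extend B) X.ϖ ^ (k * X.e) := by
  haveI := hmm.isPrime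
  obtain ⟨x₀, y₀, u₀, x', s, t, hn₀, rfl, hs, ht, hst⟩ :=
    node_param_base X hP hϖ hf hpts hu hmax hπ0 hc hmm hn
  obtain ⟨c, d, hc', hd, hcd⟩ := ha _ x₀ y₀ u₀
    (Ideal.isMaximal_comap_of_isIntegral_of_isMaximal' (extIncl X B) (extIncl_isIntegral X) mm) hn₀
  have hnot : ∀ {b : B} (n : ℕ), b ∉ mm.comap (extIncl X B) → extIncl X B b ^ n ∉ mm :=
    fun n hb h => hb (Ideal.mem_comap.mpr (hmm.isPrime.mem_of_pow_mem _ h))
  have hU : algebraMap O' (X.extend B) ((X.unit⁻¹ : O'ˣ) : O') ∉ mm := fun h =>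
    hmm.ne_top (Ideal.eq_top_of_isUnit_mem _ h (X.unit⁻¹.isUnit.map _))
  have hπe : extIncl X B (algebraMap O B X.π) = algebraMap O' (X.extend B) X.ϖ ^ X.e *
      algebraMap O' (X.extend B) ((X.unit⁻¹ : O'ˣ) : O') := Subtype.ext X.gen_mul_unit_inv
  refine ⟨extIncl X B c * extIncl X B s ^ k,
    extIncl X B d * extIncl X B t ^ k * extIncl X B u₀ ^ k *
      algebraMap O' (X.extend B) ((X.unit⁻¹ : O'ˣ) : O') ^ k,
    hmm.isPrime.mul_notMem (fun h => hc' (Ideal.mem_comap.mpr h)) (hnot k hs),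
    hmm.isPrime.mul_notMem (hmm.isPrime.mul_notMem (hmm.isPrime.mul_notMem
      (fun h => hd (Ideal.mem_comap.mpr h)) (hnot k ht)) (hnot k hn₀.u_notMem))
      (fun h => hU (hmm.isPrime.mem_of_pow_mem _ h)), ?_⟩
  have e : c * a * (s * x') ^ k = d * t ^ k * (algebraMap O B X.π * u₀) ^ k := by
    rw [hcd, hst, ← hn₀.mul_eq]
    ring
  have e' := congrArg (extIncl X B) e
  simp only [map_mul, map_pow, hπe] at e'
  rw [mul_comm k X.e, pow_mul]
  linear_combination e'

end Fermat.Agent.Models
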