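/-
A unit off the special fibre, of order `k e` along one component and `0` along the other, is
`π ^ (k e) / x ^ k` up to a unit at every crossing.
-/
import Fermat.Agent.Models.Wild.Forms

set_option autoImplicit false
set_option linter.unusedSectionVars false

noncomputable section

namespace Fermat.Agent.Models

open IsLocalRing

namespace IsWildModel

variable {O F : Type} [CommRing O] [IsDomain O] [IsDiscreteValuationRing O] [Field F] [Algebra O F]
variable {M : Model O F} {π : O} {P : Bool → ValuationSubring F} {e p : ℕ} {F₀ : Subfield F}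
  (h : IsWildModel M π P e p F₀)

include h

variable {B : Subalgebra O F} {w : F}

/-- Divisibility by a power of the uniformiser along both components gives it in the chart. -/
theorem exists_eq_pow_smul (hB : IsWildChart B w π P e F₀) {a : B} {N : ℕ}
    (ha : ∀ i, (a : F) / algebraMap O F π ^ N ∈ P i) :
    ∃ d : B, (a : F) = algebraMap O F π ^ N * d := by
  suffices H : ∀ k ≤ N, ∃ d : B, (a : F) = algebraMap O F π ^ k * d from H N le_rfl
  intro k hk
  induction k with
  | zero => exact ⟨a, by rw [pow_zero, one_mul]⟩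
  | succ k ih =>
    obtain ⟨d, hd⟩ := ih (by omega)
    obtain ⟨r, hr⟩ : ∃ r, N = k + 1 + r := ⟨N - (k + 1), by omega⟩
    obtain ⟨c, hc, hdc⟩ := hB.fibre.reduced _ d.2 fun i => by
      have h1 : (d : F) = algebraMap O F π * (algebraMap O F π ^ r *
          ((a : F) / algebraMap O F π ^ N)) := by
        have := pow_ne_zero N h.pi_ne_zero
        rw [hd, hr, pow_add, pow_succ]
        field_simp [h.pi_ne_zero]
      rw [h1, ValuationSubring.mem_nonunits_iff, map_mul]
      exact mul_lt_one_of_lt_of_le ((P i).mem_nonunits_iff.mp (h.uniformizer i).1)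
        ((ValuationSubring.valuation_le_one_iff _ _).mpr
          ((P i).mul_mem _ _ (pow_mem (h.algebraMap_mem i π) _) (ha i)))
    exact ⟨⟨c, hc⟩, by rw [hd, hdc, Algebra.smul_def, pow_succ, mul_assoc]⟩

/-- At every crossing `u x ^ k` is `π ^ (k e)` times a unit. -/
theorem exists_unit_form (hB : IsWildChart B w π P e F₀) {u v : B} {k : ℕ} {c₀ : Oˣ}
    (huv : u * v = algebraMap O B ((c₀ : O) * π ^ (k * e))) (hu : IsU (P true) (u : F))
    (hv : IsU (P false) (v : F)) {m : Ideal B} (hm : m.IsMaximal) {x y z : B}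
    (hn : IsNodeParam B π P e F₀ m x y z) :
    ∃ c d : B, c ∉ m ∧ d ∉ m ∧ c * u * x ^ k = d * algebraMap O B π ^ (k * e) := by
  set Q := algebraMap O F π
  have hQ : Q ≠ 0 := h.pi_ne_zero
  have huv' : (u : F) * v = algebraMap O F (c₀ : O) * Q ^ (k * e) := by
    have := congrArg Subtype.val huv
    simpa using this
  have hxy : (x : F) * y = Q ^ e * z := by
    have := congrArg Subtype.val hn.mul_eq
    simp only [MulMemClass.coe_mul, SubmonoidClass.coe_pow] at this
    exact this
  have hyU : IsU (P true) (y : F) :=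
    isU_of_notMem_center (hf := hB.fibre) fun h' => hn.y_true (mem_center.mp h')
  have hxU : IsU (P false) (x : F) :=
    isU_of_notMem_center (hf := hB.fibre) fun h' => hn.x_false (mem_center.mp h')
  obtain ⟨d, hd⟩ := h.exists_eq_pow_smul hB (a := u * x ^ k) (N := k * e) fun i => by
    cases i
    · rw [MulMemClass.coe_mul, SubmonoidClass.coe_pow, mul_div_right_comm,
        show (u : F) / Q ^ (k * e) = algebraMap O F (c₀ : O) / v by
          rw [div_eq_div_iff (pow_ne_zero _ hQ) hv.ne_zero, huv'], div_eq_mul_inv]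
      exact (P false).mul_mem _ _ ((P false).mul_mem _ _ (h.algebraMap_mem _ _) hv.inv.1)
        (pow_mem (hB.fibre.le _ _ x.2) _)
    · rw [MulMemClass.coe_mul, SubmonoidClass.coe_pow, mul_div_assoc, mul_comm k e, pow_mul,
        ← div_pow, show (x : F) / Q ^ e = z / y by
          rw [div_eq_div_iff (pow_ne_zero _ hQ) hyU.ne_zero, hxy, mul_comm]]
      exact (P true).mul_mem _ _ hu.1 (pow_mem (by
        rw [div_eq_mul_inv]; exact (P true).mul_mem _ _ (hB.fibre.le _ _ z.2) hyU.inv.1) _)
  obtain ⟨d', hd'⟩ := h.exists_eq_pow_smul hB (a := v * y ^ k) (N := k * e) fun i => by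
    cases i
    · rw [MulMemClass.coe_mul, SubmonoidClass.coe_pow, mul_div_assoc, mul_comm k e, pow_mul,
        ← div_pow, show (y : F) / Q ^ e = z / x by
          rw [div_eq_div_iff (pow_ne_zero _ hQ) hxU.ne_zero, mul_comm (y : F), hxy, mul_comm]]
      exact (P false).mul_mem _ _ hv.1 (pow_mem (by
        rw [div_eq_mul_inv]; exact (P false).mul_mem _ _ (hB.fibre.le _ _ z.2) hxU.inv.1) _)
    · rw [MulMemClass.coe_mul, SubmonoidClass.coe_pow, mul_div_right_comm,
        show (v : F) / Q ^ (k * e) = algebraMap O F (c₀ : O) / u by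
          rw [div_eq_div_iff (pow_ne_zero _ hQ) hu.ne_zero, mul_comm, huv'], div_eq_mul_inv]
      exact (P true).mul_mem _ _ ((P true).mul_mem _ _ (h.algebraMap_mem _ _) hu.inv.1)
        (pow_mem (hB.fibre.le _ _ y.2) _)
  have hdd : d * d' = algebraMap O B (c₀ : O) * z ^ k := by
    refine Subtype.ext ?_
    simp only [MulMemClass.coe_mul, SubmonoidClass.coe_pow, Subalgebra.coe_algebraMap] at hd hd' ⊢
    refine mul_left_cancel₀ (mul_ne_zero (pow_ne_zero (k * e) hQ) (pow_ne_zero (k * e) hQ)) ?_
    calc Q ^ (k * e) * Q ^ (k * e) * ((d : F) * d')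
        = (u : F) * v * ((x : F) * y) ^ k := by rw [mul_pow]; linear_combination -(Q ^ (k*e) * d') * hd - ((u : F) * x ^ k) * hd'
      _ = _ := by rw [huv', hxy, mul_pow, ← pow_mul, mul_comm e k]; ring
  have hdm : d ∉ m := fun hdm => by
    have h1 := m.mul_mem_right d' hdm
    rw [hdd] at h1
    rcases hm.isPrime.mem_or_mem h1 with h2 | h2
    · exact hm.ne_top (Ideal.eq_top_of_isUnit_mem _ h2 (c₀.isUnit.map _))
    · exact hn.u_notMem (hm.isPrime.mem_of_pow_mem _ h2)
  refine ⟨1, d, fun h1 => hm.ne_top ((Ideal.eq_top_iff_one _).mpr h1), hdm, Subtype.ext ?_⟩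
  rw [one_mul]
  simp only [MulMemClass.coe_mul, SubmonoidClass.coe_pow, Subalgebra.coe_algebraMap] at hd ⊢
  rw [hd, mul_comm]

end IsWildModel

end Fermat.Agent.Models
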