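/-
The exponent along the nodes vanishes: multiplied by the matching power of a unit with exponent
`-k` at every node, a Kummer function has roots everywhere, and the roots of its transfer force
the exponent to be a multiple of `p`.
-/
import Fermat.Agent.Models.Wild.Forms
import Fermat.Agent.Models.DoubleRoot

set_option autoImplicit false
set_option linter.unusedSectionVars false
set_option linter.style.haveILetI false

noncomputable section

namespace Fermat.Agent.Models

open IsLocalRing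
open scoped IntermediateField

/-- A monomial which is a power up to a unit has exponent divisible by it. -/
theorem dvd_exp_local {R : Type} [CommRing R] [IsDomain R] [IsNoetherianRing R]
    [IsLocalRing R] [IsIntegrallyClosed R] {F : Type} [Field F] [Algebra R F] [IsFractionRing R F]
    {n : ℕ} (hn : n.Prime) {x y γ : R} {e : ℕ} (he : 0 < e)
    (hm : maximalIdeal R = Ideal.span {x, y, γ}) (hxy : x * y = γ ^ e) (hx : x ≠ 0)
    (hP : ∃ P : Ideal R, P.IsPrime ∧ x ∈ P ∧ y ∉ P) (hP' : ∃ P : Ideal R, P.IsPrime ∧ y ∈ P ∧ x ∉ P)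
    {U : R} (hU : IsUnit U) {i j : ℕ} {h : F}
    (heq : algebraMap R F (U * x ^ i * γ ^ j) = h ^ n) : n ∣ i := by
  let Ω := AlgebraicClosure F
  have hinjF := IsFractionRing.injective R F
  have hinj : Function.Injective (algebraMap R Ω) := by
    rw [IsScalarTower.algebraMap_eq R F Ω]
    exact (algebraMap F Ω).injective.comp hinjF
  obtain ⟨u, hu⟩ := IsAlgClosed.exists_pow_nat_eq (algebraMap R Ω x) he
  have hu0 : u ≠ 0 := by
    rintro rfl
    rw [zero_pow he.ne'] at hu
    exact (map_ne_zero_iff _ hinj).mpr hx hu.symm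
  have huF : IsIntegral F u :=
    IsIntegral.of_pow he (hu ▸ IsScalarTower.algebraMap_apply R F Ω x ▸ isIntegral_algebraMap)
  let E : IntermediateField F Ω := F⟮u⟯
  let pb := IntermediateField.adjoin.powerBasis huF
  let uE : E := ⟨u, IntermediateField.mem_adjoin_simple_self F u⟩
  have huE : uE ^ e = algebraMap R E x := Subtype.ext (by push_cast; exact hu)
  have hxE : algebraMap R E x ≠ 0 := fun h =>
    (map_ne_zero_iff _ hinj).mpr hx (congrArg Subtype.val h)
  have huE0 : uE ≠ 0 := fun h => hu0 (congrArg Subtype.val h)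
  haveI : IsScalarTower R F E := IsScalarTower.of_algebraMap_eq fun r =>
    Subtype.ext (IsScalarTower.algebraMap_apply R F Ω r)
  let C : NodeCover R F E :=
    { x := x
      y := y
      γ := γ
      e := e
      u := uE
      v := algebraMap R E γ / uE
      e_pos := he
      hm := hm
      hxy := hxy
      x_ne := hx
      u_pow := huE
      v_pow := by rw [div_pow, huE, ← map_pow, ← hxy, map_mul, mul_div_cancel_left₀ _ hxE]
      u_mul_v := mul_div_cancel₀ _ huE0
      adjoin_u := pb.adjoin_gen_eq_top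
      exists_P := hP
      exists_P' := hP' }
  exact C.dvd_of_pow_eq hn hU heq

namespace IsWildModel

variable {O F : Type} [CommRing O] [IsDomain O] [IsDiscreteValuationRing O] [Field F] [Algebra O F]
variable {M : Model O F} {π : O} {P : Bool → ValuationSubring F} {e p : ℕ} {F₀ : Subfield F}
  (h : IsWildModel M π P e p F₀)

include h

variable {B : Subalgebra O F} {w : F}

set_option maxHeartbeats 800000 in
/-- At a node only exponents divisible by `p` give powers. -/
theorem dvd_exp_node (hB : IsWildChart B w π P e F₀) {m : Ideal B} (hm : m.IsMaximal) {x y u : B}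
    (hn : IsNodeParam B π P e F₀ m x y u) {g c : B} (hg : g ∉ m) (hc : c ∉ m) {i j : ℕ} {z : F}
    (he : algebraMap B F (g * x ^ i * algebraMap O B π ^ j) = algebraMap B F c * z ^ p) :
    p ∣ i := by
  haveI := hB.fibre.noetherian
  haveI := hB.fractionRing
  haveI := hm.isPrime
  haveI : IsIntegrallyClosed B := (isIntegrallyClosed_iff F).mpr fun {z} hz =>
    ⟨⟨z, hB.closed z hz⟩, rfl⟩
  let L := Localization.AtPrime m
  haveI : IsNoetherianRing L := IsLocalization.isNoetherianRing m.primeCompl L inferInstance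
  haveI : IsIntegrallyClosed L :=
    isIntegrallyClosed_of_isLocalization L m.primeCompl m.primeCompl_le_nonZeroDivisors
  have hu : ∀ s : m.primeCompl, IsUnit (algebraMap B F s) := fun s =>
    isUnit_iff_ne_zero.mpr ((map_ne_zero_iff _ (IsFractionRing.injective B F)).mpr
      fun h => s.2 (h ▸ m.zero_mem))
  letI : Algebra L F := (IsLocalization.lift (M := m.primeCompl) hu).toAlgebra
  haveI : IsScalarTower B L F := IsScalarTower.of_algebraMap_eq fun r =>
    (IsLocalization.lift_eq hu r).symm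
  haveI : IsFractionRing L F :=
    IsFractionRing.isFractionRing_of_isDomain_of_isLocalization m.primeCompl L F
  obtain ⟨uu, huu⟩ := IsLocalization.map_units L (⟨u, hn.u_notMem⟩ : m.primeCompl)
  change (uu : L) = algebraMap B L u at huu
  have hinjL : Function.Injective (algebraMap B L) :=
    IsLocalization.injective L m.primeCompl_le_nonZeroDivisors
  set X := algebraMap B L x with hX
  set Y := algebraMap B L y * ((uu⁻¹ : Lˣ) : L) with hY
  set G := algebraMap B L (algebraMap O B π) with hG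
  have hπm : algebraMap O B π ∈ m := hn.centre true _ (h.uniformizer true).1
  have hmax : maximalIdeal L = Ideal.span {X, Y, G} := by
    refine le_antisymm (fun z hz => ?_) (Ideal.span_le.mpr ?_)
    · obtain ⟨a, s, rfl⟩ := IsLocalization.exists_mk'_eq m.primeCompl z
      rw [IsLocalization.AtPrime.mk'_mem_maximal_iff L m] at hz
      obtain ⟨t, ht, htz⟩ := hn.gen a hz
      have h2 := Ideal.mem_map_of_mem (algebraMap B L) htz
      rw [Ideal.map_span, Set.image_insert_eq, Set.image_pair, map_mul, Ideal.unit_mul_mem_iff_mem _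
        (IsLocalization.map_units _ (⟨t, ht⟩ : m.primeCompl))] at h2
      rw [← IsLocalization.mk'_spec L a s, Ideal.mul_unit_mem_iff_mem _
        (IsLocalization.map_units _ s)] at h2
      refine (Ideal.span_le.mpr ?_) h2
      rintro _ (rfl | rfl | rfl)
      · exact Ideal.subset_span (by simp [hX])
      · have : algebraMap B L y = Y * (uu : L) := by rw [hY, mul_assoc, Units.inv_mul, mul_one]
        rw [this]
        exact Ideal.mul_mem_right _ _ (Ideal.subset_span (by simp))
      · exact Ideal.subset_span (by simp [hG])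
    · rintro _ (rfl | rfl | rfl)
      · exact (IsLocalization.AtPrime.to_map_mem_maximal_iff L m _).mpr hn.x_mem
      · exact Ideal.mul_mem_right _ _
          ((IsLocalization.AtPrime.to_map_mem_maximal_iff L m _).mpr hn.y_mem)
      · exact (IsLocalization.AtPrime.to_map_mem_maximal_iff L m _).mpr hπm
  have hxy : X * Y = G ^ e := by
    rw [hX, hY, ← mul_assoc, ← map_mul, hn.mul_eq, map_mul, map_pow, mul_assoc, ← huu,
      Units.mul_inv, mul_one, hG]
  have hx0 : X ≠ 0 := fun h0 => hn.x_false (by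
    rw [show x = 0 from hinjL (h0.trans (map_zero _).symm)]
    exact (P false).nonunits.zero_mem)
  have hprime : ∀ i, ((center hB.fibre i).map (algebraMap B L)).IsPrime ∧
      ∀ z : B, algebraMap B L z ∈ (center hB.fibre i).map (algebraMap B L) → z ∈ center hB.fibre i := by
    intro i
    have hd : Disjoint (m.primeCompl : Set B) (center hB.fibre i : Set B) :=
      Set.disjoint_left.mpr fun z hz hzQ => hz (hn.centre i z (mem_center.mp hzQ))
    refine ⟨IsLocalization.isPrime_of_isPrime_disjoint m.primeCompl L _ inferInstance hd,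
      fun z hz => ?_⟩
    rw [← IsLocalization.under_map_of_isPrime_disjoint m.primeCompl L
      (center_isPrime (hf := hB.fibre) i) hd]
    exact hz
  have hgc : ∀ r : B, r ∉ m → IsUnit (algebraMap B L r) := fun r hr =>
    IsLocalization.map_units L (⟨r, hr⟩ : m.primeCompl)
  have hcF : algebraMap B F c ≠ 0 := (map_ne_zero_iff _ (IsFractionRing.injective B F)).mpr
    fun h0 => hc (h0 ▸ m.zero_mem)
  have hyu : ¬ Y ∈ (center hB.fibre true).map (algebraMap B L) := fun hy => by
    refine hn.y_true ?_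
    have h2 := Ideal.mul_mem_right (uu : L) _ hy
    rw [hY, mul_assoc, Units.inv_mul, mul_one] at h2
    exact mem_center.mp ((hprime true).2 y h2)
  refine dvd_exp_local (F := F) h.prime h.e_pos hmax hxy hx0
    ⟨_, (hprime true).1, Ideal.mem_map_of_mem _ (mem_center.mpr hn.x_true), hyu⟩
    ⟨_, (hprime false).1, Ideal.mul_mem_right _ _ (Ideal.mem_map_of_mem _
      (mem_center.mpr hn.y_false)), fun hx => hn.x_false (mem_center.mp ((hprime false).2 x hx))⟩
    ((hgc g hg).mul (hgc c hc).unit⁻¹.isUnit) (i := i) (j := j) (h := z) ?_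
  have hunit : algebraMap B F c * algebraMap L F (((hgc c hc).unit⁻¹ : Lˣ) : L) = 1 := by
    rw [IsScalarTower.algebraMap_apply B L F, ← map_mul, IsUnit.mul_val_inv, map_one]
  have hBL : ∀ r : B, algebraMap L F (algebraMap B L r) = algebraMap B F r := fun r =>
    (IsScalarTower.algebraMap_apply B L F r).symm
  refine mul_left_cancel₀ hcF ?_
  rw [← he]
  simp only [map_mul, map_pow, hX, hG, hBL]
  linear_combination (algebraMap B F g * algebraMap B F x ^ i * algebraMap B F (algebraMap O B π) ^ j) * hunit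

/-- A power of the uniformiser makes the product with the unit have roots at every closed point. -/
theorem exists_roots_mul_unit {f : F} (hf : f ≠ 0)
    (hoff : ∀ Q : Ideal M.B₀, Q.IsPrime → Q ≠ ⊥ → algebraMap O M.B₀ π ∉ Q → HasRootAt M.B₀ p f Q)
    {s : ℕ} (hs : ExpEq M.B₀ π P e F₀ p f s) {u v : M.B₀} {N k : ℕ} {c₀ : Oˣ}
    (huv : u * v = algebraMap O M.B₀ ((c₀ : O) * π ^ N))
    (hu : ∀ (m : Ideal M.B₀) (x y w : M.B₀), m.IsMaximal → IsNodeParam M.B₀ π P e F₀ m x y w →
      ∃ c d : M.B₀, c ∉ m ∧ d ∉ m ∧ c * u * x ^ k = d * algebraMap O M.B₀ π ^ (k * e)) :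
    ∃ t : ℕ, ∀ m : Ideal M.B₀, m.IsMaximal →
      HasRootAt M.B₀ p (algebraMap O F π ^ t * (f ^ k * (u : F) ^ s)) m := by
  haveI := h.chart₀.fractionRing
  have hu0 : (u : F) ≠ 0 := fun h0 => by
    have := congrArg (fun b : M.B₀ => (b : F)) huv
    simp only [MulMemClass.coe_mul, h0, zero_mul, Subalgebra.coe_algebraMap, map_mul, map_pow] at this
    exact mul_ne_zero ((c₀.isUnit.map (algebraMap O F)).ne_zero) (pow_ne_zero N h.pi_ne_zero) this.symm
  set g := f ^ k * (u : F) ^ s with hg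
  have hg0 : g ≠ 0 := mul_ne_zero (pow_ne_zero k hf) (pow_ne_zero s hu0)
  -- exponent zero
  have hform : ∀ (m : Ideal M.B₀) (x y w : M.B₀), m.IsMaximal →
      IsNodeParam M.B₀ π P e F₀ m x y w → ∃ (z : F) (a b : M.B₀) (j : ℕ), a ∉ m ∧ b ∉ m ∧
        algebraMap M.B₀ F (b * x ^ 0 * algebraMap O M.B₀ π ^ j) * z ^ p =
          algebraMap M.B₀ F a * g := by
    intro m x y w hm hn
    haveI := hm.isPrime
    obtain ⟨z, a, b, i, j, ha, hb, hi, he⟩ := hs m x y w hm hn
    obtain ⟨c, d, hc, hd, hcd⟩ := hu m x y w hm hn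
    have hx0 : (x : F) ≠ 0 := fun h0 => hn.x_false (by rw [h0]; exact (P false).nonunits.zero_mem)
    obtain ⟨l, hl⟩ : ∃ l : ℤ, (i : ℤ) - s = p * l := Nat.modEq_iff_dvd.mp hi.symm
    refine ⟨z ^ k * (x : F) ^ ((k : ℤ) * l), a ^ k * c ^ s, b ^ k * d ^ s, j * k + k * e * s,
      hm.isPrime.mul_notMem (fun h' => ha (hm.isPrime.mem_of_pow_mem _ h'))
        (fun h' => hc (hm.isPrime.mem_of_pow_mem _ h')),
      hm.isPrime.mul_notMem (fun h' => hb (hm.isPrime.mem_of_pow_mem _ h'))
        (fun h' => hd (hm.isPrime.mem_of_pow_mem _ h')), ?_⟩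
    have e1 : (b : F) * (x : F) ^ i * algebraMap O F π ^ j * z ^ p = (a : F) * f := by
      have := he
      simp only [map_mul, map_pow] at this
      exact this
    have e2 : (c : F) * (u : F) * (x : F) ^ k = (d : F) * algebraMap O F π ^ (k * e) := by
      have := congrArg (fun t : M.B₀ => (t : F)) hcd
      simpa using this
    show algebraMap M.B₀ F _ * _ = algebraMap M.B₀ F _ * g
    simp only [map_mul, map_pow, pow_zero, mul_one]
    show (b : F) ^ k * (d : F) ^ s * algebraMap O F π ^ (j * k + k * e * s) * _ =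
      (a : F) ^ k * (c : F) ^ s * g
    have e3 : ((a : F) * f) ^ k * ((c : F) * (u : F) * (x : F) ^ k) ^ s =
        ((b : F) * (x : F) ^ i * algebraMap O F π ^ j * z ^ p) ^ k *
          ((d : F) * algebraMap O F π ^ (k * e)) ^ s := by rw [e1, e2]
    have hxz : ((x : F) ^ ((k : ℤ) * l)) ^ p * ((x : F) ^ k) ^ s = (x : F) ^ (i * k) := by
      rw [← zpow_natCast ((x : F) ^ ((k : ℤ) * l)) p, ← zpow_mul, ← pow_mul, ← zpow_natCast (x : F) (k * s),
        ← zpow_add₀ hx0, ← zpow_natCast (x : F) (i * k)]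
      congr 1
      push_cast
      linear_combination -(k : ℤ) * hl
    have hxks : ((x : F) ^ k) ^ s ≠ 0 := pow_ne_zero s (pow_ne_zero k hx0)
    refine mul_right_cancel₀ hxks ?_
    rw [mul_pow (z ^ k), ← pow_mul z, pow_add, hg]
    simp only [mul_pow, ← pow_mul] at e3
    simp only [← pow_mul] at hxz ⊢
    linear_combination -e3 + ((b : F) ^ k * (d : F) ^ s * algebraMap O F π ^ (j * k) *
      algebraMap O F π ^ (k * e * s) * z ^ (k * p)) * hxz
  -- roots off the special fibre
  have hoffg : ∀ Q : Ideal M.B₀, Q.IsPrime → Q ≠ ⊥ → algebraMap O M.B₀ π ∉ Q →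
      HasRootAt M.B₀ p g Q := by
    intro Q hQ hQ0 hQπ
    refine ((hoff Q hQ hQ0 hQπ).pow k).mul (HasRootAt.pow ⟨1, 1, u, fun h1 => hQ.ne_top
      ((Ideal.eq_top_iff_one _).mpr h1), fun h1 => ?_, by simp⟩ s)
    · have h2 := Q.mul_mem_right v h1
      rw [huv, map_mul, map_pow] at h2
      rcases hQ.mem_or_mem h2 with h3 | h3
      · exact hQ.ne_top (Ideal.eq_top_of_isUnit_mem _ h3 (c₀.isUnit.map _))
      · exact hQπ (hQ.mem_of_pow_mem _ h3)
  choose V hV using fun c => h.exists_order c hg0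
  obtain ⟨m₀, hm₀, x₀, y₀, w₀, hn₀⟩ := h.exists_node
  obtain ⟨z, a, b, j, ha, hb, he⟩ := hform m₀ x₀ y₀ w₀ hm₀ hn₀
  have hz : z ≠ 0 := by
    rintro rfl
    rw [zero_pow h.prime.pos.ne', mul_zero, eq_comm, mul_eq_zero] at he
    exact he.elim (fun h1 => ha (by rw [show a = 0 from Subtype.ext h1]; exact m₀.zero_mem)) hg0
  choose vz hvz using fun c => h.exists_order c hz
  obtain ⟨h0, h1⟩ := h.node_orders h.chart₀ hg0 hV hn₀ ha hb he hvz
  obtain ⟨q, hq⟩ : ∃ q, j * (p - 1) + j = p * q :=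
    ⟨j, by rw [← Nat.mul_succ, Nat.succ_eq_add_one, Nat.sub_add_cancel h.prime.pos]; ring⟩
  refine ⟨j * (p - 1), fun m hm => h.root_of_expEq_zero (n := fun c => q + vz c) h.chart₀
    ⟨mul_ne_zero (pow_ne_zero _ h.pi_ne_zero) hg0, fun Q hQ hQ0 hQπ => ?_, fun c => ?_⟩ ?_ hm⟩
  · obtain ⟨z', a', b', ha', hb', he'⟩ := hoffg Q hQ hQ0 hQπ
    refine ⟨z', a', algebraMap O M.B₀ π ^ (j * (p - 1)) * b', ha',
      hQ.mul_notMem (fun h' => hQπ (hQ.mem_of_pow_mem _ h')) hb', ?_⟩
    rw [map_mul, map_pow, mul_assoc, he', mul_left_comm]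
    rfl
  · convert hV c using 1
    have hVc : V c = (j : ℤ) + p * vz c := by
      cases c
      · exact h0.symm
      · simp at h1; exact h1.symm
    have hq' : ((j * (p - 1) : ℕ) : ℤ) + j = p * q := by exact_mod_cast hq
    rw [show (p : ℤ) * ((q : ℤ) + vz c) = ((j * (p - 1) : ℕ) : ℤ) + V c by
      rw [hVc]; linear_combination -hq', zpow_add₀ h.pi_ne_zero, zpow_natCast]
    have := pow_ne_zero (j * (p - 1)) h.pi_ne_zero
    field_simp
  · intro m x y w hm hn
    obtain ⟨z, a, b, j', ha, hb, he⟩ := hform m x y w hm hn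
    refine ⟨z, a, b, 0, j' + j * (p - 1), ha, hb, rfl, ?_⟩
    rw [pow_add, ← mul_assoc, mul_left_comm (algebraMap M.B₀ F a), ← he, map_mul, map_pow]
    show _ * algebraMap O F π ^ (j * (p - 1)) * _ = _
    ring

/-- Roots of a transfer `c f ^ A u ^ B H ^ p` at the nodes bound the exponent. -/
theorem dvd_of_roots_transfer {f : F} (hf : f ≠ 0) {s : ℕ} (hs : ExpEq M.B₀ π P e F₀ p f s)
    {u : M.B₀} {k : ℕ}
    (hu : ∀ (m : Ideal M.B₀) (x y w : M.B₀), m.IsMaximal → IsNodeParam M.B₀ π P e F₀ m x y w →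
      ∃ c d : M.B₀, c ∉ m ∧ d ∉ m ∧ c * u * x ^ k = d * algebraMap O M.B₀ π ^ (k * e))
    {A₁ B₁ : ℕ} {c₁ : O} (hc₁ : c₁ ≠ 0) {H : F} (hH : H ≠ 0)
    (hroots : ∀ m : Ideal M.B₀, m.IsMaximal → HasRootAt M.B₀ p
      (algebraMap O F c₁ * (f ^ A₁ * (u : F) ^ B₁ * H ^ p)) m) :
    (p : ℤ) ∣ (A₁ : ℤ) * s - (k : ℤ) * B₁ := by
  obtain ⟨m, hm, x, y, w, hn⟩ := h.exists_node
  haveI := hm.isPrime
  obtain ⟨z, a₀, b₀, i, j, ha₀, hb₀, hi, he⟩ := hs m x y w hm hn
  obtain ⟨c, d, hc, hd, hcd⟩ := hu m x y w hm hn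
  obtain ⟨r, α, β, hα, hβ, hr⟩ := hroots m hm
  obtain ⟨n, wu, rfl⟩ := IsDiscreteValuationRing.eq_unit_mul_pow_irreducible hc₁ h.irreducible
  have e1 : (b₀ : F) * (x : F) ^ i * algebraMap O F π ^ j * z ^ p = (a₀ : F) * f := by
    have := he
    simp only [map_mul, map_pow] at this
    exact this
  have e2 : (c : F) * (u : F) * (x : F) ^ k = (d : F) * algebraMap O F π ^ (k * e) := by
    have := congrArg (fun t : M.B₀ => (t : F)) hcd
    simpa using this
  have e3 : ((a₀ : F) * f) ^ A₁ * ((c : F) * (u : F) * (x : F) ^ k) ^ B₁ =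
      ((b₀ : F) * (x : F) ^ i * algebraMap O F π ^ j * z ^ p) ^ A₁ *
        ((d : F) * algebraMap O F π ^ (k * e)) ^ B₁ := by rw [e1, e2]
  have e4 : (β : F) * r ^ p = (α : F) * (algebraMap O F ((wu : O) * π ^ n) *
      (f ^ A₁ * (u : F) ^ B₁ * H ^ p)) := hr
  have hmem : ∀ {q : M.B₀} (l : ℕ), q ∉ m → q ^ l ∉ m := fun l hq h' =>
    hq (hm.isPrime.mem_of_pow_mem _ h')
  have hz : z ≠ 0 := by
    rintro rfl
    rw [zero_pow h.prime.pos.ne', mul_zero, eq_comm, mul_eq_zero] at e1
    exact e1.elim (fun h1 => ha₀ (by rw [show a₀ = 0 from Subtype.ext h1]; exact m.zero_mem)) hf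
  have hwm : algebraMap O M.B₀ (wu : O) ∉ m := fun h' =>
    hm.ne_top (Ideal.eq_top_of_isUnit_mem _ h' (wu.isUnit.map _))
  have hI := h.dvd_exp_node h.chart₀ hm hn
    (g := α * algebraMap O M.B₀ (wu : O) * b₀ ^ A₁ * d ^ B₁)
    (c := β * a₀ ^ A₁ * c ^ B₁)
    (hm.isPrime.mul_notMem (hm.isPrime.mul_notMem (hm.isPrime.mul_notMem hα hwm) (hmem _ hb₀))
      (hmem _ hd))
    (hm.isPrime.mul_notMem (hm.isPrime.mul_notMem hβ (hmem _ ha₀)) (hmem _ hc))
    (i := i * A₁ + k * B₁ * (p - 1)) (j := n + j * A₁ + k * e * B₁)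
    (z := r * (x : F) ^ (k * B₁) / (z ^ A₁ * H)) (by
      show algebraMap M.B₀ F _ = algebraMap M.B₀ F _ * _
      simp only [map_mul, map_pow]
      show (α : F) * algebraMap O F (wu : O) * (b₀ : F) ^ A₁ * (d : F) ^ B₁ *
          (x : F) ^ (i * A₁ + k * B₁ * (p - 1)) *
          algebraMap O F π ^ (n + j * A₁ + k * e * B₁) =
        (β : F) * (a₀ : F) ^ A₁ * (c : F) ^ B₁ * _
      have hzH : (z ^ A₁ * H) ^ p ≠ 0 := pow_ne_zero _ (mul_ne_zero (pow_ne_zero _ hz) hH)
      have hxp : (x : F) ^ (k * B₁ * (p - 1)) * (x : F) ^ (k * B₁) =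
          ((x : F) ^ (k * B₁)) ^ p := by
        rw [← pow_add, ← pow_mul, ← Nat.mul_succ, Nat.succ_eq_add_one,
          Nat.sub_add_cancel h.prime.pos]
      rw [map_mul, map_pow] at e4
      rw [div_pow, mul_div_assoc', eq_div_iff hzH, mul_pow r, ← hxp]
      simp only [mul_pow, pow_add, ← pow_mul] at e3 e4 hxp ⊢
      linear_combination -((a₀ : F) ^ A₁ * (c : F) ^ B₁ *
          (x : F) ^ (k * B₁) * (x : F) ^ (k * B₁ * (p - 1))) * e4 -
        ((α : F) * algebraMap O F (wu : O) * algebraMap O F π ^ n * H ^ p *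
          (x : F) ^ (k * B₁ * (p - 1))) * e3)
  obtain ⟨l, hl⟩ : ∃ l : ℤ, (i : ℤ) - s = p * l := Nat.modEq_iff_dvd.mp hi.symm
  obtain ⟨q, hq⟩ := hI
  have hq' : (i : ℤ) * A₁ + k * B₁ * ((p : ℤ) - 1) = p * q := by
    have := congrArg (fun t : ℕ => (t : ℤ)) hq
    push_cast [Nat.cast_sub h.prime.one_le] at this
    exact this
  exact ⟨q - l * A₁ - k * B₁, by linear_combination hq' - (A₁ : ℤ) * hl⟩

end IsWildModel

end Fermat.Agent.Models
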